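import Fermat.Agent.Corollaries.SEL.Malcev

/-!
# The groups of Baumslag and Solitar

`BS m n` is the group with the generators `a`, `t` and the relation `t a^m t⁻¹ = a^n`, defined as an
HNN extension of the infinite cyclic group. For coprime numbers `m, n ≥ 2`:

* `bs_not_hopf` : **it is not Hopfian (Baumslag, Solitar 1962);**
* `bs_not_residuallyFinite` : it is not residually finite;
* `bs_not_linear` : **it has no injective homomorphism to a group of matrices over a commutative
  ring.**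
-/

set_option autoImplicit false

open Multiplicative HNNExtension

namespace Fermat.Agent.Cor.SEL

/-- `x ↦ x ^ m` on the infinite cyclic group. -/
def pw (m : ℕ) : Multiplicative ℤ →* Multiplicative ℤ := powMonoidHom m

theorem pw_apply (m : ℕ) (x : Multiplicative ℤ) : pw m x = x ^ m := rfl

theorem pw_injective (m : ℕ) [NeZero m] : Function.Injective (pw m) := by
  intro x y h
  have h1 : (m : ℤ) * toAdd x = (m : ℤ) * toAdd y := by
    have := congrArg toAdd h
    simpa [pw_apply] using this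
  exact toAdd.injective (mul_left_cancel₀ (by exact_mod_cast NeZero.ne m) h1)

/-- `x ^ m ↦ x ^ n`. -/
noncomputable def bsEquiv (m n : ℕ) [NeZero m] [NeZero n] : (pw m).range ≃* (pw n).range :=
  (MonoidHom.ofInjective (pw_injective m)).symm.trans (MonoidHom.ofInjective (pw_injective n))

theorem bsEquiv_apply (m n : ℕ) [NeZero m] [NeZero n] (x : Multiplicative ℤ) :
    (bsEquiv m n ⟨x ^ m, ⟨x, rfl⟩⟩ : Multiplicative ℤ) = x ^ n := by
  have h : (MonoidHom.ofInjective (pw_injective m)).symm ⟨x ^ m, ⟨x, rfl⟩⟩ = x :=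
    (MonoidHom.ofInjective (pw_injective m)).symm_apply_eq.mpr rfl
  rw [bsEquiv, MulEquiv.trans_apply, h]
  rfl

/-- The group of Baumslag and Solitar. -/
abbrev BS (m n : ℕ) [NeZero m] [NeZero n] : Type _ :=
  HNNExtension (Multiplicative ℤ) (pw m).range (pw n).range (bsEquiv m n)

section

variable {m n : ℕ} [NeZero m] [NeZero n]

/-- The relation `t a^m = a^n t`. -/
theorem t_mul_of_pow (x : Multiplicative ℤ) :
    (t : BS m n) * of (x ^ m) = of (x ^ n) * t := by
  have h := t_mul_of (φ := bsEquiv m n) ⟨x ^ m, ⟨x, rfl⟩⟩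
  rw [bsEquiv_apply] at h
  exact h

/-- `a ↦ a^m`, `t ↦ t`. -/
noncomputable def endo (m n : ℕ) [NeZero m] [NeZero n] : BS m n →* BS m n :=
  lift (of.comp (pw m)) t (by
    rintro ⟨_, y, rfl⟩
    have h1 := bsEquiv_apply m n y
    change (t : BS m n) * of ((y ^ m) ^ m) = of ((bsEquiv m n ⟨y ^ m, ⟨y, rfl⟩⟩ :
      Multiplicative ℤ) ^ m) * t
    rw [h1, ← pow_mul y n m, mul_comm n m, pow_mul y m n]
    exact t_mul_of_pow (y ^ m))

theorem endo_t : endo m n t = t := lift_t _ _ _

theorem endo_of (x : Multiplicative ℤ) : endo m n (of x) = of (x ^ m) := lift_of _ _ _ _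

theorem endo_surjective (h : m.Coprime n) : Function.Surjective (endo m n) := by
  have h1 : ∀ x, (of x : BS m n) ∈ (endo m n).range := by
    intro x
    have h2 : (of (x ^ m) : BS m n) ∈ (endo m n).range := ⟨of x, endo_of x⟩
    have ht : (t : BS m n) ∈ (endo m n).range := ⟨t, endo_t⟩
    have h3 : (of (x ^ n) : BS m n) ∈ (endo m n).range := by
      have h4 : (of (x ^ n) : BS m n) = t * of (x ^ m) * t⁻¹ := by
        rw [t_mul_of_pow, mul_inv_cancel_right]
      rw [h4]
      exact mul_mem (mul_mem ht h2) (inv_mem ht)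
    obtain ⟨u, v, huv⟩ := Nat.isCoprime_iff_coprime.mpr h
    have h5 : (of x : BS m n) = (of (x ^ m)) ^ u * (of (x ^ n)) ^ v := by
      rw [← map_zpow, ← map_zpow, ← map_mul, ← zpow_natCast, ← zpow_natCast, ← zpow_mul,
        ← zpow_mul, ← zpow_add, mul_comm (m : ℤ) u, mul_comm (n : ℤ) v, huv, zpow_one]
    rw [h5]
    exact mul_mem (zpow_mem h2 u) (zpow_mem h3 v)
  intro g
  refine HNNExtension.induction_on (motive := fun g => ∃ x, endo m n x = g) g h1 ⟨t, endo_t⟩
    (fun x y => ?_) (fun x => ?_)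
  · rintro ⟨a, rfl⟩ ⟨b, rfl⟩
    exact ⟨a * b, map_mul _ _ _⟩
  · rintro ⟨a, rfl⟩
    exact ⟨a⁻¹, map_inv _ _⟩

theorem ofAdd_notMem {m : ℕ} (hm : 2 ≤ m) {x : ℤ} (hx : x = 1 ∨ x = -1) :
    ofAdd x ∉ (pw m).range := by
  rintro ⟨y, hy⟩
  have h1 : (m : ℤ) * toAdd y = x := by
    have := congrArg toAdd hy
    simpa [pw_apply] using this
  have h2 : (m : ℤ) ∣ 1 := by
    rcases hx with rfl | rfl
    · exact ⟨_, h1.symm⟩
    · exact ⟨-toAdd y, by linarith⟩
  have h3 := Int.le_of_dvd one_pos h2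
  omega

/-- The commutator of `t a t⁻¹` and `a` is not one. -/
theorem word_ne_one (hm : 2 ≤ m) (hn : 2 ≤ n) :
    (t * of (ofAdd 1) * t⁻¹ * of (ofAdd 1) * t * of (ofAdd (-1)) * t⁻¹ * of (ofAdd (-1)) : BS m n) ≠
      1 := by
  intro h
  have hA : ∀ x : ℤ, x = 1 ∨ x = -1 → ofAdd x ∉ HNNExtension.toSubgroup (pw m).range (pw n).range 1 :=
    fun x hx => ofAdd_notMem hm hx
  have hB : ∀ x : ℤ, x = 1 ∨ x = -1 →
      ofAdd x ∉ HNNExtension.toSubgroup (pw m).range (pw n).range (-1) :=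
    fun x hx => ofAdd_notMem hn hx
  let w : NormalWord.ReducedWord (Multiplicative ℤ) (pw m).range (pw n).range :=
    { head := 1
      toList := [(1, ofAdd 1), (-1, ofAdd 1), (1, ofAdd (-1)), (-1, ofAdd (-1))]
      chain := by
        refine List.IsChain.cons_cons (fun h => absurd h (hA 1 (Or.inl rfl))) ?_
        refine List.IsChain.cons_cons (fun h => absurd h (hB 1 (Or.inl rfl))) ?_
        refine List.IsChain.cons_cons (fun h => absurd h (hA (-1) (Or.inr rfl))) ?_
        exact List.isChain_singleton _ }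
  have hw : w.prod (bsEquiv m n) = 1 := by
    rw [← h]
    simp [NormalWord.ReducedWord.prod, w, mul_assoc]
  have h1 := ReducedWord.toList_eq_nil_of_mem_of_range (φ := bsEquiv m n) w (by
    rw [hw]
    exact one_mem _)
  exact absurd h1 (by simp [w])

theorem endo_word :
    endo m n (t * of (ofAdd 1) * t⁻¹ * of (ofAdd 1) * t * of (ofAdd (-1)) * t⁻¹ * of (ofAdd (-1))) =
      1 := by
  have h1 : ∀ x, (t : BS m n) * of (x ^ m) * t⁻¹ = of (x ^ n) := fun x => by
    rw [t_mul_of_pow, mul_inv_cancel_right]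
  have h2 : (ofAdd (-1) : Multiplicative ℤ) = (ofAdd 1)⁻¹ := rfl
  rw [h2]
  simp only [map_mul, map_inv, endo_t, endo_of]
  have h3 : (t * of (ofAdd 1 ^ m) * t⁻¹ * of (ofAdd 1 ^ m) * t * (of (ofAdd 1 ^ m))⁻¹ * t⁻¹ *
      (of (ofAdd 1 ^ m))⁻¹ : BS m n) = (t * of (ofAdd 1 ^ m) * t⁻¹) * of (ofAdd 1 ^ m) *
        (t * of (ofAdd 1 ^ m) * t⁻¹)⁻¹ * (of (ofAdd 1 ^ m))⁻¹ := by group
  rw [h3, h1, ← map_inv, ← map_inv, ← map_mul, ← map_mul, ← map_mul,
    mul_comm (ofAdd 1 ^ n) (ofAdd 1 ^ m), mul_inv_cancel_right, mul_inv_cancel, map_one]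

end

/-- **The group of Baumslag and Solitar is not Hopfian**, `m, n ≥ 2` coprime. -/
theorem bs_not_hopf (m n : ℕ) [NeZero m] [NeZero n] (hm : 2 ≤ m) (hn : 2 ≤ n) (h : m.Coprime n) :
    ∃ f : BS m n →* BS m n, Function.Surjective f ∧ ¬ Function.Injective f :=
  ⟨endo m n, endo_surjective h, fun hinj =>
    word_ne_one hm hn (hinj (by rw [endo_word, map_one]))⟩

theorem fg_bs (m n : ℕ) [NeZero m] [NeZero n] : Group.FG (BS m n) := by
  classical
  refine ⟨⟨{(t : BS m n), of (ofAdd 1)}, ?_⟩⟩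
  rw [eq_top_iff]
  intro g _
  refine HNNExtension.induction_on (motive := fun g => g ∈
    Subgroup.closure ((({(t : BS m n), of (ofAdd 1)} : Finset (BS m n))) : Set (BS m n))) g ?_ ?_
    (fun x y hx hy => mul_mem hx hy) (fun x hx => inv_mem hx)
  · intro x
    have h1 : (of x : BS m n) = (of (ofAdd 1)) ^ (toAdd x) := by
      rw [← map_zpow, ← ofAdd_zsmul, smul_eq_mul, mul_one]
      rfl
    rw [h1]
    exact zpow_mem (Subgroup.subset_closure (by simp)) _
  · exact Subgroup.subset_closure (by simp)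

/-- **It is not residually finite.** -/
theorem bs_not_residuallyFinite (m n : ℕ) [NeZero m] [NeZero n] (hm : 2 ≤ m) (hn : 2 ≤ n)
    (h : m.Coprime n) : ¬ Group.ResiduallyFinite (BS m n) := by
  intro hres
  have hfg := fg_bs m n
  obtain ⟨f, hf1, hf2⟩ := bs_not_hopf m n hm hn h
  exact hf2 (injective_of_surjective f hf1)

/-- **It is not a group of matrices over a commutative ring.** -/
theorem bs_not_linear (m n : ℕ) [NeZero m] [NeZero n] (hm : 2 ≤ m) (hn : 2 ≤ n)
    (h : m.Coprime n) {A ι : Type*} [CommRing A] [Fintype ι] [DecidableEq ι]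
    (ρ : BS m n →* Matrix.GeneralLinearGroup ι A) : ¬ Function.Injective ρ := by
  intro hinj
  have hfg := fg_bs m n
  have h1 : ρ.range.FG := (Group.fg_iff_subgroup_fg _).mp (Group.fg_range ρ)
  have h2 := malcev ρ.range h1
  apply bs_not_residuallyFinite m n hm hn h
  rw [Group.residuallyFinite_iff_exists_finiteIndex]
  intro g hg
  obtain ⟨K, hK⟩ := Group.exists_finiteIndexNormalSubgroup_notMem (ρ.rangeRestrict g) fun h =>
    hg (hinj (by rw [map_one]; exact congrArg Subtype.val h))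
  exact ⟨((QuotientGroup.mk' K.toSubgroup).comp ρ.rangeRestrict).ker, Subgroup.finiteIndex_ker _,
    fun h => hK ((QuotientGroup.eq_one_iff _).mp (MonoidHom.mem_ker.mp h))⟩

end Fermat.Agent.Cor.SEL
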