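import Fermat.Agent.Corollaries.SEL.Selb

/-!
# Groups of matrices of finite exponent

* `eq_one_of_trace` : a matrix `u` over a field of characteristic zero with `u ^ m = 1` and
  `tr (u ^ j) = n` for all `j` is one;
* `finite_trace` : the traces of the matrices `u` with `u ^ m = 1` form a finite set;
* `burnside` : **a group of matrices over a field of characteristic zero which is of finite exponent
  is finite;**
* `finite_of_torsion` : **the torsion subgroups of a finitely generated group of matrices over a
  field of characteristic zero are finite.**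
-/

set_option autoImplicit false

universe u

open Matrix

namespace Fermat.Agent.Cor.SEL

/-- An idempotent matrix of trace zero over a field of characteristic zero is zero. -/
theorem eq_zero_of_trace_eq_zero {K n : Type*} [Field K] [CharZero K] [Fintype n] [DecidableEq n]
    {e : Matrix n n K} (he : e * e = e) (h : e.trace = 0) : e = 0 := by
  have h1 : IsIdempotentElem (Matrix.toLin' e) := by
    change (Matrix.toLin' e).comp (Matrix.toLin' e) = Matrix.toLin' e
    rw [← Matrix.toLin'_mul, he]
  have h2 := LinearMap.IsIdempotentElem.eq_zero_of_trace_eq_zero h1 (by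
    rw [Matrix.trace_toLin'_eq]
    exact h)
  exact (Matrix.toLin' (R := K)).injective (by rw [h2, map_zero])

/-- A matrix of finite order all of whose powers have trace `n` is one. -/
theorem eq_one_of_trace {K n : Type*} [Field K] [CharZero K] [Fintype n] [DecidableEq n]
    {u : Matrix n n K} {m : ℕ} (hm : m ≠ 0) (hu : u ^ m = 1)
    (h : ∀ j : ℕ, (u ^ j).trace = Fintype.card n) : u = 1 := by
  have hmK : (m : K) ≠ 0 := by exact_mod_cast hm
  set s : Matrix n n K := ∑ j ∈ Finset.range m, u ^ j with hs
  have h1 : u * s = s := by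
    have h2 : u * s + 1 = s + u ^ m := by
      rw [hs, Finset.mul_sum, ← Finset.sum_range_succ, Finset.sum_range_succ', pow_zero]
      simp only [pow_succ']
    rw [hu] at h2
    exact add_right_cancel h2
  have h3 : ∀ j : ℕ, u ^ j * s = s := by
    intro j
    induction j with
    | zero => rw [pow_zero, one_mul]
    | succ j ih => rw [pow_succ, mul_assoc, h1, ih]
  have h4 : s * s = (m : K) • s := by
    conv_lhs => rw [hs, Finset.sum_mul]
    rw [Finset.sum_congr rfl fun j _ => h3 j, Finset.sum_const, Finset.card_range,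
      ← Nat.cast_smul_eq_nsmul K]
  set e : Matrix n n K := (m : K)⁻¹ • s with he
  have h5 : e * e = e := by
    rw [he, smul_mul_smul_comm, h4, smul_smul, mul_assoc, inv_mul_cancel₀ hmK, mul_one]
  have h6 : (1 - e).trace = 0 := by
    rw [Matrix.trace_sub, he, Matrix.trace_smul, hs, Matrix.trace_sum,
      Finset.sum_congr rfl fun j _ => h j, Finset.sum_const, Finset.card_range, Matrix.trace_one,
      nsmul_eq_mul, smul_eq_mul, ← mul_assoc, inv_mul_cancel₀ hmK, one_mul, sub_self]
  have h7 : (1 - e) = 0 := by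
    refine eq_zero_of_trace_eq_zero ?_ h6
    rw [mul_sub, sub_mul, sub_mul, h5, one_mul, mul_one, one_mul]
    abel
  have h8 : e = 1 := (sub_eq_zero.mp h7).symm
  have h9 : u * e = e := by
    rw [he, mul_smul_comm, h1]
  rw [h8, mul_one] at h9
  exact h9

/-- The traces of the matrices with `u ^ m = 1`. -/
theorem finite_trace (K : Type*) [Field K] (n : Type*) [Fintype n] [DecidableEq n] {m : ℕ}
    (hm : m ≠ 0) : {t : K | ∃ u : Matrix n n K, u ^ m = 1 ∧ u.trace = t}.Finite := by
  classical
  let L := AlgebraicClosure K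
  let W : Finset L := Polynomial.nthRootsFinset m 1
  set F : Finset L := Finset.image (fun s : Sym L (Fintype.card n) => (s : Multiset L).sum)
    (W.sym (Fintype.card n)) with hF
  have h1 : (F : Set L).Finite := Finset.finite_toSet _
  refine (h1.preimage (f := algebraMap K L) (algebraMap K L).injective.injOn).subset ?_
  rintro _ ⟨u, hu, rfl⟩
  set v : Matrix n n L := (algebraMap K L).mapMatrix u with hv
  have hv1 : v ^ m = 1 := by rw [hv, ← map_pow, hu, map_one]
  have hcard : Multiset.card v.charpoly.roots = Fintype.card n := by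
    rw [← Matrix.charpoly_natDegree_eq_dim v]
    exact (IsAlgClosed.splits v.charpoly).natDegree_eq_card_roots.symm
  have hW : ∀ r ∈ v.charpoly.roots, r ∈ W := by
    intro r hr
    have h2 : r ∈ spectrum L v :=
      Matrix.mem_spectrum_iff_isRoot_charpoly.mpr (Polynomial.isRoot_of_mem_roots hr)
    have h3 : Nontrivial (Matrix n n L) := by
      by_contra h
      rw [not_nontrivial_iff_subsingleton] at h
      have := spectrum.of_subsingleton (R := L) v
      rw [this] at h2
      exact h2
    have h4 := spectrum.pow_mem_pow v m h2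
    rw [hv1, spectrum.one_eq, Set.mem_singleton_iff] at h4
    exact (Polynomial.mem_nthRootsFinset (Nat.pos_of_ne_zero hm) 1).mpr h4
  rw [Set.mem_preimage, Finset.mem_coe, hF, Finset.mem_image]
  refine ⟨Sym.mk v.charpoly.roots hcard, Finset.mem_sym_iff.mpr hW, ?_⟩
  change v.charpoly.roots.sum = algebraMap K L u.trace
  rw [← Matrix.trace_eq_sum_roots_charpoly, hv, AddMonoidHom.map_trace]
  rfl

/-- Two elements of a group of matrices of finite order with the same traces. -/
theorem eq_of_trace {K n : Type*} [Field K] [CharZero K] [Fintype n] [DecidableEq n]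
    (Γ : Subgroup (GL n K)) (hΓ : ∀ g ∈ Γ, IsOfFinOrder g) {g h : GL n K} (hg : g ∈ Γ) (hh : h ∈ Γ)
    (H : ∀ y ∈ Γ, ((g * y : GL n K) : Matrix n n K).trace =
      ((h * y : GL n K) : Matrix n n K).trace) : g = h := by
  have hu : g * h⁻¹ ∈ Γ := Γ.mul_mem hg (Γ.inv_mem hh)
  obtain ⟨m, hm, hm1⟩ := (isOfFinOrder_iff_pow_eq_one).mp (hΓ _ hu)
  have h1 : ∀ j : ℕ, (((g * h⁻¹) ^ j : GL n K) : Matrix n n K).trace = Fintype.card n := by
    intro j
    induction j with
    | zero => rw [pow_zero, Units.val_one, Matrix.trace_one]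
    | succ j ih =>
      rw [pow_succ', mul_assoc, H _ (Γ.mul_mem (Γ.inv_mem hh) (Γ.pow_mem hu j)),
        mul_inv_cancel_left, ih]
  have h2 : ((g * h⁻¹ : GL n K) : Matrix n n K) = 1 := by
    refine eq_one_of_trace hm.ne' ?_ fun j => ?_
    · rw [← Units.val_pow_eq_pow_val, hm1, Units.val_one]
    · rw [← Units.val_pow_eq_pow_val, h1]
  exact mul_inv_eq_one.mp (Units.ext h2)

/-- **Burnside's theorem.** A group of matrices over a field of characteristic zero which is of
finite exponent is finite. -/
theorem burnside {K n : Type*} [Field K] [CharZero K] [Fintype n] [DecidableEq n]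
    (Γ : Subgroup (GL n K)) {m : ℕ} (hm : m ≠ 0) (hΓ : ∀ g ∈ Γ, g ^ m = 1) : Finite Γ := by
  classical
  have htors : ∀ g ∈ Γ, IsOfFinOrder g := fun g hg =>
    isOfFinOrder_iff_pow_eq_one.mpr ⟨m, Nat.pos_of_ne_zero hm, hΓ g hg⟩
  obtain ⟨b, hb1, hb2, hb3⟩ := exists_linearIndependent K
    ((fun g : GL n K => (g : Matrix n n K)) '' (Γ : Set (GL n K)))
  have hbfin : Finite b := hb3.finite
  set Tr : Set K := {t : K | ∃ u : Matrix n n K, u ^ m = 1 ∧ u.trace = t} with hTr
  have hTrfin : Finite Tr := finite_trace K n hm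
  have hmem : ∀ g ∈ Γ, ∀ y ∈ b, ((g : Matrix n n K) * y).trace ∈ Tr := by
    intro g hg y hy
    obtain ⟨y, hyΓ, rfl⟩ := hb1 hy
    refine ⟨((g * y : GL n K) : Matrix n n K), ?_, ?_⟩
    · rw [← Units.val_pow_eq_pow_val, hΓ _ (Γ.mul_mem hg hyΓ), Units.val_one]
    · rw [Units.val_mul]
  refine Finite.of_injective (fun (g : Γ) (y : b) =>
    (⟨((g : GL n K) : Matrix n n K) * (y : Matrix n n K) |>.trace, hmem g g.2 y y.2⟩ : Tr)) ?_
  intro g h hgh
  apply Subtype.ext
  refine eq_of_trace Γ htors g.2 h.2 fun y hy => ?_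
  have h1 : ((y : GL n K) : Matrix n n K) ∈ Submodule.span K b := by
    rw [hb2]
    exact Submodule.subset_span ⟨y, hy, rfl⟩
  rw [Units.val_mul, Units.val_mul]
  refine Submodule.span_induction (p := fun y _ => (((g : GL n K) : Matrix n n K) * y).trace =
    (((h : GL n K) : Matrix n n K) * y).trace) ?_ ?_ ?_ ?_ h1
  · intro y hy
    exact congrArg Subtype.val (congrFun hgh ⟨y, hy⟩)
  · rw [mul_zero, mul_zero]
  · intro y z _ _ hy hz
    rw [mul_add, mul_add, Matrix.trace_add, Matrix.trace_add, hy, hz]
  · intro c y _ hy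
    rw [mul_smul_comm, mul_smul_comm, Matrix.trace_smul, Matrix.trace_smul, hy]

/-- **A torsion subgroup of a finitely generated group of matrices over a field of characteristic
zero is finite.** -/
theorem finite_of_torsion {K : Type u} [Field K] [CharZero K] {n : Type*} [Fintype n]
    [DecidableEq n] (Γ : Subgroup (GL n K)) (hΓ : Γ.FG) (T : Subgroup (GL n K)) (hT : T ≤ Γ)
    (h : ∀ g ∈ T, IsOfFinOrder g) : Finite T := by
  obtain ⟨m, hm, hm1⟩ := exists_pow_eq_one Γ hΓ
  refine burnside T hm fun g hg => ?_
  have h1 : IsOfFinOrder (⟨g, hT hg⟩ : Γ) :=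
    (Submonoid.isOfFinOrder_coe (H := Γ.toSubmonoid) (x := ⟨g, hT hg⟩)).mp (h g hg)
  exact congrArg Subtype.val (hm1 _ h1)

end Fermat.Agent.Cor.SEL
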