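import Mathlib

/-!
# Commutative normal subgroups of bounded index: compactness

If every finitely generated subgroup of a group `Γ` has a commutative normal subgroup of index at
most `J`, then so has `Γ`.
-/

set_option autoImplicit false

open Filter

namespace Fermat.Agent.Cor.SEL

/-- **Compactness.** -/
theorem exists_of_fg {Γ : Type*} [Group Γ] {J : ℕ}
    (H : ∀ F : Subgroup Γ, F.FG → ∃ N : Subgroup F, N.Normal ∧
      (∀ x ∈ N, ∀ y ∈ N, x * y = y * x) ∧ N.FiniteIndex ∧ N.index ≤ J) :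
    ∃ N : Subgroup Γ, N.Normal ∧ (∀ x ∈ N, ∀ y ∈ N, x * y = y * x) ∧ N.FiniteIndex ∧
      N.index ≤ J := by
  classical
  choose N hN1 hN2 hN3 hN4 using fun s : Finset Γ => H (Subgroup.closure (s : Set Γ)) ⟨s, rfl⟩
  let P : Finset Γ → Γ → Prop := fun s x =>
    ∃ h : x ∈ Subgroup.closure (s : Set Γ), (⟨x, h⟩ : Subgroup.closure (s : Set Γ)) ∈ N s
  let 𝒰 : Ultrafilter (Finset Γ) := Ultrafilter.of atTop
  have hU : ∀ x : Γ, ∀ᶠ s : Finset Γ in (𝒰 : Filter (Finset Γ)), x ∈ Subgroup.closure (s : Set Γ) := by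
    intro x
    refine (Ultrafilter.of_le atTop) ?_
    filter_upwards [eventually_ge_atTop ({x} : Finset Γ)] with s hs
    exact Subgroup.subset_closure (hs (Finset.mem_singleton_self x))
  let A : Subgroup Γ :=
    { carrier := {x | ∀ᶠ s : Finset Γ in (𝒰 : Filter (Finset Γ)), P s x}
      one_mem' := Eventually.of_forall fun s => ⟨one_mem _, one_mem _⟩
      mul_mem' := fun {x y} hx hy => by
        filter_upwards [hx, hy] with s h1 h2
        obtain ⟨h1, h1'⟩ := h1
        obtain ⟨h2, h2'⟩ := h2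
        exact ⟨mul_mem h1 h2, mul_mem h1' h2'⟩
      inv_mem' := fun {x} hx => by
        filter_upwards [hx] with s h1
        obtain ⟨h1, h1'⟩ := h1
        exact ⟨inv_mem h1, inv_mem h1'⟩ }
  have hA : ∀ x, x ∈ A ↔ ∀ᶠ s : Finset Γ in (𝒰 : Filter (Finset Γ)), P s x := fun x => Iff.rfl
  have hcard : ∀ t : Finset (Γ ⧸ A), t.card ≤ J := by
    intro t
    have h1 : ∀ᶠ s : Finset Γ in (𝒰 : Filter (Finset Γ)), ∀ q ∈ t,
        (q.out : Γ) ∈ Subgroup.closure (s : Set Γ) :=
      (eventually_all_finset t).mpr fun q _ => hU _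
    have h2 : ∀ᶠ s : Finset Γ in (𝒰 : Filter (Finset Γ)), ∀ q ∈ t, ∀ r ∈ t, q ≠ r →
        ¬ P s ((q.out : Γ)⁻¹ * r.out) := by
      refine (eventually_all_finset t).mpr fun q _ => (eventually_all_finset t).mpr fun r _ => ?_
      by_cases hqr : q = r
      · exact Eventually.of_forall fun s h => absurd hqr h
      · have h3 : (q.out : Γ)⁻¹ * r.out ∉ A := by
          intro h
          apply hqr
          rw [← QuotientGroup.out_eq' q, ← QuotientGroup.out_eq' r]
          exact QuotientGroup.eq.mpr h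
        rw [hA, ← Ultrafilter.eventually_not] at h3
        filter_upwards [h3] with s hs _
        exact hs
    obtain ⟨s, hs1, hs2⟩ := (h1.and h2).exists
    have := hN3 s
    have h4 : Nat.card t ≤ Nat.card (Subgroup.closure (s : Set Γ) ⧸ N s) := by
      refine Nat.card_le_card_of_injective
        (fun q : t => QuotientGroup.mk (⟨q.1.out, hs1 q.1 q.2⟩ : Subgroup.closure (s : Set Γ))) ?_
      intro q r hqr
      by_contra hne
      refine hs2 q.1 q.2 r.1 r.2 (fun h => hne (Subtype.ext h)) ?_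
      have h5 := QuotientGroup.eq.mp hqr
      exact ⟨mul_mem (inv_mem (hs1 q.1 q.2)) (hs1 r.1 r.2), h5⟩
    rw [Nat.card_eq_fintype_card, Fintype.card_coe] at h4
    exact h4.trans (hN4 s)
  have hfin : Finite (Γ ⧸ A) := by
    by_contra h
    rw [not_finite_iff_infinite] at h
    obtain ⟨t, -, ht⟩ := Infinite.exists_superset_card_eq (∅ : Finset (Γ ⧸ A)) (J + 1) (by simp)
    have := hcard t
    omega
  refine ⟨A, ?_, ?_, Subgroup.finiteIndex_of_finite_quotient, ?_⟩
  · refine Subgroup.Normal.mk fun x hx g => ?_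
    rw [hA] at hx ⊢
    filter_upwards [hx, hU g] with s h1 h2
    obtain ⟨h1, h1'⟩ := h1
    exact ⟨mul_mem (mul_mem h2 h1) (inv_mem h2), (hN1 s).conj_mem _ h1' ⟨g, h2⟩⟩
  · intro x hx y hy
    rw [hA] at hx hy
    obtain ⟨s, ⟨h1, h1'⟩, ⟨h2, h2'⟩⟩ := (hx.and hy).exists
    exact congrArg Subtype.val (hN2 s _ h1' _ h2')
  · let _ : Fintype (Γ ⧸ A) := Fintype.ofFinite _
    rw [Subgroup.index, Nat.card_eq_fintype_card]
    exact hcard Finset.univ

end Fermat.Agent.Cor.SEL
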