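import Fermat.Agent.Corollaries.SEL.MinkQ

/-!
# Finite groups of rational matrices are conjugate to groups of integral matrices

`exists_conj_int` : **for a finite subgroup `G` of `GL_n(ℚ)` there is `P` in `GL_n(ℚ)` such that
`P⁻¹ G P` is contained in `GL_n(ℤ)`.**
-/

set_option autoImplicit false

namespace Fermat.Agent.Cor.SEL

open Matrix Module

/-- The lattice generated by the images of the standard basis is stable. -/
theorem exists_basis {n : Type*} [Fintype n] [DecidableEq n] (G : Subgroup (GL n ℚ)) [Finite G] :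
    ∃ C : Basis n ℚ (n → ℚ), ∀ g ∈ G, ∀ i j, ∃ z : ℤ,
      C.repr ((g : Matrix n n ℚ) *ᵥ C j) i = (z : ℚ) := by
  classical
  let S : Set (n → ℚ) :=
    Set.range fun x : G × n => ((x.1 : GL n ℚ) : Matrix n n ℚ) *ᵥ (Pi.single x.2 (1 : ℚ))
  have hS : S.Finite := Set.finite_range _
  let L : Submodule ℤ (n → ℚ) := Submodule.span ℤ S
  have hfg : Module.Finite ℤ L := Module.Finite.iff_fg.mpr (Submodule.fg_span hS)
  have hfree : Module.Free ℤ L := inferInstance
  have hst : ∀ g ∈ G, ∀ v ∈ L, (g : Matrix n n ℚ) *ᵥ v ∈ L := by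
    intro g hg v hv
    induction hv using Submodule.span_induction with
    | mem x hx =>
      obtain ⟨⟨h, i⟩, rfl⟩ := hx
      refine Submodule.subset_span ⟨(⟨g, hg⟩ * h, i), ?_⟩
      change ((g * (h : GL n ℚ) : GL n ℚ) : Matrix n n ℚ) *ᵥ _ = _
      rw [Units.val_mul, ← Matrix.mulVec_mulVec]
    | zero => rw [Matrix.mulVec_zero]; exact L.zero_mem
    | add x y _ _ hx hy => rw [Matrix.mulVec_add]; exact L.add_mem hx hy
    | smul a x _ hx => rw [Matrix.mulVec_smul]; exact L.smul_mem a hx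
  let b := Module.Free.chooseBasis ℤ L
  have hli : LinearIndependent ℚ (fun i => (b i : n → ℚ)) := by
    rw [← LinearIndependent.iff_fractionRing ℤ ℚ]
    exact b.linearIndependent.map' L.subtype L.ker_subtype
  have hsum : ∀ v (hv : v ∈ L), v = ∑ k, ((b.repr ⟨v, hv⟩ k : ℤ) : ℚ) • (b k : n → ℚ) := by
    intro v hv
    have h2 := congrArg L.subtype (b.sum_repr ⟨v, hv⟩)
    rw [map_sum] at h2
    refine h2.symm.trans (Finset.sum_congr rfl fun k _ => ?_)
    rw [map_zsmul, Int.cast_smul_eq_zsmul]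
    rfl
  have hsp : ⊤ ≤ Submodule.span ℚ (Set.range fun i => (b i : n → ℚ)) := by
    rw [← (Pi.basisFun ℚ n).span_eq, Submodule.span_le]
    rintro _ ⟨i, rfl⟩
    have h1 : Pi.basisFun ℚ n i ∈ L := by
      refine Submodule.subset_span ⟨(1, i), ?_⟩
      change ((1 : GL n ℚ) : Matrix n n ℚ) *ᵥ Pi.single i 1 = Pi.basisFun ℚ n i
      rw [Units.val_one, Matrix.one_mulVec, Pi.basisFun_apply]
    rw [SetLike.mem_coe, hsum _ h1]
    exact Submodule.sum_mem _ fun k _ => Submodule.smul_mem _ _ (Submodule.subset_span ⟨k, rfl⟩)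
  let B := Basis.mk hli hsp
  let e := B.indexEquiv (Pi.basisFun ℚ n)
  refine ⟨B.reindex e, fun g hg i j => ?_⟩
  have hBL : ∀ k, B k ∈ L := fun k => by
    rw [Basis.mk_apply]
    exact (b k).2
  have h1 : (g : Matrix n n ℚ) *ᵥ (B.reindex e) j ∈ L := by
    rw [Basis.reindex_apply]
    exact hst g hg _ (hBL _)
  refine ⟨b.repr ⟨_, h1⟩ (e.symm i), ?_⟩
  have h2 : (g : Matrix n n ℚ) *ᵥ (B.reindex e) j =
      ∑ k, ((b.repr ⟨_, h1⟩ k : ℤ) : ℚ) • B k := by
    refine (hsum _ h1).trans (Finset.sum_congr rfl fun k _ => ?_)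
    rw [Basis.mk_apply]
  rw [Basis.repr_reindex_apply]
  conv_lhs => rw [h2]
  rw [B.repr_sum_self]

/-- **A finite group of rational matrices is conjugate to a group of integral matrices.** -/
theorem exists_conj_int {n : Type*} [Fintype n] [DecidableEq n] (G : Subgroup (GL n ℚ))
    [Finite G] : ∃ P : GL n ℚ, ∀ g ∈ G, ∃ h : GL n ℤ,
      GeneralLinearGroup.map (Int.castRingHom ℚ) h = P⁻¹ * g * P := by
  classical
  obtain ⟨C, hC⟩ := exists_basis G
  let P : GL n ℚ := ⟨(Pi.basisFun ℚ n).toMatrix C, C.toMatrix (Pi.basisFun ℚ n),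
    Basis.toMatrix_mul_toMatrix_flip _ _, Basis.toMatrix_mul_toMatrix_flip _ _⟩
  have hP : ∀ g : GL n ℚ, ((P⁻¹ * g * P : GL n ℚ) : Matrix n n ℚ) =
      LinearMap.toMatrix C C (Matrix.toLin' (g : Matrix n n ℚ)) := by
    intro g
    rw [← basis_toMatrix_mul_linearMap_toMatrix_mul_basis_toMatrix C (Pi.basisFun ℚ n) C
      (Pi.basisFun ℚ n), LinearMap.toMatrix_eq_toMatrix', LinearMap.toMatrix'_toLin']
    rfl
  have hint : ∀ g ∈ G, ∃ M : Matrix n n ℤ, M.map (Int.castRingHom ℚ) =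
      ((P⁻¹ * g * P : GL n ℚ) : Matrix n n ℚ) := by
    intro g hg
    choose z hz using hC g hg
    refine ⟨Matrix.of z, ?_⟩
    rw [hP]
    ext i j
    rw [LinearMap.toMatrix_apply, Matrix.toLin'_apply, hz i j]
    rfl
  have hinj : Function.Injective fun M : Matrix n n ℤ => M.map (Int.castRingHom ℚ) :=
    Matrix.map_injective (Int.cast_injective (α := ℚ))
  refine ⟨P, fun g hg => ?_⟩
  obtain ⟨M, hM⟩ := hint g hg
  obtain ⟨M', hM'⟩ := hint g⁻¹ (G.inv_mem hg)
  have h1 : M * M' = 1 := by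
    apply hinj
    change (M * M').map (Int.castRingHom ℚ) = (1 : Matrix n n ℤ).map (Int.castRingHom ℚ)
    rw [Matrix.map_mul, hM, hM', ← Units.val_mul, Matrix.map_one _ (map_zero _) (map_one _),
      ← Units.val_one]
    congr 1
    group
  have h2 : M' * M = 1 := mul_eq_one_comm.mp h1
  refine ⟨⟨M, M', h1, h2⟩, Units.ext ?_⟩
  exact hM

end Fermat.Agent.Cor.SEL
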