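import Fermat.Agent.Corollaries.SEL.Lin

/-!
# The crystallographic restriction

* `exists_divisors` : if a rational matrix `g` of size `n` is of finite order `m`, then there is a
  set `D` of divisors of `m` with least common multiple `m` and `∑ φ(d) ≤ n`;
* `totient_le` : **if the order is a power `q` of a prime number, then `φ(q) ≤ n`;**
* `crystallographic` : **an element of finite order of `GL_2(ℚ)` or `GL_3(ℚ)` is of order
  1, 2, 3, 4 or 6;** `crystallographic_int` : the same for `GL_2(ℤ)` and `GL_3(ℤ)`.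
-/

set_option autoImplicit false

open Polynomial

namespace Fermat.Agent.Cor.SEL

theorem exists_divisors {n : Type*} [Fintype n] [DecidableEq n] {g : Matrix n n ℚ}
    (hg : 0 < orderOf g) : ∃ D ⊆ (orderOf g).divisors, D.lcm id = orderOf g ∧
      ∑ d ∈ D, d.totient ≤ Fintype.card n := by
  classical
  set m := orderOf g with hm
  set P := minpoly ℚ g with hP
  have hgint : IsIntegral ℚ g := Matrix.isIntegral g
  have hP0 : P ≠ 0 := minpoly.ne_zero hgint
  set D := m.divisors.filter fun d => cyclotomic d ℚ ∣ P with hD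
  have hDm : D ⊆ m.divisors := Finset.filter_subset _ _
  have hcop : ∀ s : Finset ℕ, (s : Set ℕ).Pairwise
      (Function.onFun IsCoprime fun d => cyclotomic d ℚ) := fun s a _ b _ hab =>
    cyclotomic.isCoprime_rat hab
  have hdeg : ∑ d ∈ D, d.totient ≤ Fintype.card n := by
    have h1 : ∏ d ∈ D, cyclotomic d ℚ ∣ P :=
      Finset.prod_dvd_of_coprime (hcop D) fun d hd => (Finset.mem_filter.mp hd).2
    have h2 := natDegree_le_of_dvd h1 hP0
    rw [natDegree_prod _ _ fun d _ => cyclotomic_ne_zero d ℚ] at h2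
    simp only [natDegree_cyclotomic] at h2
    refine h2.trans ?_
    have h3 := natDegree_le_of_dvd (Matrix.minpoly_dvd_charpoly g) (Matrix.charpoly_monic g).ne_zero
    rwa [Matrix.charpoly_natDegree_eq_dim] at h3
  have hPD : P ∣ ∏ d ∈ D, cyclotomic d ℚ := by
    have h1 : P ∣ X ^ m - 1 := minpoly.dvd ℚ g (by
      rw [map_sub, map_pow, aeval_X, map_one, hm, pow_orderOf_eq_one, sub_self])
    rw [← prod_cyclotomic_eq_X_pow_sub_one hg, ← Finset.prod_sdiff hDm] at h1
    refine IsCoprime.dvd_of_dvd_mul_left ?_ h1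
    refine IsCoprime.prod_right fun d hd => ?_
    obtain ⟨hd1, hd2⟩ := Finset.mem_sdiff.mp hd
    have h2 : ¬ cyclotomic d ℚ ∣ P := fun h => hd2 (Finset.mem_filter.mpr ⟨hd1, h⟩)
    have hdpos : 0 < d := Nat.pos_of_mem_divisors hd1
    exact ((cyclotomic.irreducible_rat hdpos).coprime_iff_not_dvd.mpr h2).symm
  refine ⟨D, hDm, ?_, hdeg⟩
  refine Nat.dvd_antisymm (Finset.lcm_dvd fun d hd => Nat.dvd_of_mem_divisors (hDm hd)) ?_
  have h1 : P ∣ X ^ (D.lcm id) - 1 := by
    refine hPD.trans (Finset.prod_dvd_of_coprime (hcop D) fun d hd => ?_)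
    have hdl : d ∣ D.lcm id := Finset.dvd_lcm (f := id) hd
    refine (cyclotomic.dvd_X_pow_sub_one d ℚ).trans ?_
    obtain ⟨c, hc⟩ := hdl
    rw [hc, pow_mul]
    simpa using sub_dvd_pow_sub_pow (X ^ d : ℚ[X]) 1 c
  obtain ⟨Q, hQ⟩ := h1
  have h2 := congrArg (aeval g) hQ
  rw [map_mul, minpoly.aeval, zero_mul, map_sub, map_pow, aeval_X, map_one, sub_eq_zero] at h2
  exact orderOf_dvd_of_pow_eq_one h2

/-- **The order `q` of a rational matrix of size `n`, if it is a power of a prime number, satisfies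
`φ(q) ≤ n`.** -/
theorem totient_le {n : Type*} [Fintype n] [DecidableEq n] {g : Matrix n n ℚ} {p k : ℕ}
    (hp : p.Prime) (hg : orderOf g = p ^ (k + 1)) :
    (p ^ (k + 1)).totient ≤ Fintype.card n := by
  obtain ⟨D, hD1, hD2, hD3⟩ := exists_divisors (g := g) (by rw [hg]; exact pow_pos hp.pos _)
  rw [hg] at hD1 hD2
  have h1 : p ^ (k + 1) ∈ D := by
    by_contra hne
    have h2 : D.lcm id ∣ p ^ k := Finset.lcm_dvd fun d hd => by
      have h3 := Nat.dvd_of_mem_divisors (hD1 hd)
      obtain ⟨j, hj, rfl⟩ := (Nat.dvd_prime_pow hp).mp h3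
      refine pow_dvd_pow p ?_
      have : j ≠ k + 1 := by
        rintro rfl
        exact hne hd
      omega
    rw [hD2] at h2
    have h4 := (Nat.pow_dvd_pow_iff_le_right hp.one_lt).mp h2
    omega
  exact (Finset.single_le_sum (f := Nat.totient) (fun _ _ => Nat.zero_le _) h1).trans hD3

theorem mem_of_totient_le {d : ℕ} (hd : d ≠ 0) (h : d.totient ≤ 3) :
    d ∈ ({1, 2, 3, 4, 6} : Finset ℕ) := by
  have h12 : d ∣ 12 := by
    rw [Nat.dvd_iff_prime_pow_dvd_dvd]
    intro p k hp hk
    rcases k with _ | k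
    · simp
    have h1 : (p ^ (k + 1)).totient ≤ 3 :=
      (Nat.le_of_dvd (Nat.totient_pos.mpr (Nat.pos_of_ne_zero hd))
        (Nat.totient_dvd_of_dvd hk)).trans h
    rw [Nat.totient_prime_pow_succ hp] at h1
    have h2 : 1 ≤ p ^ k := Nat.one_le_pow _ _ hp.pos
    have h3 : p - 1 ≤ 3 := by nlinarith
    have h4 := hp.two_le
    have h5 : p ≤ 4 := by omega
    interval_cases p
    · have h6 : k < 2 := by
        by_contra hk2
        have : 2 ^ 2 ≤ 2 ^ k := Nat.pow_le_pow_right (by norm_num) (not_lt.mp hk2)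
        omega
      interval_cases k <;> norm_num
    · have h6 : k < 1 := by
        by_contra hk2
        have : 3 ^ 1 ≤ 3 ^ k := Nat.pow_le_pow_right (by norm_num) (not_lt.mp hk2)
        omega
      interval_cases k
      norm_num
    · norm_num at hp
  have h13 : d ≤ 12 := Nat.le_of_dvd (by norm_num) h12
  interval_cases d <;> first | omega | (revert h; decide)

/-- **The crystallographic restriction.** -/
theorem crystallographic {n : Type*} [Fintype n] [DecidableEq n] (hn : Fintype.card n ≤ 3)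
    {g : Matrix n n ℚ} (hg : IsOfFinOrder g) : orderOf g ∈ ({1, 2, 3, 4, 6} : Finset ℕ) := by
  obtain ⟨D, hD1, hD2, hD3⟩ := exists_divisors hg.orderOf_pos
  have h1 : D ⊆ ({1, 2, 3, 4, 6} : Finset ℕ) := fun d hd =>
    mem_of_totient_le (Nat.pos_of_mem_divisors (hD1 hd)).ne'
      (((Finset.single_le_sum (f := Nat.totient) (fun _ _ => Nat.zero_le _) hd).trans hD3).trans hn)
  have h2 : ∀ E ∈ ({1, 2, 3, 4, 6} : Finset ℕ).powerset, ∑ d ∈ E, d.totient ≤ 3 →
      E.lcm id ∈ ({1, 2, 3, 4, 6} : Finset ℕ) := by decide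
  rw [← hD2]
  exact h2 D (Finset.mem_powerset.mpr h1) (hD3.trans hn)

/-- **The crystallographic restriction for integer matrices of size two or three.** -/
theorem crystallographic_int {n : Type*} [Fintype n] [DecidableEq n] (hn : Fintype.card n ≤ 3)
    {g : Matrix.GeneralLinearGroup n ℤ} (hg : IsOfFinOrder g) :
    orderOf g ∈ ({1, 2, 3, 4, 6} : Finset ℕ) := by
  let f : Matrix.GeneralLinearGroup n ℤ →* Matrix n n ℚ :=
    (Units.coeHom (Matrix n n ℚ)).comp (Matrix.GeneralLinearGroup.map (Int.castRingHom ℚ))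
  have hf : Function.Injective f :=
    Units.val_injective.comp (map_injective (Int.castRingHom ℚ) Int.cast_injective)
  rw [← orderOf_injective f hf g]
  exact crystallographic hn (f.isOfFinOrder hg)

end Fermat.Agent.Cor.SEL
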