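import Fermat.Agent.Corollaries.SEL.Malcev

/-!
# Free groups are residually finite

* `residuallyFinite_freeGroup` : **free groups are residually finite;**
* `injective_freeGroup` : **a surjective endomorphism of a free group of finite rank is injective;**
* `bijective_lift` : `n` generators of a free group of rank `n` form a basis;
* `residuallyFinite_mulAut_freeGroup` : the automorphism group of a free group of finite rank is
  residually finite.

The proof of the first statement: `S` is the set of the products of the final segments of a word
`w ≠ 1`. The multiplication by a generator is a bijection from a subset of `S` to a subset of `S`, it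
is continued to a permutation of `S`, and the permutation of `w` maps `1` to `w`.
-/

set_option autoImplicit false

universe u

namespace Fermat.Agent.Cor.SEL

/-- The multiplication by `a` on a finite subset of a group, continued to a permutation. -/
theorem exists_perm {G : Type*} [Group G] (S : Finset G) (a : G) :
    ∃ σ : Equiv.Perm S, ∀ x y : S, (y : G) = a * x → σ x = y := by
  classical
  let f : S → S := fun x => if h : a * (x : G) ∈ S then ⟨a * x, h⟩ else x
  have hf : ∀ x : S, (h : a * (x : G) ∈ S) → f x = ⟨a * x, h⟩ := fun x h => dif_pos h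
  have hinj : Set.InjOn f {x : S | a * (x : G) ∈ S} := by
    intro x hx y hy hxy
    rw [hf x hx, hf y hy, Subtype.mk.injEq, mul_right_inj] at hxy
    exact Subtype.ext hxy
  obtain ⟨g, hg⟩ := Set.MapsTo.exists_equiv_extend_of_card_eq (α := S) (β := S)
    (t := Finset.univ) (by rw [Finset.card_univ]) (s := {x : S | a * (x : G) ∈ S}) (f := f)
    (fun x _ => Finset.mem_coe.mpr (Finset.mem_univ _)) hinj
  refine ⟨g.trans (Equiv.subtypeUnivEquiv fun x => Finset.mem_univ x), fun x y hxy => ?_⟩
  have h1 : a * (x : G) ∈ S := hxy ▸ y.2
  change ((g x : (Finset.univ : Finset S)) : S) = y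
  rw [hg x h1, hf x h1]
  exact Subtype.ext hxy.symm

/-- The word is read from right to left. -/
theorem exists_lift_apply {α : Type u} (S : Finset (FreeGroup α)) (σ : α → Equiv.Perm S)
    (hσ : ∀ (a : α) (x y : S), (y : FreeGroup α) = FreeGroup.of a * x → σ a x = y)
    (L : List (α × Bool)) (hL : ∀ L' : List (α × Bool), L' <:+ L → FreeGroup.mk L' ∈ S) (e : S)
    (he : (e : FreeGroup α) = 1) :
    ((FreeGroup.lift σ (FreeGroup.mk L) e : S) : FreeGroup α) = FreeGroup.mk L := by
  induction L with
  | nil =>
    rw [← FreeGroup.one_eq_mk, map_one, Equiv.Perm.one_apply, he]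
  | cons x L ih =>
    obtain ⟨a, b⟩ := x
    have h1 := ih fun L' hL' => hL L' (hL'.trans (List.suffix_cons _ _))
    have h2 : FreeGroup.mk ((a, b) :: L) = FreeGroup.mk [(a, b)] * FreeGroup.mk L := by
      rw [FreeGroup.mul_mk, List.singleton_append]
    have h3 : FreeGroup.mk ((a, b) :: L) ∈ S := hL _ List.suffix_rfl
    rw [h2, map_mul, Equiv.Perm.mul_apply, ← h2]
    cases b
    · have h4 : FreeGroup.mk [(a, false)] = (FreeGroup.of a)⁻¹ := by
        rw [FreeGroup.of, FreeGroup.inv_mk]
        rfl
      rw [h4, map_inv, FreeGroup.lift_apply_of]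
      have h5 : σ a ⟨_, h3⟩ = FreeGroup.lift σ (FreeGroup.mk L) e := by
        apply hσ
        change _ = FreeGroup.of a * FreeGroup.mk ((a, false) :: L)
        rw [h1, h2, h4, mul_inv_cancel_left]
      rw [← h5]
      exact congrArg Subtype.val ((σ a).symm_apply_apply ⟨_, h3⟩)
    · have h4 : FreeGroup.mk [(a, true)] = FreeGroup.of a := rfl
      rw [h4, FreeGroup.lift_apply_of]
      have h5 : σ a (FreeGroup.lift σ (FreeGroup.mk L) e) = ⟨_, h3⟩ := by
        apply hσ
        change FreeGroup.mk ((a, true) :: L) = _
        rw [h1, h2, h4]
      rw [h5]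

/-- **Free groups are residually finite.** -/
theorem residuallyFinite_freeGroup (α : Type u) : Group.ResiduallyFinite (FreeGroup α) := by
  classical
  refine Group.residuallyFinite_of_forall_exists_finite_monoidHom.{u} fun w hw => ?_
  obtain ⟨L, rfl⟩ : ∃ L, FreeGroup.mk L = w := ⟨w.toWord, FreeGroup.mk_toWord⟩
  let S : Finset (FreeGroup α) := (L.tails.map FreeGroup.mk).toFinset
  have hS : ∀ L' : List (α × Bool), L' <:+ L → FreeGroup.mk L' ∈ S := by
    intro L' hL'
    rw [List.mem_toFinset, List.mem_map]
    exact ⟨L', (List.mem_tails _ _).mpr hL', rfl⟩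
  choose σ hσ using fun a : α => exists_perm S (FreeGroup.of a)
  refine ⟨Equiv.Perm S, inferInstance, inferInstance, FreeGroup.lift σ, fun h => hw ?_⟩
  have h1 : (1 : FreeGroup α) ∈ S := hS [] List.nil_suffix
  have h2 := exists_lift_apply S σ hσ L hS ⟨1, h1⟩ rfl
  rw [h, Equiv.Perm.one_apply] at h2
  exact h2.symm

/-- **A surjective endomorphism of a free group of finite rank is injective.** -/
theorem injective_freeGroup {α : Type u} [Finite α] (f : FreeGroup α →* FreeGroup α)
    (hf : Function.Surjective f) : Function.Injective f := by
  have := residuallyFinite_freeGroup α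
  exact injective_of_surjective f hf

/-- `n` generators of a free group of rank `n` form a basis. -/
theorem bijective_lift {α : Type u} [Finite α] (v : α → FreeGroup α)
    (hv : Subgroup.closure (Set.range v) = ⊤) : Function.Bijective (FreeGroup.lift v) := by
  have h1 : Function.Surjective (FreeGroup.lift v) := by
    rw [← MonoidHom.range_eq_top, FreeGroup.range_lift_eq_closure]
    exact hv
  exact ⟨injective_freeGroup _ h1, h1⟩

/-- The automorphism group of a free group of finite rank is residually finite. -/
theorem residuallyFinite_mulAut_freeGroup (α : Type u) [Finite α] :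
    Group.ResiduallyFinite (MulAut (FreeGroup α)) := by
  have := residuallyFinite_freeGroup α
  exact baumslag _

end Fermat.Agent.Cor.SEL
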