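import Fermat.Agent.Corollaries.SEL.SchurP
import Fermat.Agent.Corollaries.Golod.TwoGen

/-!
# Golod's groups are not linear

For every prime number `p` there is an infinite residually finite `p`-group which is generated by
two elements (Golod); by the theorem of Burnside and Schur its image under every homomorphism to a
group of matrices over a field is finite.
-/

set_option autoImplicit false

universe u

open Matrix

namespace Fermat.Agent.Cor.SEL

/-- The image of a finitely generated torsion group in a group of matrices over a field is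
finite. -/
theorem finite_range_of_torsion {G : Type*} [Group G] [Group.FG G] (hG : ∀ g : G, IsOfFinOrder g)
    {K : Type u} [Field K] {n : Type*} [Fintype n] [DecidableEq n] (ρ : G →* GL n K) :
    Finite ρ.range := by
  refine burnside_schur_field ρ.range ((Group.fg_iff_subgroup_fg _).mp (Group.fg_range ρ)) ?_
  rintro _ ⟨g, rfl⟩
  exact ρ.isOfFinOrder (hG g)

/-- **Golod's groups are not linear over any field.** -/
theorem golod_not_linear (p : ℕ) [hp : Fact p.Prime] :
    ∃ (G : Type) (_ : Group G) (a b : G), Subgroup.closure {a, b} = ⊤ ∧ IsPGroup p G ∧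
      Infinite G ∧ Group.ResiduallyFinite G ∧
        ∀ (K : Type u) [Field K] (n : ℕ) (ρ : G →* GL (Fin n) K), Finite ρ.range := by
  obtain ⟨G, hG, a, b, h1, h2, h3, h4⟩ := Golod.TwoGen.golod_two p
  have hfg : Group.FG G := by
    classical
    exact ⟨⟨{a, b}, by simpa using h1⟩⟩
  refine ⟨G, hG, a, b, h1, h2, h3, h4, fun K _ n ρ => finite_range_of_torsion (fun g => ?_) ρ⟩
  obtain ⟨k, hk⟩ := h2 g
  exact isOfFinOrder_iff_pow_eq_one.mpr ⟨p ^ k, pow_pos hp.out.pos k, hk⟩

end Fermat.Agent.Cor.SEL
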