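import Fermat.Agent.Corollaries.SEL.Malcev

/-!
# Subgroups of finite index in finitely generated groups

* `finite_setOf_index` : **a finitely generated group has only finitely many subgroups of index
  `n` (M. Hall);**
* `exists_characteristic` : every subgroup of finite index of a finitely generated group contains a
  characteristic subgroup of finite index.
-/

set_option autoImplicit false

namespace Fermat.Agent.Cor.SEL

/-- **A finitely generated group has only finitely many subgroups of index `n`.** -/
theorem finite_setOf_index (G : Type*) [Group G] [Group.FG G] {n : ℕ} (hn : n ≠ 0) :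
    {H : Subgroup G | H.index = n}.Finite := by
  classical
  have hex : ∀ H : {H : Subgroup G | H.index = n}, Nonempty (G ⧸ H.1 ≃ Fin n) := by
    rintro ⟨H, hH⟩
    have h1 : Nat.card (G ⧸ H) = n := hH
    have h2 : Finite (G ⧸ H) := Nat.finite_of_card_ne_zero (by rw [h1]; exact hn)
    exact ⟨(Finite.equivFin (G ⧸ H)).trans (finCongr h1)⟩
  let e' : ∀ H : {H : Subgroup G | H.index = n}, G ⧸ H.1 ≃ Fin n := fun H => (hex H).some
  let Φ : {H : Subgroup G | H.index = n} → (G →* Equiv.Perm (Fin n)) × Fin n := fun H =>
    (((e' H).permCongrHom.toMonoidHom).comp (MulAction.toPermHom G (G ⧸ H.1)),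
      e' H ((1 : G) : G ⧸ H.1))
  have hfin : Finite (G →* Equiv.Perm (Fin n)) := finite_monoidHom _ _
  have hΦ : ∀ (H : {H : Subgroup G | H.index = n}) (g : G), g ∈ H.1 ↔ (Φ H).1 g (Φ H).2 =
      (Φ H).2 := by
    intro H g
    change _ ↔ (e' H) (g • ((e' H).symm (e' H ((1 : G) : G ⧸ H.1)))) = e' H ((1 : G) : G ⧸ H.1)
    rw [Equiv.symm_apply_apply, (e' H).injective.eq_iff]
    change _ ↔ ((g * 1 : G) : G ⧸ H.1) = ((1 : G) : G ⧸ H.1)
    rw [mul_one, eq_comm, QuotientGroup.eq, inv_one, one_mul]
  have hfin2 : Finite {H : Subgroup G | H.index = n} := by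
    refine Finite.of_injective Φ fun H K h => Subtype.ext (Subgroup.ext fun g => ?_)
    rw [hΦ H, hΦ K, h]
  exact Set.toFinite _

/-- Every subgroup of finite index of a finitely generated group contains a characteristic subgroup
of finite index. -/
theorem exists_characteristic {G : Type*} [Group G] [Group.FG G] (H : Subgroup G)
    [H.FiniteIndex] : ∃ C : Subgroup G, C ≤ H ∧ C.Characteristic ∧ C.FiniteIndex := by
  have hn : H.index ≠ 0 := Subgroup.FiniteIndex.index_ne_zero
  have hfin : Finite {K : Subgroup G | K.index = H.index} := (finite_setOf_index G hn).to_subtype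
  refine ⟨⨅ K : {K : Subgroup G | K.index = H.index}, K.1, iInf_le_of_le ⟨H, rfl⟩ le_rfl, ?_, ?_⟩
  · rw [Subgroup.characteristic_iff_le_comap]
    intro φ x hx
    rw [Subgroup.mem_comap, Subgroup.mem_iInf]
    intro K
    have h1 : (K.1.comap φ.toMonoidHom).index = H.index := by
      rw [Subgroup.index_comap_of_surjective _ φ.surjective]
      exact K.2
    exact (Subgroup.mem_iInf.mp hx) ⟨_, h1⟩
  · refine Subgroup.finiteIndex_iInf fun K => ⟨?_⟩
    rw [show K.1.index = H.index from K.2]
    exact hn

end Fermat.Agent.Cor.SEL
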