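import Fermat.Agent.Corollaries.SEL.Near

/-!
# Jordan's theorem on the finite groups of matrices

* `exists_unitary` : **a finite group of real or complex matrices is conjugate to a group of unitary
  matrices (Weyl's unitary trick);**
* `jordan` : **a finite group of complex matrices of size `n` has a commutative normal subgroup of
  index at most `25 ^ (n ^ 2)`;**
* `jordan_real` : the same for real matrices with the bound `5 ^ (n ^ 2)`.
-/

set_option autoImplicit false

open Matrix Module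

namespace Fermat.Agent.Cor.SEL

open scoped MatrixOrder ComplexOrder in
/-- **Weyl's unitary trick.** -/
theorem exists_unitary {𝕜 n : Type*} [RCLike 𝕜] [Fintype n] [DecidableEq n]
    (G : Subgroup (GL n 𝕜)) [Finite G] :
    ∃ S : GL n 𝕜, ∀ g ∈ G, ((S * g * S⁻¹ : GL n 𝕜) : Matrix n n 𝕜) ∈ Matrix.unitaryGroup n 𝕜 := by
  classical
  let _ : Fintype G := Fintype.ofFinite G
  set P : Matrix n n 𝕜 :=
    ∑ g : G, star ((g : GL n 𝕜) : Matrix n n 𝕜) * ((g : GL n 𝕜) : Matrix n n 𝕜)
    with hP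
  have hpos : P.PosDef := by
    rw [hP, ← Finset.add_sum_erase _ _ (Finset.mem_univ (1 : G))]
    refine Matrix.PosDef.add_posSemidef ?_ (Matrix.posSemidef_sum _ fun g _ => ?_)
    · rw [Subgroup.coe_one, Units.val_one, star_one, one_mul]
      exact Matrix.PosDef.one
    · exact Matrix.posSemidef_conjTranspose_mul_self _
  have hinv : ∀ g ∈ G, star (g : Matrix n n 𝕜) * P * (g : Matrix n n 𝕜) = P := by
    intro g hg
    rw [hP, Finset.mul_sum, Finset.sum_mul]
    refine Fintype.sum_equiv (Equiv.mulRight (⟨g, hg⟩ : G)) _ _ fun h => ?_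
    rw [Equiv.coe_mulRight, Subgroup.coe_mul, Units.val_mul, star_mul]
    simp only [mul_assoc]
  obtain ⟨S, hS⟩ := CStarAlgebra.nonneg_iff_eq_star_mul_self.mp hpos.posSemidef.nonneg
  have hSu : IsUnit S := by
    have h1 := hpos.isUnit
    rw [hS, Matrix.isUnit_iff_isUnit_det, Matrix.det_mul] at h1
    rw [Matrix.isUnit_iff_isUnit_det]
    exact isUnit_of_mul_isUnit_right h1
  refine ⟨hSu.unit, fun g hg => ?_⟩
  rw [Matrix.mem_unitaryGroup_iff']
  have h1 : star (((hSu.unit * g * hSu.unit⁻¹ : GL n 𝕜)) : Matrix n n 𝕜) *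
      ((hSu.unit * g * hSu.unit⁻¹ : GL n 𝕜) : Matrix n n 𝕜) =
      star ((hSu.unit⁻¹ : GL n 𝕜) : Matrix n n 𝕜) * (star (g : Matrix n n 𝕜) * (star S * S) *
        (g : Matrix n n 𝕜)) * ((hSu.unit⁻¹ : GL n 𝕜) : Matrix n n 𝕜) := by
    rw [Units.val_mul, Units.val_mul, star_mul, star_mul, IsUnit.unit_spec]
    simp only [mul_assoc]
  have h2 : S * ((hSu.unit⁻¹ : GL n 𝕜) : Matrix n n 𝕜) = 1 := hSu.mul_val_inv
  rw [h1, ← hS, hinv g hg, hS]
  calc _ = star (S * ((hSu.unit⁻¹ : GL n 𝕜) : Matrix n n 𝕜)) *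
        (S * ((hSu.unit⁻¹ : GL n 𝕜) : Matrix n n 𝕜)) := by
        rw [star_mul]
        simp only [mul_assoc]
    _ = 1 := by rw [h2, star_one, one_mul]

open scoped Matrix.Norms.L2Operator

/-- Elements of finite groups of matrices, conjugated into the unitary group, are of norm one. -/
theorem norm_le_one {𝕜 n : Type*} [RCLike 𝕜] [Fintype n] [DecidableEq n] {U : Matrix n n 𝕜}
    (hU : U ∈ Matrix.unitaryGroup n 𝕜) : ‖U‖ ≤ 1 := by
  rcases subsingleton_or_nontrivial (Matrix n n 𝕜) with h | h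
  · rw [Subsingleton.elim U 0, norm_zero]
    exact zero_le_one
  · exact (CStarRing.norm_of_mem_unitary hU).le

/-- **Jordan's theorem.** A finite group of complex matrices of size `n` has a commutative normal
subgroup of index at most `25 ^ (n ^ 2)`. -/
theorem jordan {n : Type*} [Fintype n] [DecidableEq n] (G : Subgroup (GL n ℂ)) [Finite G] :
    ∃ N : Subgroup G, N.Normal ∧ (∀ x ∈ N, ∀ y ∈ N, x * y = y * x) ∧
      N.index ≤ 25 ^ (Fintype.card n ^ 2) := by
  obtain ⟨S, hS⟩ := exists_unitary G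
  let ρ : G →* Matrix n n ℂ :=
    (Units.coeHom (Matrix n n ℂ)).comp ((MulAut.conj S).toMonoidHom.comp G.subtype)
  have hρ : ∀ g : G, ρ g = ((S * g * S⁻¹ : GL n ℂ) : Matrix n n ℂ) := fun g => rfl
  have hinj : Function.Injective ρ := by
    intro g h hgh
    rw [hρ, hρ] at hgh
    exact Subtype.ext (mul_left_cancel (mul_right_cancel (Units.ext hgh)))
  obtain ⟨N, h1, h2, h3⟩ := exists_normal (ρ := ρ) hinj fun g => by
    rw [hρ]
    exact norm_le_one (hS g g.2)
  refine ⟨N, h1, h2, h3.trans ?_⟩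
  rw [finrank_real_of_complex, Module.finrank_matrix, Module.finrank_self, mul_one, pow_mul,
    ← pow_two]
  norm_num

/-- **Jordan's theorem for real matrices.** -/
theorem jordan_real {n : Type*} [Fintype n] [DecidableEq n] (G : Subgroup (GL n ℝ)) [Finite G] :
    ∃ N : Subgroup G, N.Normal ∧ (∀ x ∈ N, ∀ y ∈ N, x * y = y * x) ∧
      N.index ≤ 5 ^ (Fintype.card n ^ 2) := by
  obtain ⟨S, hS⟩ := exists_unitary G
  let ρ : G →* Matrix n n ℝ :=
    (Units.coeHom (Matrix n n ℝ)).comp ((MulAut.conj S).toMonoidHom.comp G.subtype)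
  have hρ : ∀ g : G, ρ g = ((S * g * S⁻¹ : GL n ℝ) : Matrix n n ℝ) := fun g => rfl
  have hinj : Function.Injective ρ := by
    intro g h hgh
    rw [hρ, hρ] at hgh
    exact Subtype.ext (mul_left_cancel (mul_right_cancel (Units.ext hgh)))
  obtain ⟨N, h1, h2, h3⟩ := exists_normal (ρ := ρ) hinj fun g => by
    rw [hρ]
    exact norm_le_one (hS g g.2)
  refine ⟨N, h1, h2, h3.trans ?_⟩
  rw [Module.finrank_matrix, Module.finrank_self, mul_one, ← pow_two]

end Fermat.Agent.Cor.SEL
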