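import Mathlib

/-!
# Burnside's theorem on irreducible algebras and Kolchin's theorem

`k` is an algebraically closed field.

* `burnside_surjective` : **if `V` is a simple module over the `k`-algebra `A`, of finite dimension
  over `k`, then every `k`-linear endomorphism of `V` is the multiplication by an element of `A`;**
* `exists_fixed` : **a group of unipotent endomorphisms of a vector space `V ≠ 0` of finite
  dimension has a fixed vector `v ≠ 0` (Kolchin).**
-/

set_option autoImplicit false

open Module

namespace Fermat.Agent.Cor.SEL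

/-- **Burnside's theorem.** -/
theorem burnside_surjective (k : Type*) {A V : Type*} [Field k] [IsAlgClosed k] [Ring A]
    [Algebra k A] [AddCommGroup V] [Module k V] [Module A V] [IsScalarTower k A V]
    [IsSimpleModule A V] [FiniteDimensional k V] (f : V →ₗ[k] V) : ∃ a : A, ∀ v, f v = a • v := by
  let F : End (End A V) V :=
    { toFun := f
      map_add' := f.map_add
      map_smul' := fun e v => by
        obtain ⟨c, rfl⟩ := (IsSimpleModule.algebraMap_end_bijective_of_isAlgClosed
          (A := A) (V := V) k).2 e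
        change f (c • v) = c • f v
        exact f.map_smul c v }
  obtain ⟨s, hs⟩ := Module.finite_def.mp (inferInstance : Module.Finite k V)
  obtain ⟨a, ha⟩ := jacobson_density F s
  refine ⟨a, fun v => ?_⟩
  have hv : v ∈ Submodule.span k (s : Set V) := hs ▸ trivial
  refine Submodule.span_induction (p := fun v _ => f v = a • v) ?_ ?_ ?_ ?_ hv
  · intro x hx
    exact ha x hx
  · rw [map_zero, smul_zero]
  · intro x y _ _ hx hy
    rw [map_add, smul_add, hx, hy]
  · intro c x _ hx
    rw [map_smul, hx, ← algebraMap_smul A c x, ← algebraMap_smul A c (a • x), smul_smul, smul_smul,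
      Algebra.commutes]

/-- The irreducible case of Kolchin's theorem. -/
theorem smul_eq_of_simple (k : Type*) {A W G : Type*} [Field k] [IsAlgClosed k] [Ring A]
    [Algebra k A] [AddCommGroup W] [Module k W] [Module A W] [IsScalarTower k A W]
    [IsSimpleModule A W] [FiniteDimensional k W] [Group G] (τ : G →* A)
    (hspan : Submodule.span k (Set.range τ) = ⊤) (hnil : ∀ g, IsNilpotent (τ g - 1)) (g : G)
    (w : W) : τ g • w = w := by
  set L : A →ₐ[k] End k W := Algebra.lsmul k k W with hL
  have hLa : ∀ (a : A) (w : W), L a w = a • w := fun a w => rfl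
  have htr : ∀ g, LinearMap.trace k W (L (τ g)) = LinearMap.trace k W 1 := by
    intro g
    have h0 : IsNilpotent (L (τ g - 1)) := (hnil g).map L
    have h1 := (LinearMap.isNilpotent_trace_of_isNilpotent h0).eq_zero
    rw [map_sub, map_one, map_sub, sub_eq_zero] at h1
    exact h1
  have hzero : ∀ (g : G) (a : A), LinearMap.trace k W (L ((τ g - 1) * a)) = 0 := by
    intro g a
    have ha : a ∈ Submodule.span k (Set.range τ) := by rw [hspan]; trivial
    refine Submodule.span_induction (p := fun a _ =>
      LinearMap.trace k W (L ((τ g - 1) * a)) = 0) ?_ ?_ ?_ ?_ ha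
    · rintro _ ⟨x, rfl⟩
      rw [sub_mul, one_mul, ← map_mul τ, map_sub, map_sub, htr, htr, sub_self]
    · rw [mul_zero, map_zero, map_zero]
    · intro x y _ _ hx hy
      rw [mul_add, map_add, map_add, hx, hy, add_zero]
    · intro c x _ hx
      rw [mul_smul_comm, map_smul, map_smul, hx, smul_zero]
  have hkey : L (τ g - 1) w = 0 := by
    by_contra hne
    obtain ⟨φ, hφ⟩ : ∃ φ : Dual k W, φ (L (τ g - 1) w) ≠ 0 := by
      by_contra! hall
      exact hne ((Module.forall_dual_apply_eq_zero_iff k _).mp hall)
    obtain ⟨a, ha⟩ := burnside_surjective k (A := A) (φ.smulRight w : W →ₗ[k] W)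
    have h1 : L ((τ g - 1) * a) = φ.smulRight (L (τ g - 1) w) := by
      ext1 x
      rw [map_mul, Module.End.mul_apply, hLa a, ← ha]
      change L (τ g - 1) (φ x • w) = φ x • L (τ g - 1) w
      rw [map_smul]
    have h2 := hzero g a
    rw [h1, LinearMap.trace_smulRight] at h2
    exact hφ h2
  rwa [hLa, sub_smul, one_smul, sub_eq_zero] at hkey

section Kolchin

variable {k G V : Type*} [Field k] [Group G] [AddCommGroup V] [Module k V] (ρ : G →* End k V)

/-- `ρ g` in the algebra which is generated by `ρ G`. -/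
def toAdj (g : G) : Algebra.adjoin k (Set.range ρ) := ⟨ρ g, Algebra.subset_adjoin ⟨g, rfl⟩⟩

theorem span_toAdj : Submodule.span k (Set.range (toAdj ρ)) = ⊤ := by
  rw [eq_top_iff]
  rintro ⟨x, hx⟩ -
  refine Algebra.adjoin_induction (p := fun x hx => (⟨x, hx⟩ : Algebra.adjoin k (Set.range ρ)) ∈
    Submodule.span k (Set.range (toAdj ρ))) ?_ ?_ ?_ ?_ hx
  · rintro _ ⟨g, rfl⟩
    exact Submodule.subset_span ⟨g, rfl⟩
  · intro r
    have h : (⟨algebraMap k (End k V) r, Subalgebra.algebraMap_mem _ r⟩ :
        Algebra.adjoin k (Set.range ρ)) = r • toAdj ρ 1 := by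
      apply Subtype.ext
      change algebraMap k (End k V) r = r • ρ 1
      rw [map_one, Algebra.algebraMap_eq_smul_one]
    rw [h]
    exact Submodule.smul_mem _ _ (Submodule.subset_span ⟨1, rfl⟩)
  · intro x y _ _ hx hy
    exact add_mem hx hy
  · intro x y _ _ hx hy
    have h := Submodule.mul_mem_mul hx hy
    rw [Submodule.span_mul_span] at h
    refine Submodule.span_le.mpr ?_ h
    rintro _ ⟨_, ⟨g, rfl⟩, _, ⟨h, rfl⟩, rfl⟩
    exact Submodule.subset_span ⟨g * h, Subtype.ext (map_mul ρ g h)⟩

/-- **Kolchin's theorem.** -/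
theorem exists_fixed [IsAlgClosed k] [FiniteDimensional k V] [Nontrivial V]
    (h : ∀ g, IsNilpotent (ρ g - 1)) : ∃ v ≠ 0, ∀ g, ρ g v = v := by
  have hart : IsArtinian (Algebra.adjoin k (Set.range ρ)) V :=
    isArtinian_of_tower k (inferInstance : IsArtinian k V)
  obtain ⟨W, hW⟩ := IsAtomic.exists_atom (Submodule (Algebra.adjoin k (Set.range ρ)) V)
  have hsimple : IsSimpleModule (Algebra.adjoin k (Set.range ρ)) W :=
    isSimpleModule_iff_isAtom.mpr hW
  have hfin : FiniteDimensional k W :=
    FiniteDimensional.of_injective (W.subtype.restrictScalars k) Subtype.val_injective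
  let τ : G →* Algebra.adjoin k (Set.range ρ) :=
    { toFun := toAdj ρ
      map_one' := Subtype.ext (map_one ρ)
      map_mul' := fun g h => Subtype.ext (map_mul ρ g h) }
  have hnil : ∀ g, IsNilpotent (τ g - 1) := by
    intro g
    obtain ⟨m, hm⟩ := h g
    exact ⟨m, Subtype.ext hm⟩
  obtain ⟨v, hvW, hv⟩ := W.exists_mem_ne_zero_of_ne_bot hW.1
  refine ⟨v, hv, fun g => ?_⟩
  exact congrArg Subtype.val (smul_eq_of_simple k τ (span_toAdj ρ) hnil g (⟨v, hvW⟩ : W))

end Kolchin

end Fermat.Agent.Cor.SEL
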