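import Mathlib

/-!
# Finitely generated groups of matrices have entries in a finitely generated ring
-/

set_option autoImplicit false

open Matrix

namespace Fermat.Agent.Cor.SEL

theorem map_injective {R A n : Type*} [CommRing R] [CommRing A] [Fintype n] [DecidableEq n]
    (f : R →+* A) (hf : Function.Injective f) :
    Function.Injective (GeneralLinearGroup.map (n := n) f) := by
  intro g h hgh
  apply Units.ext
  ext a b
  apply hf
  have := congrArg (fun g : GL n A => (g : Matrix n n A) a b) hgh
  simpa using this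

/-- A matrix is congruent to one modulo `𝔪` if and only if its image in `GL_n(R / 𝔪)` is one. -/
theorem map_mk_eq_one_iff {R n : Type*} [CommRing R] [Fintype n] [DecidableEq n] (𝔪 : Ideal R)
    (g : GL n R) : GeneralLinearGroup.map (Ideal.Quotient.mk 𝔪) g = 1 ↔
      ∀ a b, ((g : Matrix n n R) - 1) a b ∈ 𝔪 := by
  have h3 : ∀ a b, (Ideal.Quotient.mk 𝔪 (((g : Matrix n n R) - 1) a b) = 0 ↔
      Ideal.Quotient.mk 𝔪 ((g : Matrix n n R) a b) = (1 : Matrix n n (R ⧸ 𝔪)) a b) := by
    intro a b
    rw [Matrix.sub_apply, map_sub, sub_eq_zero, Matrix.one_apply, Matrix.one_apply]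
    split_ifs <;> simp
  constructor
  · intro h a b
    rw [← Ideal.Quotient.eq_zero_iff_mem, h3]
    have h2 := congrArg (fun g : GL n (R ⧸ 𝔪) => (g : Matrix n n (R ⧸ 𝔪)) a b) h
    simpa using h2
  · intro h
    apply Units.ext
    ext a b
    have h2 := h a b
    rw [← Ideal.Quotient.eq_zero_iff_mem, h3] at h2
    simpa using h2

/-- A finitely generated subgroup of `GL_n(A)` is a group of matrices over a finitely generated
subring of `A`. -/
theorem exists_lift {A n : Type*} [CommRing A] [Fintype n] [DecidableEq n] (Γ : Subgroup (GL n A))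
    (hΓ : Γ.FG) : ∃ (G : Finset A) (f : Γ →* GL n (Algebra.adjoin ℤ (G : Set A))),
      ∀ g : Γ, GeneralLinearGroup.map (algebraMap (Algebra.adjoin ℤ (G : Set A)) A) (f g) = g := by
  classical
  obtain ⟨S, hS⟩ := hΓ
  set G : Finset A := S.biUnion fun g =>
    Finset.univ.biUnion fun a => Finset.univ.biUnion fun b =>
      {(g : Matrix n n A) a b, ((g⁻¹ : GL n A) : Matrix n n A) a b} with hG
  have hG1 : ∀ g ∈ S, ∀ a b, (g : Matrix n n A) a b ∈ Algebra.adjoin ℤ (G : Set A) := by
    intro g hg a b
    refine Algebra.subset_adjoin ?_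
    rw [hG]
    simp only [Finset.coe_biUnion, Set.mem_iUnion, Finset.mem_coe]
    exact ⟨g, hg, a, Finset.mem_univ _, b, Finset.mem_univ _, by simp⟩
  have hG2 : ∀ g ∈ S, ∀ a b, ((g⁻¹ : GL n A) : Matrix n n A) a b ∈
      Algebra.adjoin ℤ (G : Set A) := by
    intro g hg a b
    refine Algebra.subset_adjoin ?_
    rw [hG]
    simp only [Finset.coe_biUnion, Set.mem_iUnion, Finset.mem_coe]
    exact ⟨g, hg, a, Finset.mem_univ _, b, Finset.mem_univ _, by simp⟩
  have hinj0 : Function.Injective (algebraMap (Algebra.adjoin ℤ (G : Set A)) A) :=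
    Subtype.val_injective
  have hinj := map_injective (n := n) _ hinj0
  have hle : Γ ≤ (GeneralLinearGroup.map (n := n)
      (algebraMap (Algebra.adjoin ℤ (G : Set A)) A)).range := by
    rw [← hS, Subgroup.closure_le]
    intro g hg
    have key : ∀ (x y : Matrix n n (Algebra.adjoin ℤ (G : Set A))),
        x.map (algebraMap (Algebra.adjoin ℤ (G : Set A)) A) *
          y.map (algebraMap (Algebra.adjoin ℤ (G : Set A)) A) = 1 → x * y = 1 := by
      intro x y h
      rw [← Matrix.map_mul] at h
      ext a b
      have h2 := congrFun (congrFun h a) b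
      rw [Matrix.map_apply] at h2
      have h3 : (algebraMap (Algebra.adjoin ℤ (G : Set A)) A)
          ((1 : Matrix n n (Algebra.adjoin ℤ (G : Set A))) a b) = (1 : Matrix n n A) a b := by
        rw [Matrix.one_apply, Matrix.one_apply]
        split_ifs
        · exact map_one _
        · exact map_zero _
      rw [← h3] at h2
      exact congrArg _ (hinj0 h2)
    refine ⟨⟨Matrix.of fun a b => ⟨(g : Matrix n n A) a b, hG1 g hg a b⟩,
      Matrix.of fun a b => ⟨((g⁻¹ : GL n A) : Matrix n n A) a b, hG2 g hg a b⟩, key _ _ ?_,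
      key _ _ ?_⟩, ?_⟩
    · exact g.mul_inv
    · exact g.inv_mul
    · apply Units.ext
      ext a b
      rfl
  refine ⟨G, (MonoidHom.ofInjective hinj).symm.toMonoidHom.comp (Subgroup.inclusion hle),
    fun g => ?_⟩
  have := MonoidHom.apply_ofInjective_symm hinj (Subgroup.inclusion hle g)
  exact this

end Fermat.Agent.Cor.SEL
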