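import Fermat.Agent.Corollaries.SEL.Lin

/-!
# Malcev's theorem

* `finite_of_finiteType` : a field which is a finitely generated ring is finite;
* `exists_ideal_notMem` : a finitely generated commutative ring is residually finite;
* `malcev` : **a finitely generated group of matrices over a commutative ring is residually
  finite;**
* `injective_of_surjective` : a finitely generated residually finite group is Hopfian;
* `malcev_hopf` : **a surjective endomorphism of a finitely generated group of matrices over a
  commutative ring is an automorphism;**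
* `baumslag` : **the automorphism group of a finitely generated residually finite group is
  residually finite;** hence the automorphism group of a finitely generated group of matrices.
-/

set_option autoImplicit false

open Matrix

namespace Fermat.Agent.Cor.SEL

theorem isJacobsonRing_int : IsJacobsonRing ℤ := by
  rw [isJacobsonRing_iff_prime_eq]
  intro P hP
  by_cases h0 : P = ⊥
  · subst h0
    rw [eq_bot_iff]
    intro x hx
    rw [Ideal.mem_jacobson_bot] at hx
    have h1 := hx (3 * x)
    rw [Ideal.mem_bot]
    by_contra h2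
    have h3 : 0 < x * x := mul_self_pos.mpr h2
    rcases Int.isUnit_iff.mp h1 with h | h <;> nlinarith
  · have := hP.isMaximal h0
    exact Ideal.jacobson_eq_self_of_isMaximal

/-- **A field which is a finitely generated ring is finite.** -/
theorem finite_of_finiteType (F : Type*) [Field F] [Algebra.FiniteType ℤ F] : Finite F := by
  have := isJacobsonRing_int
  have h1 : Module.Finite ℤ F := finite_of_finite_type_of_isJacobsonRing ℤ F
  have h2 : ¬ CharZero F := by
    intro h
    have h3 : Algebra.IsIntegral ℤ F := inferInstance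
    exact Int.not_isField (isField_of_isIntegral_of_isField (R := ℤ) (S := F)
      (by simpa using (Int.cast_injective (α := F))) (Field.toIsField F))
  obtain ⟨p, hp⟩ := CharP.exists F
  have hp0 : p ≠ 0 := by
    rintro rfl
    exact h2 (CharP.charP_to_charZero F)
  refine Module.finite_of_fg_torsion F fun x => ?_
  refine ⟨⟨(p : ℤ), mem_nonZeroDivisors_of_ne_zero (by exact_mod_cast hp0)⟩, ?_⟩
  change (p : ℤ) • x = 0
  rw [zsmul_eq_mul, Int.cast_natCast, CharP.cast_eq_zero, zero_mul]

/-- **A finitely generated commutative ring is residually finite.** -/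
theorem exists_ideal_notMem {R : Type*} [CommRing R] [Algebra.FiniteType ℤ R] {x : R}
    (hx : x ≠ 0) : ∃ I : Ideal R, Finite (R ⧸ I) ∧ x ∉ I := by
  have hN : IsNoetherianRing R := Algebra.FiniteType.isNoetherianRing ℤ R
  have h1 : (Submodule.span R {x}).annihilator ≠ ⊤ := by
    intro h
    have h2 : (1 : R) ∈ (Submodule.span R {x}).annihilator := by rw [h]; trivial
    rw [Submodule.mem_annihilator_span_singleton, one_smul] at h2
    exact hx h2
  obtain ⟨M, hM, hle⟩ := Ideal.exists_le_maximal _ h1
  let F : Field (R ⧸ M) := Ideal.Quotient.field M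
  have h2 : Algebra.FiniteType ℤ (R ⧸ M) :=
    Algebra.FiniteType.of_surjective (Ideal.Quotient.mkₐ ℤ M) (Ideal.Quotient.mkₐ_surjective ℤ M)
  have h3 : Finite (R ⧸ M) := @finite_of_finiteType (R ⧸ M) F h2
  have h4 : ∃ k : ℕ, x ∉ M ^ k := by
    by_contra! h
    have h5 : x ∈ (⨅ i : ℕ, M ^ i • ⊤ : Submodule R R) := by
      rw [Submodule.mem_iInf]
      intro i
      rw [smul_eq_mul, Ideal.mul_top]
      exact h i
    obtain ⟨r, hr⟩ := (M.mem_iInf_smul_pow_eq_bot_iff x).mp h5
    have h6 : (1 - (r : R)) ∈ (Submodule.span R {x}).annihilator := by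
      rw [Submodule.mem_annihilator_span_singleton, sub_smul, one_smul, hr, sub_self]
    apply hM.ne_top
    rw [Ideal.eq_top_iff_one]
    have h7 := add_mem (hle h6) r.2
    rwa [sub_add_cancel] at h7
  obtain ⟨k, hk⟩ := h4
  exact ⟨M ^ k, Ideal.finite_quotient_pow (IsNoetherian.noetherian M) k, hk⟩

/-- **Malcev's theorem.** -/
theorem malcev {A n : Type*} [CommRing A] [Fintype n] [DecidableEq n] (Γ : Subgroup (GL n A))
    (hΓ : Γ.FG) : Group.ResiduallyFinite Γ := by
  classical
  rw [Group.residuallyFinite_iff_exists_finiteIndex]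
  intro g hg
  obtain ⟨G, f, hf⟩ := exists_lift Γ hΓ
  have hft : Algebra.FiniteType ℤ (Algebra.adjoin ℤ (G : Set A)) :=
    (Subalgebra.fg_iff_finiteType _).mp ⟨G, rfl⟩
  have h1 : f g ≠ 1 := by
    intro h
    have h2 := hf g
    rw [h, map_one] at h2
    exact hg (Subtype.ext h2.symm)
  obtain ⟨a, b, hab⟩ : ∃ a b, ((f g : Matrix n n (Algebra.adjoin ℤ (G : Set A))) - 1) a b ≠ 0 := by
    by_contra! h
    exact h1 (Units.ext (sub_eq_zero.mp (by ext a b; exact congrArg _ (h a b))))
  obtain ⟨I, hI, hxI⟩ := exists_ideal_notMem hab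
  have hfin : Finite (GL n (Algebra.adjoin ℤ (G : Set A) ⧸ I)) := inferInstance
  refine ⟨((GeneralLinearGroup.map (Ideal.Quotient.mk I)).comp f).ker,
    Subgroup.finiteIndex_ker _, fun h => hxI ?_⟩
  exact (map_mk_eq_one_iff I (f g)).mp (MonoidHom.mem_ker.mp h) a b

/-- The homomorphisms from a finitely generated group to a finite group. -/
theorem finite_monoidHom (G H : Type*) [Group G] [Group H] [Group.FG G] [Finite H] :
    Finite (G →* H) := by
  obtain ⟨S, hS⟩ := Group.fg_def.mp (inferInstance : Group.FG G)
  refine Finite.of_injective (fun (f : G →* H) (s : S) => f s) fun f g hfg => ?_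
  exact MonoidHom.eq_of_eqOn_dense hS fun s hs => congrFun hfg ⟨s, hs⟩

/-- **A finitely generated residually finite group is Hopfian.** -/
theorem injective_of_surjective {G : Type*} [Group G] [Group.FG G] [Group.ResiduallyFinite G]
    (f : G →* G) (hf : Function.Surjective f) : Function.Injective f := by
  rw [injective_iff_map_eq_one]
  intro x hx
  by_contra hne
  obtain ⟨K, hK⟩ := Group.exists_finiteIndexNormalSubgroup_notMem x hne
  have h1 : Finite (G →* G ⧸ K.toSubgroup) := finite_monoidHom G (G ⧸ K.toSubgroup)
  have h2 : Function.Injective fun φ : G →* G ⧸ K.toSubgroup => φ.comp f := by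
    intro φ ψ h
    ext y
    obtain ⟨z, rfl⟩ := hf y
    exact DFunLike.congr_fun h z
  obtain ⟨φ, hφ⟩ := (Finite.injective_iff_surjective.mp h2) (QuotientGroup.mk' K.toSubgroup)
  have h3 := DFunLike.congr_fun hφ x
  change φ (f x) = (x : G ⧸ K.toSubgroup) at h3
  rw [hx, map_one] at h3
  exact hK ((QuotientGroup.eq_one_iff x).mp h3.symm)

/-- **A surjective endomorphism of a finitely generated group of matrices over a commutative ring is
an automorphism.** -/
theorem malcev_hopf {A n : Type*} [CommRing A] [Fintype n] [DecidableEq n] (Γ : Subgroup (GL n A))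
    (hΓ : Γ.FG) (f : Γ →* Γ) (hf : Function.Surjective f) : Function.Bijective f := by
  have h1 := malcev Γ hΓ
  have h2 : Group.FG Γ := (Group.fg_iff_subgroup_fg Γ).mpr hΓ
  exact ⟨injective_of_surjective f hf, hf⟩

/-- **Baumslag's theorem.** The automorphism group of a finitely generated residually finite group
is residually finite. -/
theorem baumslag (G : Type*) [Group G] [Group.FG G] [Group.ResiduallyFinite G] :
    Group.ResiduallyFinite (MulAut G) := by
  rw [Group.residuallyFinite_iff_exists_finiteIndex]
  intro α hα
  obtain ⟨g, hg⟩ : ∃ g, α g ≠ g := by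
    by_contra! h
    exact hα (MulEquiv.ext h)
  obtain ⟨K, hK⟩ := Group.exists_finiteIndexNormalSubgroup_of_residuallyFinite (α g) g hg
  have h1 : Finite (G →* G ⧸ K.toSubgroup) := finite_monoidHom G (G ⧸ K.toSubgroup)
  let Φ : MulAut G →* Equiv.Perm (G →* G ⧸ K.toSubgroup) :=
    { toFun := fun β =>
        { toFun := fun φ => φ.comp (β⁻¹ : MulAut G).toMonoidHom
          invFun := fun φ => φ.comp β.toMonoidHom
          left_inv := fun φ => by
            ext x
            change φ (β⁻¹ (β x)) = φ x
            simp
          right_inv := fun φ => by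
            ext x
            change φ (β (β⁻¹ x)) = φ x
            simp }
      map_one' := by
        ext φ x
        change φ ((1 : MulAut G)⁻¹ x) = φ x
        simp
      map_mul' := fun β γ => by
        ext φ x
        change φ ((β * γ)⁻¹ x) = φ (γ⁻¹ (β⁻¹ x))
        simp }
  refine ⟨Φ.ker, Subgroup.finiteIndex_ker Φ, fun h => hK ?_⟩
  have h2 := Equiv.congr_fun (MonoidHom.mem_ker.mp h) (QuotientGroup.mk' K.toSubgroup)
  have h3 := DFunLike.congr_fun h2 (α g)
  change ((α⁻¹ (α g) : G) : G ⧸ K.toSubgroup) = (α g : G ⧸ K.toSubgroup) at h3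
  rw [MulAut.inv_apply_self] at h3
  exact h3.symm

/-- The automorphism group of a finitely generated group of matrices over a commutative ring is
residually finite. -/
theorem malcev_aut {A n : Type*} [CommRing A] [Fintype n] [DecidableEq n] (Γ : Subgroup (GL n A))
    (hΓ : Γ.FG) : Group.ResiduallyFinite (MulAut Γ) := by
  have h1 := malcev Γ hΓ
  have h2 : Group.FG Γ := (Group.fg_iff_subgroup_fg Γ).mpr hΓ
  exact baumslag Γ

end Fermat.Agent.Cor.SEL
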