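import Fermat.Agent.Corollaries.SEL.Step

/-!
# Minkowski's lemma

* `eq_one_of_map_eq_one` : an element of finite order of `GL_n(ℤ)` which is congruent to one modulo
  `m ≥ 3` is one;
* `injective_reduction` : a finite subgroup of `GL_n(ℤ)` embeds in `GL_n(ℤ/m)`, `m ≥ 3`;
* `card_dvd` : **the order of a finite group of integer matrices of size `n` divides
  `(p^n - 1)(p^n - p)...(p^n - p^(n-1))` for every prime number `p > 2`;**
* `finite_of_isOfFinOrder` : a torsion subgroup of `GL_n(ℤ)` is finite.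
-/

set_option autoImplicit false

open Matrix

namespace Fermat.Agent.Cor.SEL

/-- Reduction modulo `m`. -/
noncomputable def red (n : Type*) [Fintype n] [DecidableEq n] (m : ℕ) : GL n ℤ →* GL n (ZMod m) :=
  Matrix.GeneralLinearGroup.map (Int.castRingHom (ZMod m))

theorem int_eq_zero {p : ℕ} (hp : p.Prime) (x : ℤ) (h : ∀ j : ℕ, (p : ℤ) ^ j ∣ x) : x = 0 := by
  by_contra hx
  have h1 := h (x.natAbs)
  rw [← Nat.cast_pow, Int.natCast_dvd] at h1
  have h2 := Nat.le_of_dvd (Int.natAbs_pos.mpr hx) h1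
  exact absurd h2 (not_le.mpr (Nat.lt_pow_self hp.one_lt))

theorem exists_prime_pow {m : ℕ} (hm : 3 ≤ m) :
    ∃ p j : ℕ, p.Prime ∧ 0 < j ∧ j + 2 ≤ p * j ∧ p ^ j ∣ m := by
  by_cases h : 4 ∣ m
  · exact ⟨2, 2, Nat.prime_two, by norm_num, by norm_num, by simpa using h⟩
  · by_cases h2 : 2 ∣ m
    · obtain ⟨l, rfl⟩ := h2
      have hl : l ≠ 1 := by omega
      refine ⟨l.minFac, 1, Nat.minFac_prime hl, by norm_num, ?_, ?_⟩
      · have h3 := (Nat.minFac_prime hl).two_le
        have h4 : l.minFac ≠ 2 := by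
          intro h5
          have h6 := Nat.minFac_dvd l
          rw [h5] at h6
          omega
        omega
      · rw [pow_one]
        exact (Nat.minFac_dvd l).mul_left 2
    · have hl : m ≠ 1 := by omega
      refine ⟨m.minFac, 1, Nat.minFac_prime hl, by norm_num, ?_, ?_⟩
      · have h3 := (Nat.minFac_prime hl).two_le
        have h4 : m.minFac ≠ 2 := by
          intro h5
          have h6 := Nat.minFac_dvd m
          rw [h5] at h6
          exact h2 h6
        omega
      · rw [pow_one]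
        exact Nat.minFac_dvd m

/-- **Minkowski's lemma.** The kernel of `GL_n(ℤ) → GL_n(ℤ/m)`, `m ≥ 3`, is torsion free. -/
theorem eq_one_of_map_eq_one {n : Type*} [Fintype n] [DecidableEq n] {m : ℕ} (hm : 3 ≤ m)
    {g : GL n ℤ} (hg : red n m g = 1) (hfin : IsOfFinOrder g) : g = 1 := by
  obtain ⟨p, j, hp, hj, hj', hdvd⟩ := exists_prime_pow hm
  refine eq_one_of_isOfFinOrder (H := (red n m).ker) ?_ (MonoidHom.mem_ker.mpr hg) hfin
  intro q g hq hg hgq
  have h1 : ∀ a b, (p : ℤ) ^ j ∣ ((g : Matrix n n ℤ) - 1) a b := by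
    intro a b
    refine dvd_trans (by exact_mod_cast hdvd : ((p : ℤ) ^ j ∣ (m : ℤ))) ?_
    rw [← ZMod.intCast_zmod_eq_zero_iff_dvd]
    have h2 := congrArg (fun g : GL n (ZMod m) => (g : Matrix n n (ZMod m)) a b)
      (MonoidHom.mem_ker.mp hg)
    have h3 : (((g : Matrix n n ℤ) a b : ℤ) : ZMod m) = (1 : Matrix n n (ZMod m)) a b := by
      simpa [red] using h2
    rw [Matrix.sub_apply, Int.cast_sub, h3, Matrix.one_apply, Matrix.one_apply]
    split_ifs <;> simp
  have h4 : (g : Matrix n n ℤ) - 1 = 0 := by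
    refine eq_zero_of_pow_eq_one hp hq (fun x hx => ?_) (int_eq_zero hp) hj hj' h1 ?_
    · rcases mul_eq_zero.mp hx with h | h
      · exact absurd h (by exact_mod_cast hp.ne_zero)
      · exact h
    · rw [add_sub_cancel]
      have := congrArg (Units.val : GL n ℤ → Matrix n n ℤ) hgq
      simpa using this
  exact Units.ext (sub_eq_zero.mp h4)

/-- A subgroup of `GL_n(ℤ)` all of whose elements are of finite order embeds in `GL_n(ℤ/m)`. -/
theorem injective_reduction {n : Type*} [Fintype n] [DecidableEq n] {m : ℕ} (hm : 3 ≤ m)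
    (H : Subgroup (GL n ℤ)) (hH : ∀ g ∈ H, IsOfFinOrder g) :
    Function.Injective ((red n m).comp H.subtype) := by
  rw [injective_iff_map_eq_one]
  intro g hg
  exact Subtype.ext (eq_one_of_map_eq_one hm hg (hH g g.2))

/-- **A subgroup of `GL_n(ℤ)` all of whose elements are of finite order is finite.** -/
theorem finite_of_isOfFinOrder {n : Type*} [Fintype n] [DecidableEq n]
    (H : Subgroup (GL n ℤ)) (hH : ∀ g ∈ H, IsOfFinOrder g) : Finite H := by
  have : Finite (GL n (ZMod 3)) := inferInstance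
  exact Finite.of_injective _ (injective_reduction (m := 3) le_rfl H hH)

/-- **Minkowski's bound.** The order of a finite group of integer matrices of size `n` divides
`(p^n - 1)(p^n - p)...(p^n - p^(n-1))` for every prime number `p > 2`. -/
theorem card_dvd {n p : ℕ} (hp : p.Prime) (hp2 : 2 < p) (H : Subgroup (GL (Fin n) ℤ))
    (hH : ∀ g ∈ H, IsOfFinOrder g) : Nat.card H ∣ ∏ i : Fin n, (p ^ n - p ^ (i : ℕ)) := by
  have : Fact p.Prime := ⟨hp⟩
  have h1 := Subgroup.card_dvd_of_injective _ (injective_reduction (m := p) hp2 H hH)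
  rw [Matrix.card_GL_field, ZMod.card] at h1
  exact h1

/-- The order of a finite subgroup of `GL_n(ℤ)` divides the order of `GL_n(𝔽_3)`. -/
theorem card_dvd_three {n : ℕ} (H : Subgroup (GL (Fin n) ℤ)) [Finite H] :
    Nat.card H ∣ ∏ i : Fin n, (3 ^ n - 3 ^ (i : ℕ)) :=
  card_dvd Nat.prime_three (by norm_num) H fun g hg => by
    have h : IsOfFinOrder (⟨g, hg⟩ : H) := isOfFinOrder_of_finite _
    exact (Submonoid.isOfFinOrder_coe (H := H.toSubmonoid) (x := ⟨g, hg⟩)).mpr h

end Fermat.Agent.Cor.SEL
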