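import Fermat.Agent.Corollaries.SEL.Mink

/-!
# Minkowski's bound

* `padicValNat_prod` : if the prime number `p` is a primitive root modulo `l ^ 2`, then the exponent
  of `l` in `(p^n - 1)(p^n - p)...(p^n - p^(n-1))` is that of `l^J J!`, `J = ⌊n / (l - 1)⌋`;
* `minkowski` : **the exponent of an odd prime number `l` in the order of a finite group of integer
  matrices of size `n` is at most `J + v_l(J!) = ⌊n / (l-1)⌋ + ⌊n / (l (l-1))⌋ + ⋯`;**
* `le_of_prime_dvd_card` : if the prime number `l` divides the order, then `l ≤ n + 1`.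
-/

set_option autoImplicit false

open Matrix

namespace Fermat.Agent.Cor.SEL

/-- There are prime numbers `p > 2` which are primitive roots modulo `l ^ 2`. -/
theorem exists_primitive {l : ℕ} (hl : l.Prime) (hl2 : l ≠ 2) :
    ∃ p : ℕ, p.Prime ∧ 2 < p ∧ p.Coprime l ∧ ∀ i : ℕ, l ^ 2 ∣ p ^ i - 1 → l * (l - 1) ∣ i := by
  have : NeZero (l ^ 2) := ⟨pow_ne_zero 2 hl.ne_zero⟩
  have hc : IsCyclic (ZMod (l ^ 2))ˣ := ZMod.isCyclic_units_of_prime_pow l hl hl2 2
  obtain ⟨u, hu⟩ := hc.exists_generator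
  obtain ⟨p, hp2, hp, hpu⟩ := Nat.forall_exists_prime_gt_and_eq_mod (q := l ^ 2) u.isUnit 2
  have hcop : p.Coprime (l ^ 2) := by
    rw [← ZMod.isUnit_iff_coprime, hpu]
    exact u.isUnit
  refine ⟨p, hp, hp2, hcop.coprime_dvd_right (dvd_pow_self l two_ne_zero), fun i hi => ?_⟩
  have h1 : orderOf u = l * (l - 1) := by
    rw [orderOf_eq_card_of_forall_mem_zpowers hu, Nat.card_eq_fintype_card,
      ZMod.card_units_eq_totient, Nat.totient_prime_pow hl (by norm_num)]
    norm_num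
  rw [← h1]
  apply orderOf_dvd_of_pow_eq_one
  apply Units.ext
  rw [Units.val_pow_eq_pow_val, ← hpu, Units.val_one]
  have h2 : 1 ≤ p ^ i := Nat.one_le_pow _ _ hp.pos
  have h3 : ((p ^ i - 1 : ℕ) : ZMod (l ^ 2)) = 0 := (ZMod.natCast_eq_zero_iff _ _).mpr hi
  rw [Nat.cast_sub h2, sub_eq_zero] at h3
  push_cast at h3
  exact h3

variable {l p : ℕ}

theorem dvd_pow_sub_one (hl : l.Prime) (hp : p.Prime)
    (hi : ∀ i : ℕ, l ^ 2 ∣ p ^ i - 1 → l * (l - 1) ∣ i) {i : ℕ} (h : l ∣ p ^ i - 1) :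
    (l - 1) ∣ i := by
  have h1 : ((l : ℤ)) ∣ (p : ℤ) ^ i - 1 := by
    have h2 : 1 ≤ p ^ i := Nat.one_le_pow _ _ hp.pos
    have := Int.natCast_dvd_natCast.mpr h
    rw [Nat.cast_sub h2] at this
    push_cast at this
    exact this
  have h2 := dvd_sub_pow_of_dvd_sub h1 1
  have h3 : l ^ 2 ∣ p ^ (i * l) - 1 := by
    have h4 : 1 ≤ p ^ (i * l) := Nat.one_le_pow _ _ hp.pos
    rw [← Int.natCast_dvd_natCast, Nat.cast_sub h4]
    push_cast
    rw [pow_mul]
    simpa using h2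
  have h5 := hi _ h3
  rw [mul_comm l (l - 1)] at h5
  exact Nat.dvd_of_mul_dvd_mul_right hl.pos h5

theorem dvd_pow_totient_sub_one (hl : l.Prime) (hcop : p.Coprime l) : l ∣ p ^ (l - 1) - 1 := by
  have h1 := Nat.ModEq.pow_totient hcop
  rw [Nat.totient_prime hl] at h1
  exact (Nat.modEq_iff_dvd' (Nat.one_le_pow _ _ (Nat.pos_of_ne_zero (by
    rintro rfl
    rw [Nat.coprime_zero_left] at hcop
    exact hl.ne_one hcop)))).mp h1.symm

theorem padicValNat_pow_sub_one [hl : Fact l.Prime] (hl2 : l ≠ 2) (hp : p.Prime)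
    (hcop : p.Coprime l) (hi : ∀ i : ℕ, l ^ 2 ∣ p ^ i - 1 → l * (l - 1) ∣ i) {m : ℕ} (hm : m ≠ 0) :
    padicValNat l (p ^ m - 1) = if (l - 1) ∣ m then 1 + padicValNat l (m / (l - 1)) else 0 := by
  have hl1 : 0 < l - 1 := by have := hl.out.two_le; omega
  split_ifs with h
  · obtain ⟨j, rfl⟩ := h
    have hj : j ≠ 0 := by
      rintro rfl
      exact hm (mul_zero _)
    have h1 : 1 < p ^ (l - 1) := Nat.one_lt_pow hl1.ne' hp.one_lt
    have h2 : l ∣ p ^ (l - 1) - 1 := dvd_pow_totient_sub_one hl.out hcop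
    have h3 : ¬ l ∣ p ^ (l - 1) := fun h3 =>
      hl.out.ne_one (Nat.Coprime.eq_one_of_dvd (hcop.symm.pow_right _) h3)
    have h4 := padicValNat.pow_sub_pow (hl.out.odd_of_ne_two hl2) h1 h2 h3 hj
    rw [one_pow] at h4
    have h5 : padicValNat l (p ^ (l - 1) - 1) = 1 := by
      have h6 : p ^ (l - 1) - 1 ≠ 0 := by omega
      have h7 := one_le_padicValNat_of_dvd h6 h2
      have h8 : ¬ 2 ≤ padicValNat l (p ^ (l - 1) - 1) := by
        rw [← padicValNat_dvd_iff_le h6]
        intro h8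
        have h9 := Nat.le_of_dvd hl1 (hi _ h8)
        have := hl.out.two_le
        nlinarith
      omega
    rw [pow_mul, h4, h5, Nat.mul_div_cancel_left _ hl1]
  · exact padicValNat.eq_zero_of_not_dvd fun h1 => h (dvd_pow_sub_one hl.out hp hi h1)

theorem sum_eq [hl : Fact l.Prime] (hl2 : l ≠ 2) (hp : p.Prime)
    (hcop : p.Coprime l) (hi : ∀ i : ℕ, l ^ 2 ∣ p ^ i - 1 → l * (l - 1) ∣ i) (n : ℕ) :
    ∑ m ∈ Finset.range n, padicValNat l (p ^ (m + 1) - 1) =
      n / (l - 1) + padicValNat l (n / (l - 1)).factorial := by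
  induction n with
  | zero => simp
  | succ n ih =>
    rw [Finset.sum_range_succ, ih, padicValNat_pow_sub_one hl2 hp hcop hi (Nat.succ_ne_zero n),
      Nat.succ_div]
    split_ifs with h
    · rw [Nat.factorial_succ,
        padicValNat.mul (Nat.succ_ne_zero _) (Nat.factorial_ne_zero _)]
      ring
    · rw [add_zero, add_zero]

theorem padicValNat_finset_prod [hl : Fact l.Prime] {ι : Type*} (s : Finset ι) (f : ι → ℕ)
    (h : ∀ i ∈ s, f i ≠ 0) :
    padicValNat l (∏ i ∈ s, f i) = ∑ i ∈ s, padicValNat l (f i) := by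
  classical
  induction s using Finset.induction_on with
  | empty => simp
  | insert a s ha ih =>
    rw [Finset.prod_insert ha, Finset.sum_insert ha, padicValNat.mul
      (h a (Finset.mem_insert_self _ _))
      (Finset.prod_ne_zero_iff.mpr fun i hi => h i (Finset.mem_insert_of_mem hi)),
      ih fun i hi => h i (Finset.mem_insert_of_mem hi)]

/-- The exponent of `l` in the order of `GL_n(𝔽_p)`, `p` a primitive root modulo `l ^ 2`. -/
theorem padicValNat_prod [hl : Fact l.Prime] (hl2 : l ≠ 2) (hp : p.Prime)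
    (hcop : p.Coprime l) (hi : ∀ i : ℕ, l ^ 2 ∣ p ^ i - 1 → l * (l - 1) ∣ i) (n : ℕ) :
    padicValNat l (∏ i : Fin n, (p ^ n - p ^ (i : ℕ))) =
      n / (l - 1) + padicValNat l (n / (l - 1)).factorial := by
  have hne : ∀ i ∈ Finset.range n, p ^ n - p ^ i ≠ 0 := fun i hi =>
    (Nat.sub_pos_of_lt (Nat.pow_lt_pow_right hp.one_lt (Finset.mem_range.mp hi))).ne'
  rw [Fin.prod_univ_eq_prod_range (fun i => p ^ n - p ^ i), padicValNat_finset_prod _ _ hne,
    ← sum_eq hl2 hp hcop hi n, ← Finset.sum_range_reflect]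
  refine Finset.sum_congr rfl fun i hi => ?_
  have hin := Finset.mem_range.mp hi
  have h1 : p ^ n - p ^ (n - 1 - i) = p ^ (n - 1 - i) * (p ^ (i + 1) - 1) := by
    rw [Nat.mul_sub, mul_one, ← pow_add]
    congr 2
    omega
  have h2 : p ^ (i + 1) - 1 ≠ 0 := by
    intro h
    rw [h, mul_zero] at h1
    exact hne (n - 1 - i) (Finset.mem_range.mpr (by omega)) h1
  have h3 : ¬ l ∣ p ^ (n - 1 - i) := fun h =>
    hl.out.ne_one (Nat.Coprime.eq_one_of_dvd (hcop.symm.pow_right _) h)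
  rw [h1, padicValNat.mul (pow_ne_zero _ hp.ne_zero) h2, padicValNat.eq_zero_of_not_dvd h3,
    zero_add]

/-- **Minkowski's bound.** -/
theorem minkowski [hl : Fact l.Prime] (hl2 : l ≠ 2) {n : ℕ} (H : Subgroup (GL (Fin n) ℤ))
    (hH : ∀ g ∈ H, IsOfFinOrder g) :
    padicValNat l (Nat.card H) ≤ n / (l - 1) + padicValNat l (n / (l - 1)).factorial := by
  obtain ⟨p, hp, hp2, hcop, hi⟩ := exists_primitive hl.out hl2
  rw [← padicValNat_prod hl2 hp hcop hi n]
  have h1 := card_dvd hp hp2 H hH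
  have hne : ∏ i : Fin n, (p ^ n - p ^ (i : ℕ)) ≠ 0 := Finset.prod_ne_zero_iff.mpr fun i _ =>
    (Nat.sub_pos_of_lt (Nat.pow_lt_pow_right hp.one_lt i.2)).ne'
  exact (padicValNat_dvd_iff_le hne).mp (pow_padicValNat_dvd.trans h1)

/-- If the prime number `l` divides the order of a finite group of integer matrices of size `n`,
then `l ≤ n + 1`. -/
theorem le_of_prime_dvd_card (hl : l.Prime) {n : ℕ} (H : Subgroup (GL (Fin n) ℤ)) [Finite H]
    (h : l ∣ Nat.card H) : l ≤ n + 1 := by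
  have : Fact l.Prime := ⟨hl⟩
  by_contra hlt
  rw [not_le] at hlt
  by_cases hl2 : l = 2
  · subst hl2
    have hn : n = 0 := by omega
    subst hn
    have h1 : Nat.card H = 1 := Nat.card_eq_one_iff_unique.mpr ⟨inferInstance, inferInstance⟩
    rw [h1] at h
    norm_num at h
  · have h1 := minkowski hl2 H fun g hg => by
      have h : IsOfFinOrder (⟨g, hg⟩ : H) := isOfFinOrder_of_finite _
      exact (Submonoid.isOfFinOrder_coe (H := H.toSubmonoid) (x := ⟨g, hg⟩)).mpr h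
    rw [Nat.div_eq_of_lt (by omega : n < l - 1), Nat.factorial_zero, padicValNat_one_right] at h1
    have h2 := one_le_padicValNat_of_dvd (p := l) Nat.card_pos.ne' h
    omega

end Fermat.Agent.Cor.SEL
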