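import Fermat.Agent.Corollaries.SEL.MinkB
import Fermat.Agent.Corollaries.SEL.Lin

/-!
# Finite groups of rational matrices

* `exists_injective_zmod` : a finite group of rational matrices of size `n` embeds in `GL_n(𝔽_p)`
  for all but finitely many prime numbers `p`;
* `minkowski_rat` : **Minkowski's bound for a finite subgroup of `GL_n(ℚ)`: the exponent of an odd
  prime number `l` in its order is at most `J + v_l(J!)`, `J = ⌊n / (l - 1)⌋`;**
* `le_of_prime_dvd_card_rat` : a prime number which divides its order is at most `n + 1`.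
-/

set_option autoImplicit false

open Matrix

namespace Fermat.Agent.Cor.SEL

/-- A group of matrices whose entries lie in a subring. -/
theorem exists_lift_of_mem {R A Γ n : Type*} [CommRing R] [CommRing A] [Group Γ] [Fintype n]
    [DecidableEq n] (i : R →+* A) (hi : Function.Injective i) (ρ : Γ →* GL n A)
    (h : ∀ g a b, ∃ x, i x = (ρ g : Matrix n n A) a b) :
    ∃ f : Γ →* GL n R, ∀ g, GeneralLinearGroup.map i (f g) = ρ g := by
  have hinj := map_injective (n := n) i hi
  choose M hM using h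
  have hmap : ∀ g, (Matrix.of (M g)).map i = (ρ g : Matrix n n A) := fun g => by
    ext a b
    exact hM g a b
  have key : ∀ g h : Γ, g * h = 1 → Matrix.of (M g) * Matrix.of (M h) = 1 := by
    intro g h hgh
    have h1 : (Matrix.of (M g) * Matrix.of (M h)).map i = (1 : Matrix n n R).map i := by
      rw [Matrix.map_mul, hmap, hmap, ← Units.val_mul, ← map_mul, hgh, map_one, Units.val_one,
        Matrix.map_one i (map_zero i) (map_one i)]
    exact Matrix.map_injective hi h1
  have hrange : ∀ g, ρ g ∈ (GeneralLinearGroup.map (n := n) i).range := by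
    intro g
    refine ⟨⟨Matrix.of (M g), Matrix.of (M g⁻¹), key _ _ (mul_inv_cancel g),
      key _ _ (inv_mul_cancel g)⟩, ?_⟩
    apply Units.ext
    exact hmap g
  refine ⟨(MonoidHom.ofInjective hinj).symm.toMonoidHom.comp (ρ.codRestrict _ hrange),
    fun g => ?_⟩
  exact MonoidHom.apply_ofInjective_symm hinj (ρ.codRestrict _ hrange g)

theorem padicInt_eq_zero {p : ℕ} [hp : Fact p.Prime] (x : ℤ_[p])
    (h : ∀ j : ℕ, (p : ℤ_[p]) ^ j ∣ x) : x = 0 := by
  have h1 : Ideal.span {(p : ℤ_[p])} ≠ ⊤ := by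
    rw [← PadicInt.maximalIdeal_eq_span_p]
    exact (IsLocalRing.maximalIdeal.isMaximal _).ne_top
  have hbot := Ideal.iInf_pow_eq_bot_of_isDomain _ h1
  rw [← Ideal.mem_bot, ← hbot, Ideal.mem_iInf]
  intro j
  rw [Ideal.span_singleton_pow, Ideal.mem_span_singleton]
  exact h j

/-- A matrix of finite order over `ℤ_p`, `p > 2`, which is congruent to one modulo `p` is one. -/
theorem eq_one_of_toZMod {p : ℕ} [hp : Fact p.Prime] (hp2 : 2 < p) {n : Type*} [Fintype n]
    [DecidableEq n] {g : GL n ℤ_[p]} (hg : GeneralLinearGroup.map (PadicInt.toZMod (p := p)) g = 1)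
    (hfin : IsOfFinOrder g) : g = 1 := by
  refine eq_one_of_isOfFinOrder (H := (GeneralLinearGroup.map (PadicInt.toZMod (p := p))).ker) ?_
    (MonoidHom.mem_ker.mpr hg) hfin
  intro q g hq hg hgq
  have h1 : ∀ a b, (p : ℤ_[p]) ^ 1 ∣ ((g : Matrix n n ℤ_[p]) - 1) a b := by
    intro a b
    have h2 := congrArg (fun g : GL n (ZMod p) => (g : Matrix n n (ZMod p)) a b)
      (MonoidHom.mem_ker.mp hg)
    have h3 : PadicInt.toZMod ((g : Matrix n n ℤ_[p]) a b) = (1 : Matrix n n (ZMod p)) a b := by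
      simpa using h2
    have h4 : PadicInt.toZMod (((g : Matrix n n ℤ_[p]) - 1) a b) = 0 := by
      rw [Matrix.sub_apply, map_sub, h3, Matrix.one_apply, Matrix.one_apply]
      split_ifs <;> simp
    rw [pow_one, ← Ideal.mem_span_singleton, ← PadicInt.maximalIdeal_eq_span_p,
      ← PadicInt.ker_toZMod, RingHom.mem_ker]
    exact h4
  have h4 : (g : Matrix n n ℤ_[p]) - 1 = 0 := by
    refine eq_zero_of_pow_eq_one hp.out hq (fun x hx => ?_) padicInt_eq_zero one_pos (by omega)
      h1 ?_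
    · rcases mul_eq_zero.mp hx with h | h
      · exact absurd h (by exact_mod_cast hp.out.ne_zero)
      · exact h
    · rw [add_sub_cancel]
      have := congrArg (Units.val : GL n ℤ_[p] → Matrix n n ℤ_[p]) hgq
      simpa using this
  exact Units.ext (sub_eq_zero.mp h4)

/-- **A finite group of rational matrices embeds in `GL_n(𝔽_p)` for all but finitely many `p`.** -/
theorem exists_injective_zmod {n : Type*} [Fintype n] [DecidableEq n] (G : Subgroup (GL n ℚ))
    [Finite G] : ∃ D : ℕ, D ≠ 0 ∧ ∀ p : ℕ, p.Prime → 2 < p → ¬ p ∣ D →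
      ∃ ρ : G →* GL n (ZMod p), Function.Injective ρ := by
  classical
  let _ : Fintype G := Fintype.ofFinite G
  refine ⟨∏ g : G, ∏ a, ∏ b, (((g : GL n ℚ) : Matrix n n ℚ) a b).den, ?_, ?_⟩
  · exact Finset.prod_ne_zero_iff.mpr fun g _ => Finset.prod_ne_zero_iff.mpr fun a _ =>
      Finset.prod_ne_zero_iff.mpr fun b _ => Rat.den_nz _
  · intro p hp hp2 hD
    have : Fact p.Prime := ⟨hp⟩
    have hden : ∀ (g : G) a b, ¬ p ∣ (((g : GL n ℚ) : Matrix n n ℚ) a b).den := by
      intro g a b hdvd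
      apply hD
      refine hdvd.trans ((Finset.dvd_prod_of_mem _ (Finset.mem_univ b)).trans
        ((Finset.dvd_prod_of_mem (fun a => ∏ b, (((g : GL n ℚ) : Matrix n n ℚ) a b).den)
          (Finset.mem_univ a)).trans (Finset.dvd_prod_of_mem (fun g : G => ∏ a, ∏ b,
            (((g : GL n ℚ) : Matrix n n ℚ) a b).den) (Finset.mem_univ g))))
    obtain ⟨f, hf⟩ := exists_lift_of_mem (PadicInt.Coe.ringHom (p := p)) Subtype.val_injective
      ((GeneralLinearGroup.map (Rat.castHom ℚ_[p])).comp G.subtype) fun g a b =>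
        ⟨⟨_, Padic.norm_rat_le_one (hden g a b)⟩, rfl⟩
    have hfinj : Function.Injective f := by
      intro x y hxy
      have h1 := hf x
      rw [hxy, hf y] at h1
      have h2 := map_injective (n := n) (Rat.castHom ℚ_[p]) (Rat.castHom ℚ_[p]).injective h1
      exact (Subtype.ext h2).symm
    refine ⟨(GeneralLinearGroup.map (PadicInt.toZMod (p := p))).comp f, ?_⟩
    rw [injective_iff_map_eq_one]
    intro g hg
    refine hfinj ?_
    rw [map_one]
    exact eq_one_of_toZMod hp2 hg (f.isOfFinOrder (isOfFinOrder_of_finite g))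

/-- There are large prime numbers which are primitive roots modulo `l ^ 2`. -/
theorem exists_primitive_gt {l : ℕ} (hl : l.Prime) (hl2 : l ≠ 2) (B : ℕ) :
    ∃ p : ℕ, p.Prime ∧ B < p ∧ p.Coprime l ∧ ∀ i : ℕ, l ^ 2 ∣ p ^ i - 1 → l * (l - 1) ∣ i := by
  have : NeZero (l ^ 2) := ⟨pow_ne_zero 2 hl.ne_zero⟩
  have hc : IsCyclic (ZMod (l ^ 2))ˣ := ZMod.isCyclic_units_of_prime_pow l hl hl2 2
  obtain ⟨u, hu⟩ := hc.exists_generator
  obtain ⟨p, hpB, hp, hpu⟩ := Nat.forall_exists_prime_gt_and_eq_mod (q := l ^ 2) u.isUnit B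
  have hcop : p.Coprime (l ^ 2) := by
    rw [← ZMod.isUnit_iff_coprime, hpu]
    exact u.isUnit
  refine ⟨p, hp, hpB, hcop.coprime_dvd_right (dvd_pow_self l two_ne_zero), fun i hi => ?_⟩
  have h1 : orderOf u = l * (l - 1) := by
    rw [orderOf_eq_card_of_forall_mem_zpowers hu, Nat.card_eq_fintype_card,
      ZMod.card_units_eq_totient, Nat.totient_prime_pow hl (by norm_num)]
    norm_num
  rw [← h1]
  apply orderOf_dvd_of_pow_eq_one
  apply Units.ext
  rw [Units.val_pow_eq_pow_val, ← hpu, Units.val_one]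
  have h2 : 1 ≤ p ^ i := Nat.one_le_pow _ _ hp.pos
  have h3 : ((p ^ i - 1 : ℕ) : ZMod (l ^ 2)) = 0 := (ZMod.natCast_eq_zero_iff _ _).mpr hi
  rw [Nat.cast_sub h2, sub_eq_zero] at h3
  push_cast at h3
  exact h3

/-- **Minkowski's bound for finite groups of rational matrices.** -/
theorem minkowski_rat {l : ℕ} [hl : Fact l.Prime] (hl2 : l ≠ 2) {n : ℕ}
    (G : Subgroup (GL (Fin n) ℚ)) [Finite G] :
    padicValNat l (Nat.card G) ≤ n / (l - 1) + padicValNat l (n / (l - 1)).factorial := by
  obtain ⟨D, hD, h⟩ := exists_injective_zmod G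
  obtain ⟨p, hp, hpB, hcop, hi⟩ := exists_primitive_gt hl.out hl2 (max 2 D)
  have : Fact p.Prime := ⟨hp⟩
  obtain ⟨ρ, hρ⟩ := h p hp (lt_of_le_of_lt (le_max_left _ _) hpB) fun hdvd =>
    absurd (Nat.le_of_dvd (Nat.pos_of_ne_zero hD) hdvd)
      (not_le.mpr (lt_of_le_of_lt (le_max_right _ _) hpB))
  rw [← padicValNat_prod hl2 hp hcop hi n]
  have h1 := Subgroup.card_dvd_of_injective ρ hρ
  rw [Matrix.card_GL_field, ZMod.card] at h1
  have hne : ∏ i : Fin n, (p ^ n - p ^ (i : ℕ)) ≠ 0 := Finset.prod_ne_zero_iff.mpr fun i _ =>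
    (Nat.sub_pos_of_lt (Nat.pow_lt_pow_right hp.one_lt i.2)).ne'
  exact (padicValNat_dvd_iff_le hne).mp (pow_padicValNat_dvd.trans h1)

/-- A prime number which divides the order of a finite group of rational matrices of size `n` is at
most `n + 1`. -/
theorem le_of_prime_dvd_card_rat {l : ℕ} (hl : l.Prime) {n : ℕ} (G : Subgroup (GL (Fin n) ℚ))
    [Finite G] (h : l ∣ Nat.card G) : l ≤ n + 1 := by
  have : Fact l.Prime := ⟨hl⟩
  by_contra hlt
  rw [not_le] at hlt
  by_cases hl2 : l = 2
  · subst hl2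
    have hn : n = 0 := by omega
    subst hn
    have h1 : Nat.card G = 1 := Nat.card_eq_one_iff_unique.mpr ⟨inferInstance, inferInstance⟩
    rw [h1] at h
    norm_num at h
  · have h1 := minkowski_rat hl2 G
    rw [Nat.div_eq_of_lt (by omega : n < l - 1), Nat.factorial_zero, padicValNat_one_right] at h1
    have h2 := one_le_padicValNat_of_dvd (p := l) Nat.card_pos.ne' h
    omega

end Fermat.Agent.Cor.SEL
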