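import Mathlib

/-!
# Finite groups of elements of norm one of a Banach algebra

`ρ : Γ → A` is an injective homomorphism from a finite group to a real normed algebra, `‖ρ g‖ ≤ 1`
for all `g`.

* `commute_of_norm` : the `g` with `‖ρ g - 1‖ < 1 / 2` commute with each other;
* `exists_normal` : **`Γ` has a commutative normal subgroup of index at most `5 ^ dim A`.**
-/

set_option autoImplicit false

open Finset Module

namespace Fermat.Agent.Cor.SEL

/-- There are no small subgroups. -/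
theorem eq_one_of_norm_lt {A : Type*} [NormedRing A] [NormedAlgebra ℝ A] {c : A} {m : ℕ}
    (hm : m ≠ 0) (hc : c ^ m = 1) (h : ∀ k : ℕ, ‖c ^ k - 1‖ < 1) : c = 1 := by
  have h1 : (c - 1) * ∑ k ∈ range m, c ^ k = 0 := by rw [mul_geom_sum, hc, sub_self]
  have h2 : (m : ℝ) • (c - 1) = -((c - 1) * ∑ k ∈ range m, (c ^ k - 1)) := by
    rw [Finset.sum_sub_distrib, mul_sub, h1, zero_sub, neg_neg, Finset.sum_const, card_range,
      Nat.cast_smul_eq_nsmul, mul_smul_comm, mul_one]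
  by_contra hne
  have h3 : 0 < ‖c - 1‖ := norm_pos_iff.mpr (sub_ne_zero.mpr hne)
  have h4 : ‖(m : ℝ) • (c - 1)‖ = m * ‖c - 1‖ := by rw [norm_smul, Real.norm_natCast]
  have h5 : ‖∑ k ∈ range m, (c ^ k - 1)‖ < m := by
    refine lt_of_le_of_lt (norm_sum_le _ _) ?_
    have h6 := Finset.sum_lt_sum_of_nonempty (s := range m) (f := fun k => ‖c ^ k - 1‖)
      (g := fun _ => (1 : ℝ)) (nonempty_range_iff.mpr hm) fun k _ => h k
    simpa using h6
  have h6 : ‖(m : ℝ) • (c - 1)‖ ≤ ‖c - 1‖ * ‖∑ k ∈ range m, (c ^ k - 1)‖ := by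
    rw [h2, norm_neg]
    exact norm_mul_le _ _
  rw [h4] at h6
  nlinarith

/-- The commutator. -/
def cm {Γ : Type*} [Group Γ] (g h : Γ) : Γ := g * h * (g⁻¹ * h⁻¹)

theorem cm_eq_one_iff {Γ : Type*} [Group Γ] {g h : Γ} : cm g h = 1 ↔ Commute g h := by
  rw [cm, ← mul_inv_rev, mul_inv_eq_one]
  exact Iff.rfl

section Group

variable {Γ A : Type*} [Group Γ] [NormedRing A] {ρ : Γ →* A}

theorem norm_mul_left_le (hρ : ∀ g, ‖ρ g‖ ≤ 1) (g : Γ) (x : A) : ‖ρ g * x‖ ≤ ‖x‖ :=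
  (norm_mul_le _ _).trans (mul_le_of_le_one_left (norm_nonneg _) (hρ g))

theorem norm_mul_right_le (hρ : ∀ g, ‖ρ g‖ ≤ 1) (g : Γ) (x : A) : ‖x * ρ g‖ ≤ ‖x‖ :=
  (norm_mul_le _ _).trans (mul_le_of_le_one_right (norm_nonneg _) (hρ g))

theorem commutator_sub_one (g h : Γ) :
    ρ (cm g h) - 1 = ((ρ g - 1) * (ρ h - 1) - (ρ h - 1) * (ρ g - 1)) * ρ (g⁻¹ * h⁻¹) := by
  have h1 : (ρ g - 1) * (ρ h - 1) - (ρ h - 1) * (ρ g - 1) = ρ (g * h) - ρ (h * g) := by
    rw [map_mul, map_mul]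
    noncomm_ring
  have h2 : h * g * (g⁻¹ * h⁻¹) = 1 := by group
  rw [h1, sub_mul, ← map_mul, ← map_mul, h2, map_one, cm]

/-- The commutator is nearer to one. -/
theorem norm_commutator_le (hρ : ∀ g, ‖ρ g‖ ≤ 1) (g h : Γ) :
    ‖ρ (cm g h) - 1‖ ≤ 2 * ‖ρ g - 1‖ * ‖ρ h - 1‖ := by
  rw [commutator_sub_one]
  refine (norm_mul_right_le hρ _ _).trans ((norm_sub_le _ _).trans ?_)
  have h1 := norm_mul_le (ρ g - 1) (ρ h - 1)
  have h2 := norm_mul_le (ρ h - 1) (ρ g - 1)
  linarith [mul_comm ‖ρ g - 1‖ ‖ρ h - 1‖]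

theorem norm_commutator_le' (hρ : ∀ g, ‖ρ g‖ ≤ 1) (g h : Γ) :
    ‖ρ (cm g h) - 1‖ ≤ 2 * ‖ρ g - 1‖ := by
  have h1 : ρ (cm g h) - 1 = ((ρ g - 1) * ρ h - ρ h * (ρ g - 1)) * ρ (g⁻¹ * h⁻¹) := by
    have h1 : (ρ g - 1) * ρ h - ρ h * (ρ g - 1) = ρ (g * h) - ρ (h * g) := by
      rw [map_mul, map_mul]
      noncomm_ring
    have h2 : h * g * (g⁻¹ * h⁻¹) = 1 := by group
    rw [h1, sub_mul, ← map_mul, ← map_mul, h2, map_one, cm]
  rw [h1]
  refine (norm_mul_right_le hρ _ _).trans ((norm_sub_le _ _).trans ?_)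
  have h2 := norm_mul_right_le hρ h (ρ g - 1)
  have h3 := norm_mul_left_le hρ h (ρ g - 1)
  linarith

/-- If `a` commutes with `cm b a`, then `cm b a ^ k = cm b (a ^ k)`. -/
theorem commutator_pow {a b : Γ} (h : Commute (cm b a) a) (k : ℕ) : cm b a ^ k = cm b (a ^ k) := by
  have h1 : cm b a * a = b * a * b⁻¹ := by
    rw [cm]
    group
  have h2 : cm b a ^ k * a ^ k = b * a ^ k * b⁻¹ := by
    rw [← h.mul_pow, h1, conj_pow]
  have h3 : cm b (a ^ k) = b * a ^ k * b⁻¹ * (a ^ k)⁻¹ := by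
    rw [cm, ← mul_assoc]
  rw [h3, ← h2, mul_inv_cancel_right]

/-- **The lemma of Frobenius.** -/
theorem commute_of_commute [NormedAlgebra ℝ A] [Finite Γ] (hinj : Function.Injective ρ)
    (hρ : ∀ g, ‖ρ g‖ ≤ 1) {a b : Γ} (hb : ‖ρ b - 1‖ < 1 / 2) (h : Commute (cm b a) a) :
    Commute b a := by
  have h1 : ρ (cm b a) = 1 := by
    refine eq_one_of_norm_lt (m := Nat.card Γ) Nat.card_pos.ne' ?_ fun k => ?_
    · rw [← map_pow, pow_card_eq_one', map_one]
    · rw [← map_pow, commutator_pow h]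
      have := norm_commutator_le' hρ b (a ^ k)
      linarith
  have h2 : cm b a = 1 := hinj (by rw [h1, map_one])
  exact cm_eq_one_iff.mp h2

/-- The elements near to one commute. -/
theorem commute_of_norm [NormedAlgebra ℝ A] [Finite Γ] (hinj : Function.Injective ρ)
    (hρ : ∀ g, ‖ρ g‖ ≤ 1) {a b : Γ} (ha : ‖ρ a - 1‖ < 1 / 2) (hb : ‖ρ b - 1‖ < 1 / 2) :
    Commute b a := by
  by_contra hcon
  obtain ⟨c, ⟨hc1, hc2⟩, hc3⟩ := Set.exists_min_image
    {c : Γ | ‖ρ c - 1‖ < 1 / 2 ∧ ¬ Commute c a} (fun c => ‖ρ c - 1‖) (Set.toFinite _)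
    ⟨b, hb, hcon⟩
  have h1 : 0 < ‖ρ c - 1‖ := by
    rw [norm_pos_iff, sub_ne_zero]
    intro h
    have h2 : c = 1 := hinj (by rw [h, map_one])
    exact hc2 (h2 ▸ Commute.one_left a)
  have h2 := norm_commutator_le hρ c a
  have h3 : ‖ρ (cm c a) - 1‖ < ‖ρ c - 1‖ := by nlinarith
  refine hc2 (commute_of_commute hinj hρ hc1 ?_)
  by_contra h4
  exact absurd (hc3 (cm c a) ⟨h3.trans hc1, h4⟩) (not_le.mpr h3)

/-- **A finite group of elements of norm one of a real normed algebra has a commutative normal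
subgroup of index at most `5 ^ dim A`.** -/
theorem exists_normal [NormedAlgebra ℝ A] [FiniteDimensional ℝ A] [Finite Γ]
    (hinj : Function.Injective ρ) (hρ : ∀ g, ‖ρ g‖ ≤ 1) :
    ∃ N : Subgroup Γ, N.Normal ∧ (∀ x ∈ N, ∀ y ∈ N, x * y = y * x) ∧
      N.index ≤ 5 ^ finrank ℝ A := by
  classical
  set S : Set Γ := {g | ‖ρ g - 1‖ < 1 / 2} with hS
  have hcomm : ∀ x ∈ S, ∀ y ∈ S, x * y = y * x := fun x hx y hy =>
    commute_of_norm hinj hρ hy hx
  refine ⟨Subgroup.closure S, ?_, ?_, ?_⟩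
  · refine Subgroup.Normal.mk fun n hn g => ?_
    refine Subgroup.closure_induction (p := fun n _ => g * n * g⁻¹ ∈ Subgroup.closure S)
      ?_ ?_ ?_ ?_ hn
    · intro x hx
      refine Subgroup.subset_closure ?_
      have h1 : ρ (g * x * g⁻¹) - 1 = ρ g * ((ρ x - 1) * ρ g⁻¹) := by
        rw [sub_mul, one_mul, mul_sub, ← map_mul, ← map_mul, ← map_mul, mul_inv_cancel, map_one,
          mul_assoc]
      change ‖ρ (g * x * g⁻¹) - 1‖ < 1 / 2
      rw [h1]
      exact ((norm_mul_left_le hρ _ _).trans (norm_mul_right_le hρ _ _)).trans_lt hx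
    · rw [mul_one, mul_inv_cancel]
      exact one_mem _
    · intro x y _ _ hx hy
      have h1 : g * (x * y) * g⁻¹ = g * x * g⁻¹ * (g * y * g⁻¹) := by group
      rw [h1]
      exact mul_mem hx hy
    · intro x _ hx
      have h1 : g * x⁻¹ * g⁻¹ = (g * x * g⁻¹)⁻¹ := by group
      rw [h1]
      exact inv_mem hx
  · intro x hx y hy
    have h1 : Subgroup.closure S ≤ Subgroup.centralizer (Subgroup.closure S : Set Γ) := by
      rw [Subgroup.centralizer_closure, Subgroup.closure_le]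
      exact fun z hz => Subgroup.mem_centralizer_iff.mpr fun w hw => hcomm w hw z hz
    exact (Subgroup.mem_centralizer_iff.mp (h1 hy) x hx)
  · let _ : Fintype (Γ ⧸ Subgroup.closure S) := Fintype.ofFinite _
    set T : Finset A := Finset.image (fun q : Γ ⧸ Subgroup.closure S => (2 : ℝ) • ρ q.out)
      Finset.univ with hT
    have hsep : ∀ q r : Γ ⧸ Subgroup.closure S, q ≠ r →
        1 ≤ ‖(2 : ℝ) • ρ q.out - (2 : ℝ) • ρ r.out‖ := by
      intro q r hqr
      by_contra hlt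
      rw [not_le, ← smul_sub, norm_smul, Real.norm_ofNat] at hlt
      apply hqr
      rw [← QuotientGroup.out_eq' q, ← QuotientGroup.out_eq' r]
      refine QuotientGroup.eq.mpr (Subgroup.subset_closure ?_)
      have h1 : ρ (q.out⁻¹ * r.out) - 1 = -(ρ q.out⁻¹ * (ρ q.out - ρ r.out)) := by
        rw [mul_sub, ← map_mul, ← map_mul, inv_mul_cancel, map_one, neg_sub]
      change ‖ρ (q.out⁻¹ * r.out) - 1‖ < 1 / 2
      rw [h1, norm_neg]
      refine (norm_mul_left_le hρ _ _).trans_lt ?_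
      linarith
    have hcard : T.card = (Subgroup.closure S).index := by
      rw [hT, Finset.card_image_of_injective, Finset.card_univ, Subgroup.index,
        Nat.card_eq_fintype_card]
      intro q r hqr
      by_contra hne
      have h1 := hsep q r hne
      have h2 : (2 : ℝ) • ρ q.out = (2 : ℝ) • ρ r.out := hqr
      rw [h2, sub_self, norm_zero] at h1
      norm_num at h1
    rw [← hcard]
    refine Besicovitch.card_le_of_separated T ?_ ?_
    · intro c hc
      obtain ⟨q, -, rfl⟩ := Finset.mem_image.mp hc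
      rw [norm_smul, Real.norm_ofNat]
      have := hρ q.out
      linarith
    · intro c hc d hd hcd
      obtain ⟨q, -, rfl⟩ := Finset.mem_image.mp hc
      obtain ⟨r, -, rfl⟩ := Finset.mem_image.mp hd
      exact hsep q r fun h => hcd (by rw [h])

end Group

end Fermat.Agent.Cor.SEL
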