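import Fermat.Agent.Corollaries.SEL.Conj

/-!
# Finite groups of rational matrices modulo `m`

* `exists_hom_int` : a finite subgroup of `GL_n(ℚ)` embeds in `GL_n(ℤ)` by conjugation;
* `exists_injective_mod` : **a finite subgroup of `GL_n(ℚ)` embeds in `GL_n(ℤ/m)` for all `m ≥ 3`;**
* `card_dvd_rat` : its order divides the order of `GL_n(𝔽_p)` for every prime number `p > 2`.
-/

set_option autoImplicit false

namespace Fermat.Agent.Cor.SEL

open Matrix

/-- A finite subgroup of `GL_n(ℚ)` embeds in `GL_n(ℤ)` by conjugation. -/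
theorem exists_hom_int {n : Type*} [Fintype n] [DecidableEq n] (G : Subgroup (GL n ℚ)) [Finite G] :
    ∃ (P : GL n ℚ) (f : G →* GL n ℤ), Function.Injective f ∧
      ∀ g : G, GeneralLinearGroup.map (Int.castRingHom ℚ) (f g) = P⁻¹ * g * P := by
  obtain ⟨P, hP⟩ := exists_conj_int G
  let ρ : G →* GL n ℚ := (MulAut.conj P⁻¹).toMonoidHom.comp G.subtype
  have hρ : ∀ g : G, ρ g = P⁻¹ * g * P := fun g => by
    change P⁻¹ * (g : GL n ℚ) * P⁻¹⁻¹ = _
    rw [inv_inv]
  obtain ⟨f, hf⟩ := exists_lift_of_mem (Int.castRingHom ℚ) Int.cast_injective ρ (by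
    intro g a b
    obtain ⟨h, hh⟩ := hP g g.2
    refine ⟨(h : Matrix n n ℤ) a b, ?_⟩
    rw [hρ, ← hh]
    rfl)
  refine ⟨P, f, ?_, fun g => (hf g).trans (hρ g)⟩
  rw [injective_iff_map_eq_one]
  intro g hg
  have h1 := hf g
  rw [hg, map_one, hρ] at h1
  refine Subtype.ext ?_
  calc (g : GL n ℚ) = P * (P⁻¹ * g * P) * P⁻¹ := by group
    _ = 1 := by rw [← h1]; group

/-- **A finite group of rational matrices of size `n` embeds in `GL_n(ℤ/m)` for all `m ≥ 3`.** -/
theorem exists_injective_mod {n : Type*} [Fintype n] [DecidableEq n] (G : Subgroup (GL n ℚ))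
    [Finite G] {m : ℕ} (hm : 3 ≤ m) : ∃ f : G →* GL n (ZMod m), Function.Injective f := by
  obtain ⟨P, f, hf, -⟩ := exists_hom_int G
  refine ⟨(red n m).comp f, ?_⟩
  rw [injective_iff_map_eq_one]
  intro g hg
  refine hf ?_
  rw [map_one]
  exact eq_one_of_map_eq_one hm hg (f.isOfFinOrder (isOfFinOrder_of_finite g))

/-- The order of a finite group of rational matrices of size `n` divides
`(p^n - 1)(p^n - p)...(p^n - p^(n-1))` for every prime number `p > 2`. -/
theorem card_dvd_rat {n p : ℕ} (hp : p.Prime) (hp2 : 2 < p) (G : Subgroup (GL (Fin n) ℚ))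
    [Finite G] : Nat.card G ∣ ∏ i : Fin n, (p ^ n - p ^ (i : ℕ)) := by
  have : Fact p.Prime := ⟨hp⟩
  obtain ⟨f, hf⟩ := exists_injective_mod G (m := p) hp2
  have h1 := Subgroup.card_dvd_of_injective _ hf
  rw [Matrix.card_GL_field, ZMod.card] at h1
  exact h1

end Fermat.Agent.Cor.SEL
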