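import Fermat.Agent.Corollaries.SEL.Step
import Fermat.Agent.Corollaries.SEL.Lin
import Fermat.Agent.Corollaries.SML.Krull
import Fermat.Agent.Corollaries.SML.Point

/-!
# Selberg's lemma

* `selberg` : **a finitely generated group of matrices over a field of characteristic zero has a
  normal torsion free subgroup of finite index;**
* `burnside_schur` : **a finitely generated torsion group of matrices over a field of characteristic
  zero is finite;**
* `exists_card_dvd` : the orders of the finite subgroups of a finitely generated group of matrices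
  over a field of characteristic zero divide a fixed number `m > 0`;
* `exists_pow_eq_one` : `g ^ m = 1` for all elements `g` of finite order.
-/

set_option autoImplicit false
set_option linter.unusedSectionVars false

universe u

open Matrix

namespace Fermat.Agent.Cor.SEL

section Blow

variable {R K : Type*} [CommRing R] [IsDomain R] [IsNoetherianRing R] [Field K] [CharZero K]
  [Algebra R K] {p : ℕ} {𝔪 : Ideal R} {S : Finset R}

theorem span_ne_top (hinj : Function.Injective (algebraMap R K)) (hp : p ≠ 0)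
    (hpm : (p : R) ∈ 𝔪) (hS : Ideal.span (S : Set R) = 𝔪)
    (H : ∀ k : ℕ, (p : R) ^ k ∉ 𝔪 ^ (k + 1)) :
    Ideal.span {((p : ℕ) : SML.blow K p S)} ≠ ⊤ := by
  have hpK : (p : K) ≠ 0 := by exact_mod_cast hp
  intro htop
  have h1 : (1 : SML.blow K p S) ∈ Ideal.span {((p : ℕ) : SML.blow K p S)} := by
    rw [htop]; trivial
  rw [Ideal.mem_span_singleton'] at h1
  obtain ⟨y, hy⟩ := h1
  have hy' : (y : K) * (p : K) = 1 := by
    have := congrArg (Subtype.val : SML.blow K p S → K) hy
    simpa using this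
  obtain ⟨k, a, ha, hk⟩ := SML.exists_pow_mul_eq hpK hpm hS y.2
  rcases k with _ | k
  · rw [pow_zero, one_mul] at hk
    have h2 : a * (p : R) = 1 := by
      apply hinj
      rw [map_mul, map_natCast, ← hk, hy', map_one]
    apply H 0
    rw [pow_zero, zero_add, pow_one, ← h2]
    exact Ideal.mul_mem_left _ _ hpm
  · have h2 : (p : R) ^ k = a := by
      apply hinj
      rw [← hk, map_pow, map_natCast, pow_succ, mul_assoc, mul_comm (p : K) (y : K), hy', mul_one]
    exact H k (h2 ▸ ha)

theorem blow_eq_zero (hinj : Function.Injective (algebraMap R K)) (hp : p ≠ 0)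
    (hpm : (p : R) ∈ 𝔪) (hS : Ideal.span (S : Set R) = 𝔪)
    (H : ∀ k : ℕ, (p : R) ^ k ∉ 𝔪 ^ (k + 1)) (x : SML.blow K p S)
    (h : ∀ j : ℕ, ((p : ℕ) : SML.blow K p S) ^ j ∣ x) : x = 0 := by
  have hN : IsNoetherianRing (SML.blow K p S) := SML.isNoetherianRing_blow
  have hbot := Ideal.iInf_pow_eq_bot_of_isDomain _ (span_ne_top hinj hp hpm hS H)
  have hx : x ∈ (⨅ i : ℕ, Ideal.span {((p : ℕ) : SML.blow K p S)} ^ i :
      Ideal (SML.blow K p S)) := by
    rw [Ideal.mem_iInf]
    intro j
    rw [Ideal.span_singleton_pow, Ideal.mem_span_singleton]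
    exact h j
  rwa [hbot, Submodule.mem_bot] at hx

/-- A matrix of finite order which is congruent to one modulo `𝔪` is one. -/
theorem eq_zero_of_mem (K : Type*) [Field K] [CharZero K] [Algebra R K]
    (hinj : Function.Injective (algebraMap R K)) (hp : p.Prime) (hp2 : 2 < p)
    (hpm : (p : R) ∈ 𝔪) (H : ∀ k : ℕ, (p : R) ^ k ∉ 𝔪 ^ (k + 1)) {n : Type*} [Fintype n]
    [DecidableEq n] {A : Matrix n n R} (hA : ∀ a b, A a b ∈ 𝔪) {q : ℕ} (hq : q.Prime)
    (h : (1 + A) ^ q = 1) : A = 0 := by
  obtain ⟨S, hS⟩ : ∃ S : Finset R, Ideal.span (S : Set R) = 𝔪 := (isNoetherian_def.mp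
    (inferInstance : IsNoetherian R R)) 𝔪
  have hpK : (p : K) ≠ 0 := by exact_mod_cast hp.ne_zero
  set φ : R →+* SML.blow K p S := algebraMap R (SML.blow K p S) with hφ
  have hφinj : Function.Injective φ := fun x y hxy => hinj (congrArg Subtype.val hxy)
  have h1 : ∀ a b, ((p : ℕ) : SML.blow K p S) ^ 1 ∣ φ.mapMatrix A a b := by
    intro a b
    rw [pow_one, RingHom.mapMatrix_apply, Matrix.map_apply]
    refine ⟨⟨_, SML.div_mem (K := K) (p := p) hS (hA a b)⟩, ?_⟩
    apply Subtype.ext
    change algebraMap R K (A a b) = (p : K) * (algebraMap R K (A a b) / (p : K))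
    field_simp
  have h2 : φ.mapMatrix A = 0 := by
    refine eq_zero_of_pow_eq_one hp hq (fun x hx => ?_)
      (blow_eq_zero hinj hp.ne_zero hpm hS H) one_pos (by omega) h1 ?_
    · apply Subtype.ext
      have h3 := congrArg (Subtype.val : SML.blow K p S → K) hx
      have h4 : (p : K) * (x : K) = 0 := by simpa using h3
      rcases mul_eq_zero.mp h4 with h5 | h5
      · exact absurd h5 hpK
      · exact h5
    · rw [← map_one φ.mapMatrix, ← map_add, ← map_pow, h]
  ext a b
  apply hφinj
  have := congrFun (congrFun h2 a) b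
  rw [RingHom.mapMatrix_apply, Matrix.map_apply] at this
  rw [this, Matrix.zero_apply, Matrix.zero_apply, map_zero]

end Blow

/-- **Selberg's lemma.** -/
theorem selberg {K : Type u} [Field K] [CharZero K] {n : Type*} [Fintype n] [DecidableEq n]
    (Γ : Subgroup (GL n K)) (hΓ : Γ.FG) :
    ∃ N : Subgroup Γ, N.Normal ∧ N.FiniteIndex ∧ ∀ g ∈ N, IsOfFinOrder g → g = 1 := by
  classical
  obtain ⟨G, f, hf⟩ := exists_lift Γ hΓ
  obtain ⟨p, 𝔪, hp, hp2, hpm, hfin, H⟩ := SML.exists_point G
  have hNoeth : IsNoetherianRing (Algebra.adjoin ℤ (G : Set K)) := by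
    refine isNoetherianRing_of_fg ?_
    exact ⟨G, rfl⟩
  have hinj : Function.Injective (algebraMap (Algebra.adjoin ℤ (G : Set K)) K) :=
    Subtype.val_injective
  have hfin2 : Finite (GL n (Algebra.adjoin ℤ (G : Set K) ⧸ 𝔪)) := inferInstance
  set φ : Γ →* GL n (Algebra.adjoin ℤ (G : Set K) ⧸ 𝔪) :=
    (GeneralLinearGroup.map (Ideal.Quotient.mk 𝔪)).comp f with hφ
  refine ⟨φ.ker, inferInstance, Subgroup.finiteIndex_ker φ, fun g hg hg2 => ?_⟩
  refine eq_one_of_isOfFinOrder (H := φ.ker) ?_ hg hg2
  intro q g hq hg hgq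
  have h1 := (map_mk_eq_one_iff 𝔪 (f g)).mp (MonoidHom.mem_ker.mp hg)
  have h4 : (f g : Matrix n n (Algebra.adjoin ℤ (G : Set K))) - 1 = 0 := by
    refine eq_zero_of_mem K hinj hp hp2 hpm H h1 hq ?_
    rw [add_sub_cancel]
    have h5 : f g ^ q = 1 := by rw [← map_pow, hgq, map_one]
    have := congrArg (Units.val : GL n (Algebra.adjoin ℤ (G : Set K)) → _) h5
    simpa using this
  have h6 : f g = 1 := Units.ext (sub_eq_zero.mp h4)
  have h7 := hf g
  rw [h6, map_one] at h7
  exact Subtype.ext h7.symm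

/-- **The theorem of Burnside and Schur.** A finitely generated torsion group of matrices over a
field of characteristic zero is finite. -/
theorem burnside_schur {K : Type u} [Field K] [CharZero K] {n : Type*} [Fintype n] [DecidableEq n]
    (Γ : Subgroup (GL n K)) (hΓ : Γ.FG) (h : ∀ g ∈ Γ, IsOfFinOrder g) : Finite Γ := by
  obtain ⟨N, -, hN, htf⟩ := selberg Γ hΓ
  have hbot : N = ⊥ := by
    rw [Subgroup.eq_bot_iff_forall]
    intro g hg
    exact htf g hg ((Submonoid.isOfFinOrder_coe (H := Γ.toSubmonoid) (x := g)).mp (h g g.2))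
  subst hbot
  have := hN
  exact Subgroup.finite_iff_finite_and_finiteIndex (H := (⊥ : Subgroup Γ)) |>.mpr
    ⟨inferInstance, hN⟩

/-- A group with a torsion free normal subgroup of finite index: the orders of the finite subgroups
divide the index. -/
theorem card_dvd_index {Γ : Type*} [Group Γ] (N : Subgroup Γ) [N.Normal]
    (htf : ∀ g ∈ N, IsOfFinOrder g → g = 1) (F : Subgroup Γ) [Finite F] :
    Nat.card F ∣ N.index := by
  have h1 : N ⊓ F = ⊥ := by
    rw [Subgroup.eq_bot_iff_forall]
    rintro g ⟨hg1, hg2⟩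
    have h2 : IsOfFinOrder (⟨g, hg2⟩ : F) := isOfFinOrder_of_finite _
    exact htf g hg1 ((Submonoid.isOfFinOrder_coe (H := F.toSubmonoid) (x := ⟨g, hg2⟩)).mpr h2)
  rw [← Subgroup.relIndex_bot_left, ← h1, Subgroup.inf_relIndex_right]
  exact Subgroup.relIndex_dvd_index_of_normal N F

/-- **The orders of the finite subgroups of a finitely generated group of matrices over a field of
characteristic zero divide a fixed number.** -/
theorem exists_card_dvd {K : Type u} [Field K] [CharZero K] {n : Type*} [Fintype n]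
    [DecidableEq n] (Γ : Subgroup (GL n K)) (hΓ : Γ.FG) :
    ∃ m : ℕ, m ≠ 0 ∧ ∀ F : Subgroup Γ, Finite F → Nat.card F ∣ m := by
  obtain ⟨N, hN1, hN2, htf⟩ := selberg Γ hΓ
  exact ⟨N.index, hN2.index_ne_zero, fun F hF => card_dvd_index N htf F⟩

/-- There is `m > 0` with `g ^ m = 1` for all elements of finite order of a finitely generated group
of matrices over a field of characteristic zero. -/
theorem exists_pow_eq_one {K : Type u} [Field K] [CharZero K] {n : Type*} [Fintype n]
    [DecidableEq n] (Γ : Subgroup (GL n K)) (hΓ : Γ.FG) :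
    ∃ m : ℕ, m ≠ 0 ∧ ∀ g : Γ, IsOfFinOrder g → g ^ m = 1 := by
  obtain ⟨m, hm, h⟩ := exists_card_dvd Γ hΓ
  refine ⟨m, hm, fun g hg => ?_⟩
  have h1 : Finite (Subgroup.zpowers g) := by
    have := hg.finite_zpowers
    exact this
  have h2 := h _ h1
  rw [Nat.card_zpowers] at h2
  exact orderOf_dvd_iff_pow_eq_one.mp h2

end Fermat.Agent.Cor.SEL
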