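import Fermat.Agent.Corollaries.SEL.Malcev
import Fermat.Agent.Corollaries.SEL.Selb

/-!
# The groups `GL_n(R)`, `R` a finitely generated commutative ring

* `residuallyFinite_gl` : `GL_n(R)` is residually finite;
* `selberg_gl` : `R ⊆ K`, `K` a field of characteristic zero: `GL_n(R)` has a normal torsion free
  subgroup of finite index;
* `residually_p` : **`R` a domain: `GL_n(R)` has a normal subgroup `N` of finite index which is
  residually a finite `p`-group for a prime number `p`.**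
-/

set_option autoImplicit false

universe u

open Matrix

namespace Fermat.Agent.Cor.SEL

/-- `GL_n(R)` is residually finite for every finitely generated commutative ring `R`. -/
theorem residuallyFinite_gl (R n : Type*) [CommRing R] [Algebra.FiniteType ℤ R] [Fintype n]
    [DecidableEq n] : Group.ResiduallyFinite (GL n R) := by
  rw [Group.residuallyFinite_iff_exists_finiteIndex]
  intro g hg
  obtain ⟨a, b, hab⟩ : ∃ a b, ((g : Matrix n n R) - 1) a b ≠ 0 := by
    by_contra! h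
    exact hg (Units.ext (sub_eq_zero.mp (by ext a b; exact h a b)))
  obtain ⟨I, hI, hxI⟩ := exists_ideal_notMem hab
  have hfin : Finite (GL n (R ⧸ I)) := inferInstance
  exact ⟨(GeneralLinearGroup.map (Ideal.Quotient.mk I)).ker, Subgroup.finiteIndex_ker _,
    fun h => hxI ((map_mk_eq_one_iff I g).mp (MonoidHom.mem_ker.mp h) a b)⟩

/-- **Selberg's lemma for `GL_n(R)`**, `R` a finitely generated subring of a field of characteristic
zero. -/
theorem selberg_gl {K : Type u} [Field K] [CharZero K] {n : Type*} [Fintype n] [DecidableEq n]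
    (G : Finset K) : ∃ N : Subgroup (GL n (Algebra.adjoin ℤ (G : Set K))), N.Normal ∧
      N.FiniteIndex ∧ ∀ g ∈ N, IsOfFinOrder g → g = 1 := by
  obtain ⟨p, 𝔪, hp, hp2, hpm, hfin, H⟩ := SML.exists_point G
  have hNoeth : IsNoetherianRing (Algebra.adjoin ℤ (G : Set K)) :=
    isNoetherianRing_of_fg ⟨G, rfl⟩
  have hinj : Function.Injective (algebraMap (Algebra.adjoin ℤ (G : Set K)) K) :=
    Subtype.val_injective
  have hfin2 : Finite (GL n (Algebra.adjoin ℤ (G : Set K) ⧸ 𝔪)) := inferInstance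
  refine ⟨(GeneralLinearGroup.map (Ideal.Quotient.mk 𝔪)).ker, inferInstance,
    Subgroup.finiteIndex_ker _, fun g hg hg2 => ?_⟩
  refine eq_one_of_isOfFinOrder (H := (GeneralLinearGroup.map (Ideal.Quotient.mk 𝔪)).ker) ?_ hg hg2
  intro q g hq hg hgq
  have h1 := (map_mk_eq_one_iff 𝔪 g).mp (MonoidHom.mem_ker.mp hg)
  have h4 : (g : Matrix n n (Algebra.adjoin ℤ (G : Set K))) - 1 = 0 := by
    refine eq_zero_of_mem K hinj hp hp2 hpm H h1 hq ?_
    rw [add_sub_cancel]
    have := congrArg (Units.val : GL n (Algebra.adjoin ℤ (G : Set K)) → _) hgq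
    simpa using this
  exact Units.ext (sub_eq_zero.mp h4)

theorem mul_mem_entries {R n : Type*} [CommRing R] [Fintype n] {I J : Ideal R}
    {A B : Matrix n n R} (hA : ∀ a b, A a b ∈ I) (hB : ∀ a b, B a b ∈ J) (a b : n) :
    (A * B) a b ∈ I * J := by
  rw [Matrix.mul_apply]
  exact Ideal.sum_mem _ fun c _ => Ideal.mul_mem_mul (hA a c) (hB c b)

/-- If `g ≡ 1` modulo `𝔪 ^ i`, `i ≥ 1`, and `p ∈ 𝔪`, then `g ^ p ≡ 1` modulo `𝔪 ^ (i + 1)`. -/
theorem pow_sub_one_mem {R n : Type*} [CommRing R] [Fintype n] [DecidableEq n] {𝔪 : Ideal R}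
    {p i : ℕ} (hp : (p : R) ∈ 𝔪) (hi : 0 < i) {g : Matrix n n R}
    (hg : ∀ a b, (g - 1) a b ∈ 𝔪 ^ i) (a b : n) : (g ^ p - 1) a b ∈ 𝔪 ^ (i + 1) := by
  obtain ⟨X, hX⟩ := exists_one_add_pow (g - 1) p
  rw [add_sub_cancel] at hX
  have h1 : g ^ p - 1 = (p : Matrix n n R) * (g - 1) + (g - 1) ^ 2 * X := by
    rw [hX]
    abel
  rw [h1, Matrix.add_apply]
  refine add_mem ?_ ?_
  · rw [← nsmul_eq_mul, Matrix.smul_apply, nsmul_eq_mul, pow_succ']
    exact Ideal.mul_mem_mul hp (hg a b)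
  · have h2 := mul_mem_entries (J := ⊤) (mul_mem_entries hg hg) (B := X) (fun _ _ => trivial) a b
    rw [Ideal.mul_top, ← pow_add, ← pow_two] at h2
    exact Ideal.pow_le_pow_right (by omega) h2

/-- **`GL_n(R)` is virtually residually a finite `p`-group.** -/
theorem residually_p (R n : Type*) [CommRing R] [IsDomain R] [Algebra.FiniteType ℤ R] [Fintype n]
    [DecidableEq n] : ∃ (p : ℕ) (N : Subgroup (GL n R)), p.Prime ∧ N.Normal ∧ N.FiniteIndex ∧
      ∀ g : N, g ≠ 1 → ∃ M : Subgroup N, M.Normal ∧ (∃ k, M.index = p ^ k) ∧ g ∉ M := by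
  have hNoeth : IsNoetherianRing R := Algebra.FiniteType.isNoetherianRing ℤ R
  obtain ⟨𝔪, hM⟩ := Ideal.exists_maximal R
  let F : Field (R ⧸ 𝔪) := Ideal.Quotient.field 𝔪
  have h2 : Algebra.FiniteType ℤ (R ⧸ 𝔪) :=
    Algebra.FiniteType.of_surjective (Ideal.Quotient.mkₐ ℤ 𝔪) (Ideal.Quotient.mkₐ_surjective ℤ 𝔪)
  have h3 : Finite (R ⧸ 𝔪) := @finite_of_finiteType (R ⧸ 𝔪) F h2
  obtain ⟨p, hp⟩ := CharP.exists (R ⧸ 𝔪)
  have hpp : p.Prime := (CharP.char_is_prime_or_zero (R ⧸ 𝔪) p).resolve_right fun h => by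
    subst h
    have := CharP.charP_to_charZero (R ⧸ 𝔪)
    exact Set.infinite_univ_iff.mp (Set.infinite_univ_iff.mpr
      (Infinite.of_injective (Nat.cast : ℕ → R ⧸ 𝔪) Nat.cast_injective)) |>.not_finite h3
  have hpm : (p : R) ∈ 𝔪 := by
    rw [← Ideal.Quotient.eq_zero_iff_mem, map_natCast, CharP.cast_eq_zero]
  have hfinGL : ∀ k, Finite (GL n (R ⧸ 𝔪 ^ k)) := fun k => by
    have := Ideal.finite_quotient_pow (IsNoetherian.noetherian 𝔪) k
    infer_instance
  have hfin1 : Finite (GL n (R ⧸ 𝔪)) := inferInstance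
  refine ⟨p, (GeneralLinearGroup.map (Ideal.Quotient.mk 𝔪)).ker, hpp, inferInstance,
    Subgroup.finiteIndex_ker _, fun g hg => ?_⟩
  obtain ⟨a, b, hab⟩ : ∃ a b, (((g : GL n R) : Matrix n n R) - 1) a b ≠ 0 := by
    by_contra! h
    exact hg (Subtype.ext (Units.ext (sub_eq_zero.mp (by ext a b; exact h a b))))
  obtain ⟨k, hk⟩ : ∃ k : ℕ, (((g : GL n R) : Matrix n n R) - 1) a b ∉ 𝔪 ^ (k + 1) := by
    by_contra! h
    have hbot := Ideal.iInf_pow_eq_bot_of_isDomain 𝔪 hM.ne_top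
    apply hab
    rw [← Ideal.mem_bot, ← hbot, Ideal.mem_iInf]
    exact fun i => Ideal.pow_le_pow_right (Nat.le_succ i) (h i)
  set φ : (GeneralLinearGroup.map (n := n) (Ideal.Quotient.mk 𝔪)).ker →* GL n (R ⧸ 𝔪 ^ (k + 1)) :=
    (GeneralLinearGroup.map (Ideal.Quotient.mk (𝔪 ^ (k + 1)))).comp (Subgroup.subtype _) with hφ
  have hφfin := hfinGL (k + 1)
  have hindex : φ.ker.FiniteIndex := Subgroup.finiteIndex_ker φ
  refine ⟨φ.ker, inferInstance, ?_, fun h => hk ((map_mk_eq_one_iff _ _).mp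
    (MonoidHom.mem_ker.mp h) a b)⟩
  have : Fact p.Prime := ⟨hpp⟩
  have hP : IsPGroup p ((GeneralLinearGroup.map (n := n) (Ideal.Quotient.mk 𝔪)).ker ⧸ φ.ker) := by
    intro q
    obtain ⟨h, rfl⟩ := QuotientGroup.mk_surjective q
    refine ⟨k, ?_⟩
    rw [← QuotientGroup.mk_pow, QuotientGroup.eq_one_iff, MonoidHom.mem_ker]
    refine (map_mk_eq_one_iff _ _).mpr ?_
    have hpow : ∀ i : ℕ, ∀ a b, (((h : GL n R) : Matrix n n R) ^ p ^ i - 1) a b ∈
        𝔪 ^ (i + 1) := by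
      intro i
      induction i with
      | zero =>
        intro a b
        have h4 := (map_mk_eq_one_iff _ _).mp (MonoidHom.mem_ker.mp h.2) a b
        simpa using h4
      | succ i ih =>
        intro a b
        have h4 : ((h : GL n R) : Matrix n n R) ^ p ^ (i + 1) =
            (((h : GL n R) : Matrix n n R) ^ p ^ i) ^ p := by rw [← pow_mul, ← pow_succ]
        rw [h4]
        exact pow_sub_one_mem hpm (Nat.succ_pos i) ih a b
    intro a b
    have := hpow k a b
    simpa using this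
  obtain ⟨j, hj⟩ := IsPGroup.iff_card.mp hP
  exact ⟨j, hj⟩

end Fermat.Agent.Cor.SEL
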