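import Fermat.Agent.Corollaries.SEL.Selb
import Fermat.Agent.Corollaries.SEL.Jordan
import Fermat.Agent.Corollaries.SEL.Compact

/-!
# The theorem of Jordan and Schur

* `exists_complex` : a finite group of matrices of size `n` over a field of characteristic zero is
  isomorphic to a group of complex matrices of size `n`;
* `jordan_field` : Jordan's theorem over every field of characteristic zero;
* `jordan_schur` : **a torsion group of matrices of size `n` over a field of characteristic zero has
  a commutative normal subgroup of finite index, at most `25 ^ (n ^ 2)`.**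
-/

set_option autoImplicit false

universe u

open Matrix

namespace Fermat.Agent.Cor.SEL

theorem map_apply_one {R S n : Type*} [CommRing R] [CommRing S] [Fintype n] [DecidableEq n]
    (ψ : R →+* S) {g : GL n R} (h : GeneralLinearGroup.map ψ g = 1) (a b : n) :
    ψ (((g : Matrix n n R) - 1) a b) = 0 := by
  have h2 := congrArg (fun g : GL n S => (g : Matrix n n S) a b) h
  have h3 : ψ ((g : Matrix n n R) a b) = (1 : Matrix n n S) a b := by
    simpa using h2
  rw [Matrix.sub_apply, map_sub, h3, Matrix.one_apply, Matrix.one_apply]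
  split_ifs <;> simp

/-- **A finite group of matrices over a field of characteristic zero is isomorphic to a group of
complex matrices of the same size.** -/
theorem exists_complex {K : Type u} [Field K] [CharZero K] {n : Type*} [Fintype n] [DecidableEq n]
    (G : Subgroup (GL n K)) [Finite G] : ∃ ρ : G →* GL n ℂ, Function.Injective ρ := by
  classical
  let _ : Fintype G := Fintype.ofFinite G
  have hfg : G.FG := (Group.fg_iff_subgroup_fg G).mp inferInstance
  obtain ⟨G0, hG0⟩ := exists_lift G hfg
  set R := Algebra.adjoin ℤ (G0 : Set K) with hR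
  obtain ⟨f, hf⟩ := hG0
  have hex : ∀ g : G, ∃ x : R, x ≠ 0 ∧
      (g ≠ 1 → ∃ a b, x = ((f g : Matrix n n R) - 1) a b) := by
    intro g
    by_cases hg : g = 1
    · exact ⟨1, one_ne_zero, fun h => absurd hg h⟩
    · have h1 : f g ≠ 1 := by
        intro h
        have h2 := hf g
        rw [h, map_one] at h2
        exact hg (Subtype.ext h2.symm)
      obtain ⟨a, b, hab⟩ : ∃ a b, ((f g : Matrix n n R) - 1) a b ≠ 0 := by
        by_contra! h
        exact h1 (Units.ext (sub_eq_zero.mp (by ext a b; exact congrArg _ (h a b))))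
      exact ⟨_, hab, fun _ => ⟨a, b, rfl⟩⟩
  choose x hx hx2 using hex
  set d : R := ∏ g : G, x g with hd
  have hd0 : d ≠ 0 := Finset.prod_ne_zero_iff.mpr fun g _ => hx g
  have hdK : (d : K) ≠ 0 := fun h => hd0 (Subtype.ext h)
  set A := Algebra.adjoin ℚ ((insert (d : K)⁻¹ G0 : Finset K) : Set K) with hA
  have hAft : Algebra.FiniteType ℚ A := (Subalgebra.fg_iff_finiteType A).mp ⟨_, rfl⟩
  obtain ⟨L, _, _, ⟨φ⟩⟩ := SML.exists_hom A
  have hle : R ≤ A.restrictScalars ℤ :=
    Algebra.adjoin_le fun x hx => Algebra.subset_adjoin (R := ℚ)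
      (Finset.mem_coe.mpr (Finset.mem_insert_of_mem (Finset.mem_coe.mp hx)))
  let j : R →+* A := (Subalgebra.inclusion hle : _ →ₐ[ℤ] A.restrictScalars ℤ).toRingHom
  let ι : L →+* ℂ := Classical.arbitrary (L →+* ℂ)
  let ψ : R →+* ℂ := ι.comp (φ.comp j)
  have hψd : ψ d ≠ 0 := by
    have h1 : j d * (⟨(d : K)⁻¹, Algebra.subset_adjoin (Finset.mem_coe.mpr
        (Finset.mem_insert_self _ _))⟩ : A) = 1 := Subtype.ext (mul_inv_cancel₀ hdK)
    have h2 := congrArg (ι.comp φ) h1
    rw [map_mul, map_one] at h2
    exact left_ne_zero_of_mul_eq_one h2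
  rw [hd, map_prod, Finset.prod_ne_zero_iff] at hψd
  refine ⟨(GeneralLinearGroup.map ψ).comp f, ?_⟩
  rw [injective_iff_map_eq_one]
  intro g hg
  by_contra hne
  obtain ⟨a, b, hab⟩ := hx2 g hne
  apply hψd g (Finset.mem_univ g)
  rw [hab]
  exact map_apply_one ψ hg a b

/-- Jordan's theorem for a group with an injective homomorphism to `GL_n(ℂ)`. -/
theorem jordan_of_injective {Γ n : Type*} [Group Γ] [Finite Γ] [Fintype n] [DecidableEq n]
    (ρ : Γ →* GL n ℂ) (hρ : Function.Injective ρ) :
    ∃ N : Subgroup Γ, N.Normal ∧ (∀ x ∈ N, ∀ y ∈ N, x * y = y * x) ∧ N.FiniteIndex ∧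
      N.index ≤ 25 ^ (Fintype.card n ^ 2) := by
  have h0 : Finite ρ.range := Finite.of_surjective _ ρ.rangeRestrict_surjective
  obtain ⟨N, h1, h2, h3⟩ := jordan ρ.range
  refine ⟨N.comap ρ.rangeRestrict, h1.comap _, fun x hx y hy => ?_, inferInstance, ?_⟩
  · apply hρ
    have h4 := h2 _ hx _ hy
    have h5 := congrArg Subtype.val h4
    rw [map_mul, map_mul]
    exact h5
  · rw [Subgroup.index_comap_of_surjective _ ρ.rangeRestrict_surjective]
    exact h3

/-- **Jordan's theorem over a field of characteristic zero.** -/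
theorem jordan_field {K : Type u} [Field K] [CharZero K] {n : Type*} [Fintype n] [DecidableEq n]
    (G : Subgroup (GL n K)) [Finite G] :
    ∃ N : Subgroup G, N.Normal ∧ (∀ x ∈ N, ∀ y ∈ N, x * y = y * x) ∧ N.FiniteIndex ∧
      N.index ≤ 25 ^ (Fintype.card n ^ 2) := by
  obtain ⟨ρ, hρ⟩ := exists_complex G
  exact jordan_of_injective ρ hρ

/-- **The theorem of Jordan and Schur.** A torsion group of matrices of size `n` over a field of
characteristic zero has a commutative normal subgroup of finite index, at most `25 ^ (n ^ 2)`. -/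
theorem jordan_schur {K : Type u} [Field K] [CharZero K] {n : Type*} [Fintype n] [DecidableEq n]
    (Γ : Subgroup (GL n K)) (hΓ : ∀ g ∈ Γ, IsOfFinOrder g) :
    ∃ N : Subgroup Γ, N.Normal ∧ (∀ x ∈ N, ∀ y ∈ N, x * y = y * x) ∧ N.FiniteIndex ∧
      N.index ≤ 25 ^ (Fintype.card n ^ 2) := by
  refine exists_of_fg fun F hF => ?_
  let e : F ≃* F.map Γ.subtype := F.equivMapOfInjective Γ.subtype Γ.subtype_injective
  have h0 : Group.FG F := (Group.fg_iff_subgroup_fg F).mpr hF
  have h1 : (F.map Γ.subtype).FG := (Group.fg_iff_subgroup_fg _).mp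
    (Group.fg_of_surjective (f := e.toMonoidHom) e.surjective)
  have h2 : Finite (F.map Γ.subtype) := burnside_schur _ h1 fun g hg => by
    obtain ⟨x, -, rfl⟩ := Subgroup.mem_map.mp hg
    exact hΓ _ x.2
  obtain ⟨ρ, hρ⟩ := exists_complex (F.map Γ.subtype)
  have h3 : Finite F := Finite.of_injective e e.injective
  exact jordan_of_injective (ρ.comp e.toMonoidHom) (hρ.comp e.injective)

end Fermat.Agent.Cor.SEL
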