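import Fermat.Agent.Corollaries.SEL.Kolchin

/-!
# Finitely generated groups of unipotent endomorphisms in characteristic `p`

* `finite_range_of_unipotent` : **a finitely generated group of unipotent endomorphisms of a vector
  space of finite dimension over an algebraically closed field of characteristic `p > 0` is
  finite.**
-/

set_option autoImplicit false

open Module

namespace Fermat.Agent.Cor.SEL

section Quotient

variable {k G V : Type*} [Field k] [Group G] [AddCommGroup V] [Module k V] (ρ : G →* End k V)

/-- The fixed vectors. -/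
def fixedSub : Submodule k V where
  carrier := {v | ∀ g, ρ g v = v}
  zero_mem' := fun g => map_zero _
  add_mem' := fun {v w} hv hw g => by rw [map_add, hv g, hw g]
  smul_mem' := fun c v hv g => by rw [map_smul, hv g]

theorem fixedSub_le (g : G) : fixedSub ρ ≤ (fixedSub ρ).comap (ρ g) := fun v hv => by
  rw [Submodule.mem_comap, hv g]
  exact hv

/-- The action on the quotient by the fixed vectors. -/
def quotRep : G →* End k (V ⧸ fixedSub ρ) where
  toFun g := (fixedSub ρ).mapQ (fixedSub ρ) (ρ g) (fixedSub_le ρ g)
  map_one' := by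
    ext v
    change Submodule.Quotient.mk (ρ 1 v) = Submodule.Quotient.mk v
    rw [map_one]
    rfl
  map_mul' g h := by
    ext v
    change Submodule.Quotient.mk (ρ (g * h) v) = Submodule.Quotient.mk (ρ g (ρ h v))
    rw [map_mul]
    rfl

theorem quotRep_mk (g : G) (v : V) :
    quotRep ρ g (Submodule.Quotient.mk v) = Submodule.Quotient.mk (ρ g v) := rfl

theorem isNilpotent_quotRep {g : G} (h : IsNilpotent (ρ g - 1)) :
    IsNilpotent (quotRep ρ g - 1) := by
  obtain ⟨m, hm⟩ := h
  refine ⟨m, ?_⟩
  have h1 : ∀ (j : ℕ) (v : V), ((quotRep ρ g - 1) ^ j) (Submodule.Quotient.mk v) =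
      Submodule.Quotient.mk (((ρ g - 1) ^ j) v) := by
    intro j
    induction j with
    | zero => intro v; rfl
    | succ j ih =>
      intro v
      rw [pow_succ, pow_succ, Module.End.mul_apply, Module.End.mul_apply, ← ih]
      rfl
  ext v
  change ((quotRep ρ g - 1) ^ m) (Submodule.Quotient.mk v) = 0
  rw [h1, hm]
  rfl

theorem sub_mem_fixedSub {g : G} (hg : quotRep ρ g = 1) (v : V) : ρ g v - v ∈ fixedSub ρ := by
  have h1 := LinearMap.congr_fun hg (Submodule.Quotient.mk v)
  rw [quotRep_mk] at h1
  exact (Submodule.Quotient.eq _).mp h1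

/-- On the kernel of the action on the quotient. -/
theorem apply_apply {g : G} (h : G) (hg : quotRep ρ g = 1) (v : V) :
    ρ h (ρ g v) = ρ h v + (ρ g v - v) := by
  have h1 := sub_mem_fixedSub ρ hg v h
  rw [map_sub, sub_eq_iff_eq_add] at h1
  rw [h1, add_comm]

theorem pow_apply {g : G} (hg : quotRep ρ g = 1) (v : V) (j : ℕ) :
    ((ρ g) ^ j) v = v + j • (ρ g v - v) := by
  induction j with
  | zero => simp
  | succ j ih =>
    rw [pow_succ', Module.End.mul_apply, ih, map_add, map_nsmul,
      sub_mem_fixedSub ρ hg v g, succ_nsmul]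
    abel

end Quotient

/-- A commutative subgroup of finite index with finite image. -/
theorem finite_range_of_subgroup {G H : Type*} [Group G] [Group H] (f : G →* H) (N : Subgroup G)
    [N.FiniteIndex] (h : Finite (f.comp N.subtype).range) : Finite f.range := by
  have h1 : Finite (G ⧸ N) := inferInstance
  refine Finite.of_surjective (fun x : (G ⧸ N) × (f.comp N.subtype).range =>
    (⟨f x.1.out * x.2, by
      obtain ⟨y, hy⟩ := x.2.2
      exact ⟨x.1.out * y, by rw [map_mul, ← hy]; rfl⟩⟩ : f.range)) ?_
  rintro ⟨_, g, rfl⟩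
  have h2 : ((g : G ⧸ N).out)⁻¹ * g ∈ N := QuotientGroup.eq.mp (QuotientGroup.out_eq' (g : G ⧸ N))
  refine ⟨((g : G ⧸ N), ⟨f (((g : G ⧸ N).out)⁻¹ * g), ⟨⟨_, h2⟩, rfl⟩⟩), ?_⟩
  apply Subtype.ext
  change f _ * f _ = f g
  rw [← map_mul, mul_inv_cancel_left]

universe u v

/-- **A finitely generated group of unipotent endomorphisms in characteristic `p` is finite.** -/
theorem finite_range_of_unipotent {k : Type*} [Field k] [IsAlgClosed k] {p : ℕ}
    [hp : Fact p.Prime] [CharP k p] (n : ℕ) :
    ∀ (V : Type u) [AddCommGroup V] [Module k V] [FiniteDimensional k V], finrank k V = n →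
      ∀ (G : Type v) [Group G] [Group.FG G] (ρ : G →* End k V), (∀ g, IsNilpotent (ρ g - 1)) →
        Finite ρ.toHomUnits.range := by
  induction n using Nat.strong_induction_on with
  | _ n ih =>
    intro V _ _ _ hn G _ _ ρ hρ
    rcases subsingleton_or_nontrivial V with hV | hV
    · have h1 : Subsingleton (End k V) := inferInstance
      have h2 : Subsingleton (End k V)ˣ := ⟨fun a b => Units.ext (Subsingleton.elim _ _)⟩
      infer_instance
    · obtain ⟨v, hv0, hv⟩ := exists_fixed ρ hρ
      have hlt : finrank k (V ⧸ fixedSub ρ) < n := by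
        rw [← hn]
        have h1 : 0 < finrank k (fixedSub ρ) := by
          rw [Module.finrank_pos_iff_exists_ne_zero]
          exact ⟨⟨v, hv⟩, fun h => hv0 (congrArg Subtype.val h)⟩
        have h2 := (fixedSub ρ).finrank_quotient_add_finrank
        omega
      have hfin : Finite (quotRep ρ).toHomUnits.range := ih _ hlt (V ⧸ fixedSub ρ) rfl G
        (quotRep ρ) fun g => isNilpotent_quotRep ρ (hρ g)
      set N : Subgroup G := (quotRep ρ).toHomUnits.ker with hN
      have hNi : N.FiniteIndex := Subgroup.finiteIndex_ker _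
      have hNfg : Group.FG N := Subgroup.fg_of_index_ne_zero N
      have hmem : ∀ g : N, quotRep ρ g = 1 := fun g =>
        congrArg Units.val (MonoidHom.mem_ker.mp g.2)
      refine finite_range_of_subgroup _ N ?_
      set f : N →* (End k V)ˣ := ρ.toHomUnits.comp N.subtype with hf
      have hfv : ∀ g : N, ((f g : (End k V)ˣ) : End k V) = ρ g := fun g => rfl
      have hcomm : ∀ x y : f.range, x * y = y * x := by
        rintro ⟨_, g, rfl⟩ ⟨_, h, rfl⟩
        apply Subtype.ext
        change f g * f h = f h * f g
        apply Units.ext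
        rw [Units.val_mul, Units.val_mul, hfv, hfv]
        ext1 v
        rw [Module.End.mul_apply, Module.End.mul_apply, apply_apply ρ _ (hmem h),
          apply_apply ρ _ (hmem g)]
        abel
      let _ : CommGroup f.range := { (inferInstance : Group f.range) with mul_comm := hcomm }
      have hRfg : Group.FG f.range := Group.fg_range f
      refine CommGroup.finite_of_fg_isMulTorsion f.range ?_
      rintro ⟨_, g, rfl⟩
      refine isOfFinOrder_iff_pow_eq_one.mpr ⟨p, hp.out.pos, ?_⟩
      have h1 : (f g) ^ p = 1 := by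
        apply Units.ext
        rw [Units.val_pow_eq_pow_val, hfv]
        ext1 v
        rw [pow_apply ρ (hmem g), ← Nat.cast_smul_eq_nsmul k, CharP.cast_eq_zero, zero_smul,
          add_zero]
        rfl
      exact Subtype.ext h1

end Fermat.Agent.Cor.SEL
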