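import Fermat.Agent.Corollaries.SEL.Ring
import Fermat.Agent.Corollaries.SEL.Unip

/-!
# The theorem of Burnside and Schur over every field

* `burnside_schur_char` : a finitely generated torsion group of matrices over a field of
  characteristic `p > 0` is finite;
* `burnside_schur_field` : **a finitely generated torsion group of matrices over a field is
  finite.**
-/

set_option autoImplicit false

universe u

open Matrix Module

namespace Fermat.Agent.Cor.SEL

/-- In characteristic `p`: a matrix congruent to one whose order is prime to `p` is one. -/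
theorem eq_zero_of_charP {R n : Type*} [CommRing R] [IsDomain R] [IsNoetherianRing R] [Fintype n]
    [DecidableEq n] {p : ℕ} [CharP R p] {𝔪 : Ideal R} (h𝔪 : 𝔪 ≠ ⊤) {A : Matrix n n R}
    (hA : ∀ a b, A a b ∈ 𝔪) {q : ℕ} (hqp : IsCoprime (q : ℤ) (p : ℤ)) (h : (1 + A) ^ q = 1) :
    A = 0 := by
  obtain ⟨X, hX⟩ := exists_one_add_pow A q
  obtain ⟨c, d, hcd⟩ := hqp
  have h1 : (c : R) * (q : R) = 1 := by
    have h2 := congrArg (Int.cast : ℤ → R) hcd
    push_cast at h2
    rwa [CharP.cast_eq_zero R p, mul_zero, add_zero] at h2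
  have h2 : (q : Matrix n n R) * A = -(A ^ 2 * X) := by
    rw [h, add_assoc] at hX
    exact eq_neg_of_add_eq_zero_left (add_eq_left.mp hX.symm)
  have h3 : ∀ a b, A a b = -((c : R) * (A ^ 2 * X) a b) := by
    intro a b
    have h4 := congrFun (congrFun h2 a) b
    rw [← nsmul_eq_mul, Matrix.smul_apply, nsmul_eq_mul, Matrix.neg_apply] at h4
    calc A a b = (c : R) * (q : R) * A a b := by rw [h1, one_mul]
      _ = (c : R) * ((q : R) * A a b) := mul_assoc _ _ _
      _ = _ := by rw [h4, mul_neg]
  have h4 : ∀ j : ℕ, ∀ a b, A a b ∈ 𝔪 ^ (j + 1) := by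
    intro j
    induction j with
    | zero =>
      intro a b
      simpa using hA a b
    | succ j ih =>
      intro a b
      rw [h3 a b]
      refine neg_mem (Ideal.mul_mem_left _ _ ?_)
      have h5 := mul_mem_entries (J := ⊤) (mul_mem_entries ih ih) (B := X) (fun _ _ => trivial) a b
      rw [Ideal.mul_top, ← pow_add, ← pow_two] at h5
      exact Ideal.pow_le_pow_right (by omega) h5
  ext a b
  have hbot := Ideal.iInf_pow_eq_bot_of_isDomain 𝔪 h𝔪
  rw [Matrix.zero_apply, ← Ideal.mem_bot, ← hbot, Ideal.mem_iInf]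
  exact fun i => Ideal.pow_le_pow_right (Nat.le_succ i) (h4 i a b)

/-- The representation over the algebraic closure. -/
noncomputable def toEnd (K n : Type*) [Field K] [Fintype n] [DecidableEq n] :
    Matrix n n K →+* End (AlgebraicClosure K) (n → AlgebraicClosure K) :=
  (Matrix.toLinAlgEquiv' (R := AlgebraicClosure K) (n := n)).toAlgHom.toRingHom.comp
    (algebraMap K (AlgebraicClosure K)).mapMatrix

theorem toEnd_injective (K n : Type*) [Field K] [Fintype n] [DecidableEq n] :
    Function.Injective (toEnd K n) :=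
  (Matrix.toLinAlgEquiv' (R := AlgebraicClosure K) (n := n)).injective.comp
    (Matrix.map_injective (algebraMap K (AlgebraicClosure K)).injective)

/-- A finitely generated group of unipotent matrices in characteristic `p` is finite. -/
theorem finite_of_unipotent {K n G : Type*} [Field K] {p : ℕ} [hp : Fact p.Prime] [CharP K p]
    [Fintype n] [DecidableEq n] [Group G] [Group.FG G] (f : G →* GL n K)
    (hf : Function.Injective f) (h : ∀ g, IsNilpotent ((f g : Matrix n n K) - 1)) : Finite G := by
  have hchar : CharP (AlgebraicClosure K) p :=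
    charP_of_injective_algebraMap (algebraMap K (AlgebraicClosure K)).injective p
  let ρ : G →* End (AlgebraicClosure K) (n → AlgebraicClosure K) :=
    (toEnd K n).toMonoidHom.comp ((Units.coeHom (Matrix n n K)).comp f)
  have hρ : ∀ g, ρ g = toEnd K n (f g) := fun g => rfl
  have h1 := finite_range_of_unipotent (p := p) _ (n → AlgebraicClosure K) rfl G ρ fun g => by
    rw [hρ, ← map_one (toEnd K n), ← map_sub]
    exact (h g).map (toEnd K n)
  have hinj : Function.Injective ρ.toHomUnits := by
    intro a b hab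
    have h2 : ρ a = ρ b := congrArg Units.val hab
    exact hf (Units.ext (toEnd_injective K n h2))
  exact Finite.of_injective ρ.toHomUnits.rangeRestrict fun a b hab =>
    hinj (congrArg Subtype.val hab)

/-- **The theorem of Burnside and Schur in characteristic `p`.** -/
theorem burnside_schur_char {K : Type u} [Field K] {p : ℕ} [hp : Fact p.Prime] [CharP K p]
    {n : Type*} [Fintype n] [DecidableEq n] (Γ : Subgroup (GL n K)) (hΓ : Γ.FG)
    (h : ∀ g ∈ Γ, IsOfFinOrder g) : Finite Γ := by
  classical
  obtain ⟨G0, hG0⟩ := exists_lift Γ hΓ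
  set R := Algebra.adjoin ℤ (G0 : Set K) with hR
  obtain ⟨f, hf⟩ := hG0
  have hft : Algebra.FiniteType ℤ R := (Subalgebra.fg_iff_finiteType _).mp ⟨G0, rfl⟩
  have hNoeth : IsNoetherianRing R := isNoetherianRing_of_fg ⟨G0, rfl⟩
  have hinj : Function.Injective (algebraMap R K) := Subtype.val_injective
  have hchar : CharP R p := (RingHom.charP_iff (algebraMap R K) hinj p).mpr inferInstance
  obtain ⟨𝔪, hM⟩ := Ideal.exists_maximal R
  let F : Field (R ⧸ 𝔪) := Ideal.Quotient.field 𝔪
  have h2 : Algebra.FiniteType ℤ (R ⧸ 𝔪) :=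
    Algebra.FiniteType.of_surjective (Ideal.Quotient.mkₐ ℤ 𝔪) (Ideal.Quotient.mkₐ_surjective ℤ 𝔪)
  have h3 : Finite (R ⧸ 𝔪) := @finite_of_finiteType (R ⧸ 𝔪) F h2
  have hfin : Finite (GL n (R ⧸ 𝔪)) := inferInstance
  have hΓfg : Group.FG Γ := (Group.fg_iff_subgroup_fg Γ).mpr hΓ
  set N : Subgroup Γ := ((GeneralLinearGroup.map (Ideal.Quotient.mk 𝔪)).comp f).ker with hN
  have hNi : N.FiniteIndex := Subgroup.finiteIndex_ker _
  have hNfg : Group.FG N := Subgroup.fg_of_index_ne_zero N
  have hunip : ∀ g : N, IsNilpotent ((((g : Γ) : GL n K) : Matrix n n K) - 1) := by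
    intro g
    have hgf : IsOfFinOrder (g : Γ) :=
      (Submonoid.isOfFinOrder_coe (H := Γ.toSubmonoid) (x := (g : Γ))).mp (h _ (g : Γ).2)
    obtain ⟨a, m, hm, hord⟩ := Nat.exists_eq_pow_mul_and_not_dvd hgf.orderOf_pos.ne' p
      hp.out.ne_one
    have h4 : f ((g : Γ) ^ p ^ a) ^ m = 1 := by
      rw [← map_pow, ← pow_mul, ← hord, pow_orderOf_eq_one, map_one]
    have hmem : (g : Γ) ^ p ^ a ∈ N := N.pow_mem g.2 _
    have h5 := (map_mk_eq_one_iff 𝔪 _).mp (MonoidHom.mem_ker.mp hmem)
    have hcop : IsCoprime (m : ℤ) (p : ℤ) := by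
      rw [Nat.isCoprime_iff_coprime]
      exact ((Nat.Prime.coprime_iff_not_dvd hp.out).mpr hm).symm
    have h6 : (f ((g : Γ) ^ p ^ a) : Matrix n n R) - 1 = 0 := by
      refine eq_zero_of_charP hM.ne_top h5 hcop ?_
      rw [add_sub_cancel]
      have := congrArg (Units.val : GL n R → _) h4
      simpa using this
    have h7 : (g : Γ) ^ p ^ a = 1 := by
      have h8 := hf ((g : Γ) ^ p ^ a)
      rw [show f ((g : Γ) ^ p ^ a) = 1 from Units.ext (sub_eq_zero.mp h6), map_one] at h8
      exact Subtype.ext h8.symm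
    refine ⟨p ^ a, ?_⟩
    rcases isEmpty_or_nonempty n with hn | hn
    · have hsub : Subsingleton (Matrix n n K) := inferInstance
      exact hsub.elim _ _
    · have hcharM : CharP (Matrix n n K) p := Matrix.charP p
      rw [sub_pow_char_pow_of_commute _ _ (Commute.one_right _), one_pow]
      have h9 := congrArg (fun x : Γ => ((x : GL n K) : Matrix n n K)) h7
      have h10 : (((g : Γ) : GL n K) : Matrix n n K) ^ p ^ a = 1 := by simpa using h9
      rw [h10, sub_self]
  have hNfin : Finite N := finite_of_unipotent (p := p) (Γ.subtype.comp N.subtype)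
    (Γ.subtype_injective.comp N.subtype_injective) hunip
  exact Subgroup.finite_iff_finite_and_finiteIndex (H := N) |>.mpr ⟨hNfin, hNi⟩

/-- **The theorem of Burnside and Schur.** A finitely generated torsion group of matrices over a
field is finite. -/
theorem burnside_schur_field {K : Type u} [Field K] {n : Type*} [Fintype n] [DecidableEq n]
    (Γ : Subgroup (GL n K)) (hΓ : Γ.FG) (h : ∀ g ∈ Γ, IsOfFinOrder g) : Finite Γ := by
  obtain ⟨p, hp⟩ := CharP.exists K
  rcases CharP.char_is_prime_or_zero K p with hpp | rfl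
  · have : Fact p.Prime := ⟨hpp⟩
    exact burnside_schur_char (p := p) Γ hΓ h
  · have := CharP.charP_to_charZero K
    exact burnside_schur Γ hΓ h

end Fermat.Agent.Cor.SEL
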