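import Fermat.Agent.Corollaries.SEL.Schur

/-!
# The degrees of the faithful representations of simple groups

* `card_le_of_normal` : a finite group without commutative normal subgroups `≠ 1` which has a
  faithful representation of degree `n` over a field of characteristic zero is of order at most
  `25 ^ (n ^ 2)`;
* `card_le_of_isSimpleGroup` : **so for a finite simple group which is not commutative: for every
  `n` there are only finitely many of them with a nontrivial representation of degree `n`.**
-/

set_option autoImplicit false

universe u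

open Matrix

namespace Fermat.Agent.Cor.SEL

theorem card_le_of_normal {K : Type u} [Field K] [CharZero K] {n G : Type*} [Fintype n]
    [DecidableEq n] [Group G] [Finite G]
    (hG : ∀ N : Subgroup G, N.Normal → (∀ x ∈ N, ∀ y ∈ N, x * y = y * x) → N = ⊥)
    (ρ : G →* GL n K) (hρ : Function.Injective ρ) : Nat.card G ≤ 25 ^ (Fintype.card n ^ 2) := by
  have h0 : Finite ρ.range := Finite.of_surjective _ ρ.rangeRestrict_surjective
  obtain ⟨τ, hτ⟩ := exists_complex ρ.range
  obtain ⟨N, h1, h2, -, h3⟩ := jordan_of_injective (τ.comp ρ.rangeRestrict)
    (hτ.comp fun x y h => hρ (congrArg Subtype.val h))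
  rw [hG N h1 h2, Subgroup.index_bot] at h3
  exact h3

/-- **The order of a finite simple group with a nontrivial representation of degree `n`.** -/
theorem card_le_of_isSimpleGroup {K : Type u} [Field K] [CharZero K] {n G : Type*} [Fintype n]
    [DecidableEq n] [Group G] [Finite G] [IsSimpleGroup G] (hG : ∃ x y : G, x * y ≠ y * x)
    (ρ : G →* GL n K) (hρ : ρ ≠ 1) : Nat.card G ≤ 25 ^ (Fintype.card n ^ 2) := by
  refine card_le_of_normal (fun N hN hc => ?_) ρ ?_
  · rcases hN.eq_bot_or_eq_top with h | h
    · exact h
    · obtain ⟨x, y, hxy⟩ := hG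
      exact absurd (hc x (by rw [h]; trivial) y (by rw [h]; trivial)) hxy
  · rw [← MonoidHom.ker_eq_bot_iff]
    rcases (inferInstance : ρ.ker.Normal).eq_bot_or_eq_top with h | h
    · exact h
    · exact absurd (MonoidHom.ext fun x => MonoidHom.mem_ker.mp (by rw [h]; trivial)) hρ

end Fermat.Agent.Cor.SEL
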