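import Fermat.Agent.Corollaries.SEL.Hall
import Fermat.Agent.Corollaries.SEL.Free

/-!
# Semidirect products of residually finite groups

* `residuallyFinite_semidirectProduct` : **if `N` is finitely generated and residually finite and
  `H` is residually finite, then every semidirect product of `N` and `H` is residually finite
  (Malcev);**
* `residuallyFinite_holomorph` : the holomorph of a finitely generated residually finite group is
  residually finite;
* `residuallyFinite_freeGroup_semidirectProduct` : `F_α ⋊ H`, `α` finite;
* `residuallyFinite_of_finiteIndex` : extensions of residually finite subgroups of finite index.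
-/

set_option autoImplicit false

namespace Fermat.Agent.Cor.SEL

section Sub

variable {N H : Type*} [Group N] [Group H] (φ : H →* MulAut N)

/-- The elements of the semidirect product whose first component is in `C`. -/
def leftSub (C : Subgroup N) [hC : C.Characteristic] : Subgroup (N ⋊[φ] H) where
  carrier := {g | g.left ∈ C}
  one_mem' := C.one_mem
  mul_mem' := by
    intro a b ha hb
    change (a * b).left ∈ C
    rw [SemidirectProduct.mul_left]
    refine C.mul_mem ha ?_
    exact (Subgroup.characteristic_iff_le_comap.mp hC (φ a.right)) hb
  inv_mem' := by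
    intro a ha
    change (a⁻¹).left ∈ C
    rw [SemidirectProduct.inv_left]
    exact (Subgroup.characteristic_iff_le_comap.mp hC (φ a.right⁻¹)) (C.inv_mem ha)

theorem mem_leftSub (C : Subgroup N) [C.Characteristic] (g : N ⋊[φ] H) :
    g ∈ leftSub φ C ↔ g.left ∈ C := Iff.rfl

theorem finiteIndex_leftSub (C : Subgroup N) [hC : C.Characteristic] [C.FiniteIndex] :
    (leftSub φ C).FiniteIndex := by
  have hf : Finite (N ⧸ C) := inferInstance
  let f : (N ⋊[φ] H) ⧸ leftSub φ C → N ⧸ C := fun q => (Quotient.out q).left
  have hinj : Function.Injective f := by
    intro q r h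
    have h1 : (Quotient.out q).left⁻¹ * (Quotient.out r).left ∈ C := QuotientGroup.eq.mp h
    rw [← QuotientGroup.out_eq' q, ← QuotientGroup.out_eq' r, QuotientGroup.eq, mem_leftSub,
      SemidirectProduct.mul_left, SemidirectProduct.inv_left, SemidirectProduct.inv_right,
      ← map_mul]
    exact (Subgroup.characteristic_iff_le_comap.mp hC _) h1
  have hfin : Finite ((N ⋊[φ] H) ⧸ leftSub φ C) := Finite.of_injective f hinj
  exact Subgroup.finiteIndex_of_finite_quotient

/-- **A semidirect product of a finitely generated residually finite group and a residually finite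
group is residually finite.** -/
theorem residuallyFinite_semidirectProduct [Group.FG N] [Group.ResiduallyFinite N]
    [Group.ResiduallyFinite H] : Group.ResiduallyFinite (N ⋊[φ] H) := by
  rw [Group.residuallyFinite_iff_exists_finiteIndex]
  intro g hg
  by_cases h : g.right = 1
  · have h1 : g.left ≠ 1 := fun h1 => hg (SemidirectProduct.ext h1 h)
    obtain ⟨K, hK⟩ := Group.exists_finiteIndexNormalSubgroup_notMem g.left h1
    have hKf : K.toSubgroup.FiniteIndex := inferInstance
    obtain ⟨C, hCK, hC, hCf⟩ := exists_characteristic K.toSubgroup
    exact ⟨leftSub φ C, finiteIndex_leftSub φ C, fun h2 => hK (hCK h2)⟩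
  · obtain ⟨K, hK⟩ := Group.exists_finiteIndexNormalSubgroup_notMem g.right h
    have hKf : K.toSubgroup.FiniteIndex := inferInstance
    refine ⟨K.toSubgroup.comap SemidirectProduct.rightHom, ⟨?_⟩, hK⟩
    rw [Subgroup.index_comap_of_surjective _ SemidirectProduct.rightHom_surjective]
    exact hKf.index_ne_zero

end Sub

/-- The holomorph of a finitely generated residually finite group is residually finite. -/
theorem residuallyFinite_holomorph (G : Type*) [Group G] [Group.FG G] [Group.ResiduallyFinite G] :
    Group.ResiduallyFinite (G ⋊[MonoidHom.id (MulAut G)] MulAut G) := by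
  have := baumslag G
  exact residuallyFinite_semidirectProduct _

/-- The semidirect products of a finitely generated free group and a residually finite group are
residually finite. -/
theorem residuallyFinite_freeGroup_semidirectProduct (α : Type*) [Finite α] {H : Type*} [Group H]
    [Group.ResiduallyFinite H] (φ : H →* MulAut (FreeGroup α)) :
    Group.ResiduallyFinite (FreeGroup α ⋊[φ] H) := by
  have := residuallyFinite_freeGroup α
  exact residuallyFinite_semidirectProduct φ

/-- A group with a residually finite subgroup of finite index is residually finite. -/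
theorem residuallyFinite_of_finiteIndex {G : Type*} [Group G] (H : Subgroup G) [hH : H.FiniteIndex]
    [Group.ResiduallyFinite H] : Group.ResiduallyFinite G := by
  rw [Group.residuallyFinite_iff_exists_finiteIndex]
  intro g hg
  by_cases h : g ∈ H
  · have h1 : (⟨g, h⟩ : H) ≠ 1 := fun h1 => hg (congrArg Subtype.val h1)
    obtain ⟨K, hK⟩ := Group.exists_finiteIndexNormalSubgroup_notMem _ h1
    have hKf : K.toSubgroup.FiniteIndex := inferInstance
    refine ⟨K.toSubgroup.map H.subtype, ⟨?_⟩, ?_⟩
    · rw [Subgroup.index_map_subtype]
      exact mul_ne_zero hKf.index_ne_zero hH.index_ne_zero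
    · rintro ⟨y, hy, hyg⟩
      have h2 : y = ⟨g, h⟩ := Subtype.ext hyg
      rw [h2] at hy
      exact hK hy
  · exact ⟨H, hH, h⟩

end Fermat.Agent.Cor.SEL
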