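import Mathlib

/-!
# Matrices of finite order which are congruent to one

`T` is a commutative ring in which the prime number `p` is not a zero divisor and `⋂ p^j T = 0`.
If `A ∈ p^j M_n(T)`, `j ≥ 1` (`j ≥ 2` for `p = 2`) and `1 + A` is of finite order, then `A = 0`.

* `eq_zero_of_pow_eq_one` : the statement for `(1 + A) ^ q = 1`, `q` a prime number;
* `eq_one_of_isOfFinOrder` : a group version.
-/

set_option autoImplicit false

namespace Fermat.Agent.Cor.SEL

theorem exists_one_add_pow {M : Type*} [Ring M] (A : M) (n : ℕ) :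
    ∃ X, (1 + A) ^ n = 1 + (n : M) * A + A ^ 2 * X := by
  induction n with
  | zero => exact ⟨0, by simp⟩
  | succ n ih =>
    obtain ⟨X, hX⟩ := ih
    refine ⟨(n : M) + X + X * A, ?_⟩
    have h : A * (n : M) = (n : M) * A := (Nat.cast_commute n A).eq.symm
    have h' : (n : M) * A * A = A * A * (n : M) := by
      rw [mul_assoc, ← (Nat.cast_commute n (A * A)).eq]
    rw [pow_succ, hX, Nat.cast_add, Nat.cast_one, pow_two, mul_add, mul_one, add_mul, add_mul,
      one_mul, h', mul_add, mul_add, add_mul, one_mul, mul_assoc (A * A) X A]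
    abel

theorem exists_one_add_pow_prime {M : Type*} [Ring M] (A : M) {p : ℕ} (hp : p.Prime) :
    ∃ X, (1 + A) ^ p = 1 + (p : M) * A + (p : M) * (A ^ 2 * X) + A ^ p := by
  have h1 := (Commute.one_right A).add_pow_prime_eq' hp
  have h2 : Finset.Ioo 0 p = insert 1 (Finset.Ioo 1 p) := by
    ext k
    have := hp.one_lt
    simp only [Finset.mem_Ioo, Finset.mem_insert]
    omega
  have h3 : ∑ k ∈ Finset.Ioo 0 p, A ^ k * 1 ^ (p - k) * ((p.choose k / p : ℕ) : M) =
      A + A ^ 2 * ∑ k ∈ Finset.Ioo 1 p, A ^ (k - 2) * ((p.choose k / p : ℕ) : M) := by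
    rw [h2, Finset.sum_insert (by simp), Nat.choose_one_right, Nat.div_self hp.pos, Finset.mul_sum]
    congr 1
    · simp
    · refine Finset.sum_congr rfl fun k hk => ?_
      rw [Finset.mem_Ioo] at hk
      rw [one_pow, mul_one, ← mul_assoc, ← pow_add]
      congr 2
      omega
  refine ⟨∑ k ∈ Finset.Ioo 1 p, A ^ (k - 2) * ((p.choose k / p : ℕ) : M), ?_⟩
  rw [add_comm 1 A, h1, h3, mul_add, one_pow]
  abel

/-- The step. -/
theorem exists_eq_mul {M : Type*} [Ring M] {p q : ℕ} (hp : p.Prime) (hq : q.Prime)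
    (hM : ∀ x : M, (p : M) * x = 0 → x = 0) {j : ℕ} (hj : 0 < j) (hj' : j + 2 ≤ p * j) {B : M}
    (h : (1 + (p : M) ^ j * B) ^ q = 1) : ∃ C, B = (p : M) * C := by
  have hMj : ∀ (k : ℕ) (x : M), (p : M) ^ k * x = 0 → x = 0 := by
    intro k
    induction k with
    | zero =>
      intro x hx
      rwa [pow_zero, one_mul] at hx
    | succ k ih =>
      intro x hx
      rw [pow_succ', mul_assoc] at hx
      exact ih x (hM _ hx)
  have hc : ∀ (k : ℕ) (x : M), Commute ((p : M) ^ k) x := fun k x =>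
    (Nat.cast_commute p x).pow_left k
  obtain ⟨i, rfl⟩ : ∃ i, j = i + 1 := ⟨j - 1, by omega⟩
  have hpow : ∀ k, ((p : M) ^ (i + 1) * B) ^ k = (p : M) ^ ((i + 1) * k) * B ^ k := fun k => by
    rw [(hc (i + 1) B).mul_pow, ← pow_mul]
  by_cases hpq : q = p
  · subst hpq
    obtain ⟨X, hX⟩ := exists_one_add_pow_prime ((q : M) ^ (i + 1) * B) hp
    rw [h, hpow, hpow] at hX
    obtain ⟨l, hl⟩ : ∃ l, (i + 1) * q = (i + 1) + 1 + (1 + l) :=
      ⟨(i + 1) * q - (i + 3), by rw [mul_comm (i + 1) q]; omega⟩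
    have h1 : (q : M) ^ (i + 1 + 1) * (B + (q : M) * ((q : M) ^ i * (B ^ 2 * X)) +
        (q : M) * ((q : M) ^ l * B ^ q)) = 0 := by
      have e1 : (q : M) ^ (i + 1 + 1) * B = (q : M) * ((q : M) ^ (i + 1) * B) := by
        rw [← mul_assoc, ← pow_succ']
      have e2 : (q : M) ^ (i + 1 + 1) * ((q : M) * ((q : M) ^ i * (B ^ 2 * X))) =
          (q : M) * ((q : M) ^ ((i + 1) * 2) * B ^ 2 * X) := by
        simp only [← mul_assoc, ← pow_succ', ← pow_add]
        congr 3
        ring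
      have e3 : (q : M) ^ (i + 1 + 1) * ((q : M) * ((q : M) ^ l * B ^ q)) =
          (q : M) ^ ((i + 1) * q) * B ^ q := by
        rw [hl, ← mul_assoc, ← mul_assoc, ← pow_succ, ← pow_add]
        congr 2
        ring
      rw [mul_add, mul_add, e1, e2, e3]
      have h2 := hX.symm
      rw [add_assoc, add_assoc, add_eq_left, ← add_assoc] at h2
      exact h2
    have h2 := hMj _ _ h1
    refine ⟨-((q : M) ^ i * (B ^ 2 * X) + (q : M) ^ l * B ^ q), ?_⟩
    rw [mul_neg, mul_add]
    rw [add_assoc] at h2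
    exact eq_neg_of_add_eq_zero_left h2
  · obtain ⟨X, hX⟩ := exists_one_add_pow ((p : M) ^ (i + 1) * B) q
    rw [h, hpow] at hX
    have h1 : (p : M) ^ (i + 1) * ((q : M) * B + (p : M) * ((p : M) ^ i * (B ^ 2 * X))) = 0 := by
      have e1 : (p : M) ^ (i + 1) * ((q : M) * B) = (q : M) * ((p : M) ^ (i + 1) * B) := by
        rw [← mul_assoc, (hc (i + 1) (q : M)).eq, mul_assoc]
      have e2 : (p : M) ^ (i + 1) * ((p : M) * ((p : M) ^ i * (B ^ 2 * X))) =
          (p : M) ^ ((i + 1) * 2) * B ^ 2 * X := by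
        rw [mul_assoc _ (B ^ 2) X, ← mul_assoc, ← mul_assoc, ← pow_succ, ← pow_add]
        congr 2
        ring
      rw [mul_add, e1, e2]
      have h2 := hX.symm
      rw [add_assoc, add_eq_left] at h2
      exact h2
    have h2 := hMj _ _ h1
    have hcop : IsCoprime (q : ℤ) (p : ℤ) := by
      rw [Nat.isCoprime_iff_coprime]
      exact (Nat.coprime_primes hq hp).mpr hpq
    obtain ⟨a, b, hab⟩ := hcop
    refine ⟨(b : M) * B - (a : M) * ((p : M) ^ i * (B ^ 2 * X)), ?_⟩
    have h3 : (q : M) * B = -((p : M) * ((p : M) ^ i * (B ^ 2 * X))) :=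
      eq_neg_of_add_eq_zero_left h2
    have h4 : (a : M) * (q : M) + (b : M) * (p : M) = 1 := by
      have := congrArg (Int.cast : ℤ → M) hab
      push_cast at this
      exact this
    calc B = ((a : M) * (q : M) + (b : M) * (p : M)) * B := by rw [h4, one_mul]
      _ = (a : M) * ((q : M) * B) + (b : M) * (p : M) * B := by rw [add_mul, mul_assoc]
      _ = _ := by
        rw [h3, mul_neg, mul_sub, ← (Nat.cast_commute p (b : M)).eq, ← mul_assoc (a : M) (p : M),
          ← (Nat.cast_commute p (a : M)).eq, mul_assoc, mul_assoc]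
        abel

/-- **A matrix `A ∈ p^j M_n(T)` with `(1 + A) ^ q = 1` is zero.** -/
theorem eq_zero_of_pow_eq_one {T n : Type*} [CommRing T] [Fintype n] [DecidableEq n] {p q : ℕ}
    (hp : p.Prime) (hq : q.Prime) (hT : ∀ x : T, (p : T) * x = 0 → x = 0)
    (hK : ∀ x : T, (∀ j : ℕ, (p : T) ^ j ∣ x) → x = 0) {j : ℕ} (hj : 0 < j) (hj' : j + 2 ≤ p * j)
    {A : Matrix n n T} (hA : ∀ a b, (p : T) ^ j ∣ A a b) (h : (1 + A) ^ q = 1) : A = 0 := by
  classical
  have hdvd : ∀ (k : ℕ) (A : Matrix n n T), (∀ a b, (p : T) ^ k ∣ A a b) ↔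
      ∃ B, A = (p : Matrix n n T) ^ k * B := by
    intro k A
    have hcast : ∀ B : Matrix n n T, (p : Matrix n n T) ^ k * B = (p : T) ^ k • B := fun B => by
      rw [← Nat.cast_pow, ← Nat.cast_pow, ← nsmul_eq_mul]
      ext a b
      rw [Matrix.smul_apply, Matrix.smul_apply, nsmul_eq_mul, smul_eq_mul]
    constructor
    · intro h
      choose B hB using h
      exact ⟨Matrix.of B, by rw [hcast]; ext a b; simpa using hB a b⟩
    · rintro ⟨B, rfl⟩ a b
      rw [hcast]
      exact ⟨B a b, rfl⟩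
  have hM : ∀ x : Matrix n n T, (p : Matrix n n T) * x = 0 → x = 0 := by
    intro x hx
    ext a b
    apply hT
    rw [← nsmul_eq_mul] at hx
    have := congrFun (congrFun hx a) b
    rwa [Matrix.smul_apply, nsmul_eq_mul] at this
  by_contra hne
  obtain ⟨a, b, hab⟩ : ∃ a b, A a b ≠ 0 := by
    by_contra! h0
    exact hne (by ext a b; exact h0 a b)
  have hex : ∃ k : ℕ, ¬ ∀ a b, (p : T) ^ k ∣ A a b := by
    by_contra! h0
    exact hab (hK _ fun k => h0 k a b)
  classical
  set k := Nat.find hex with hk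
  have hk1 : ¬ ∀ a b, (p : T) ^ k ∣ A a b := Nat.find_spec hex
  have hk2 : j < k := by
    by_contra hle
    exact hk1 fun a b => (pow_dvd_pow _ (not_lt.mp hle)).trans (hA a b)
  obtain ⟨i, hi⟩ : ∃ i, k = i + 1 := ⟨k - 1, by omega⟩
  have hi1 : ∀ a b, (p : T) ^ i ∣ A a b := by
    by_contra h0
    have := Nat.find_min' hex h0
    omega
  obtain ⟨B, hB⟩ := (hdvd i A).mp hi1
  have hi2 : i + 2 ≤ p * i := by
    obtain ⟨l, rfl⟩ : ∃ l, i = j + l := ⟨i - j, by omega⟩
    have := hp.two_le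
    nlinarith
  rw [hB] at h
  obtain ⟨C, hC⟩ := exists_eq_mul hp hq hM (by omega) hi2 h
  apply hk1
  rw [hdvd]
  exact ⟨C, by rw [hB, hC, hi, pow_succ, mul_assoc]⟩

/-- A group, a subgroup in which no element is of prime order: only the trivial element is of finite
order. -/
theorem eq_one_of_isOfFinOrder {G : Type*} [Group G] {H : Subgroup G}
    (h : ∀ (q : ℕ) (g : G), q.Prime → g ∈ H → g ^ q = 1 → g = 1) {g : G} (hg : g ∈ H)
    (hfin : IsOfFinOrder g) : g = 1 := by
  by_contra hne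
  have h1 : orderOf g ≠ 1 := fun h => hne (orderOf_eq_one_iff.mp h)
  have h2 := Nat.minFac_prime h1
  have h3 := Nat.minFac_dvd (orderOf g)
  have h4 : 0 < orderOf g := hfin.orderOf_pos
  have h5 : g ^ (orderOf g / (orderOf g).minFac) = 1 := by
    refine h _ _ h2 (H.pow_mem hg _) ?_
    rw [← pow_mul, Nat.div_mul_cancel h3, pow_orderOf_eq_one]
  have h6 := orderOf_dvd_of_pow_eq_one h5
  have h7 : orderOf g / (orderOf g).minFac < orderOf g := Nat.div_lt_self h4 h2.one_lt
  have h8 : 0 < orderOf g / (orderOf g).minFac :=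
    Nat.div_pos (Nat.le_of_dvd h4 h3) h2.pos
  exact absurd (Nat.le_of_dvd h8 h6) (not_le.mpr h7)

end Fermat.Agent.Cor.SEL
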